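/-
W2-C (S55) block D (helper15): level-constant cohomology in degrees `0, 1, 2` for a group `G`
with a level structure `𝓤` (a directed family of normal subgroups of finite index).
Basic definitions and lemmas on cochains.

* `H15D.Levels G` : level structures;  `IsSmooth 𝓤 A` : every element of `A` is fixed by a level;
* `IsLC₁ 𝓤 f`, `IsLC₂ 𝓤 c` : level-constant cochains; `lc₁`, `lc₂` the submodules of such cochains;
* `isLC₂_d₁₂` : the coboundary of a level-constant cochain of a smooth module is level-constant;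
* `isLC₁_d₀₁` : coboundaries `g ↦ g m - m` in a smooth module are level-constant;
* `exists_lift₁`, `exists_lift₂` : level-constant cochains lift along surjections;
* `lcZ1`, `lcZ2`, `lcB1`, `lcB2`, `lcH1`, `lcH2` and the projections `lcH1π`, `lcH2π`.
-/
import Mathlib
import Fermat.Agent.CFT2.F.Core_helper15

set_option autoImplicit false
set_option linter.style.haveILetI false

noncomputable section

namespace H15D

open groupCohomology H15F

/-- a level structure on a group: a nonempty directed family of normal subgroups of finite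
index -/
structure Levels (G : Type) [Group G] where
  /-- the levels -/
  sets : Set (Subgroup G)
  nonempty : sets.Nonempty
  directed : ∀ U ∈ sets, ∀ V ∈ sets, ∃ W ∈ sets, W ≤ U ⊓ V
  normal : ∀ U ∈ sets, U.Normal
  finite : ∀ U ∈ sets, U.FiniteIndex

variable {k : Type} [CommRing k] {G : Type} [Group G] (𝓤 : Levels G)

/-- every element of `A` is fixed by some level -/
def IsSmooth (A : Rep.{0} k G) : Prop := ∀ m : A, ∃ U ∈ 𝓤.sets, ∀ s ∈ U, A.ρ s m = m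

section sets

variable {X : Type*}

/-- level-constant 1-cochains -/
def IsLC₁ (f : G → X) : Prop := ∃ U ∈ 𝓤.sets, IsRConst₁ U f

/-- level-constant 2-cochains -/
def IsLC₂ (f : G × G → X) : Prop := ∃ U ∈ 𝓤.sets, IsRConst₂ U f

variable {𝓤}

theorem IsLC₁.comp {Y : Type*} {f : G → X} (hf : IsLC₁ 𝓤 f) (φ : X → Y) :
    IsLC₁ 𝓤 (fun g => φ (f g)) := by
  obtain ⟨U, hU, h⟩ := hf
  exact ⟨U, hU, fun g s hs => by show φ (f (g * s)) = φ (f g); rw [h g s hs]⟩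

theorem IsLC₂.comp {Y : Type*} {f : G × G → X} (hf : IsLC₂ 𝓤 f) (φ : X → Y) :
    IsLC₂ 𝓤 (fun g => φ (f g)) := by
  obtain ⟨U, hU, h⟩ := hf
  exact ⟨U, hU, fun g g' s s' hs hs' => by
    show φ (f (g * s, g' * s')) = φ (f (g, g')); rw [h g g' s s' hs hs']⟩

theorem IsLC₁.comp₂ {Y Z : Type*} {f : G → X} {f' : G → Y} (hf : IsLC₁ 𝓤 f) (hf' : IsLC₁ 𝓤 f')
    (φ : X → Y → Z) : IsLC₁ 𝓤 (fun g => φ (f g) (f' g)) := by
  obtain ⟨U, hU, h⟩ := hf
  obtain ⟨U', hU', h'⟩ := hf'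
  obtain ⟨W, hW, hWle⟩ := 𝓤.directed U hU U' hU'
  exact ⟨W, hW, fun g s hs => by
    show φ (f (g * s)) (f' (g * s)) = φ (f g) (f' g)
    rw [h g s (hWle hs).1, h' g s (hWle hs).2]⟩

theorem IsLC₂.comp₂ {Y Z : Type*} {f : G × G → X} {f' : G × G → Y} (hf : IsLC₂ 𝓤 f)
    (hf' : IsLC₂ 𝓤 f') (φ : X → Y → Z) : IsLC₂ 𝓤 (fun g => φ (f g) (f' g)) := by
  obtain ⟨U, hU, h⟩ := hf
  obtain ⟨U', hU', h'⟩ := hf'
  obtain ⟨W, hW, hWle⟩ := 𝓤.directed U hU U' hU'
  exact ⟨W, hW, fun g g' s s' hs hs' => by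
    show φ (f (g * s, g' * s')) (f' (g * s, g' * s')) = φ (f (g, g')) (f' (g, g'))
    rw [h g g' s s' (hWle hs).1 (hWle hs').1, h' g g' s s' (hWle hs).2 (hWle hs').2]⟩

variable (𝓤) in
theorem isLC₁_const (x : X) : IsLC₁ 𝓤 (fun _ : G => x) := by
  obtain ⟨U, hU⟩ := 𝓤.nonempty
  exact ⟨U, hU, fun _ _ _ => rfl⟩

variable (𝓤) in
theorem isLC₂_const (x : X) : IsLC₂ 𝓤 (fun _ : G × G => x) := by
  obtain ⟨U, hU⟩ := 𝓤.nonempty
  exact ⟨U, hU, fun _ _ _ _ _ _ => rfl⟩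

/-- a cochain that is right-invariant under a subgroup of finite index has finitely many
values -/
theorem finite_range_of_isRConst₁ {U : Subgroup G} [U.FiniteIndex] {f : G → X}
    (hf : IsRConst₁ U f) : (Set.range f).Finite := by
  have hwd : ∀ a b : G, (QuotientGroup.leftRel U) a b → f a = f b := by
    intro a b hab
    rw [QuotientGroup.leftRel_apply] at hab
    have := hf a (a⁻¹ * b) hab
    rw [mul_inv_cancel_left] at this
    exact this.symm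
  let f' : G ⧸ U → X := Quotient.lift f hwd
  have : Set.range f = Set.range f' := by
    ext x
    constructor
    · rintro ⟨g, rfl⟩
      exact ⟨(g : G ⧸ U), rfl⟩
    · rintro ⟨q, rfl⟩
      obtain ⟨g, rfl⟩ := QuotientGroup.mk_surjective q
      exact ⟨g, rfl⟩
  rw [this]
  exact Set.finite_range f'

theorem finite_range_of_isLC₁ {f : G → X} (hf : IsLC₁ 𝓤 f) : (Set.range f).Finite := by
  obtain ⟨U, hU, h⟩ := hf
  haveI := 𝓤.finite U hU
  exact finite_range_of_isRConst₁ h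

end sets

variable {𝓤} {A : Rep.{0} k G}

/-- finitely many elements of a smooth module are fixed by a common level, which can be chosen
inside a given level -/
theorem exists_level_fixing (hA : IsSmooth 𝓤 A) {T : Set A} (hT : T.Finite)
    {U : Subgroup G} (hU : U ∈ 𝓤.sets) :
    ∃ V ∈ 𝓤.sets, V ≤ U ∧ ∀ t ∈ T, ∀ s ∈ V, A.ρ s t = t := by
  induction T, hT using Set.Finite.induction_on with
  | empty => exact ⟨U, hU, le_rfl, fun t ht => absurd ht (Set.notMem_empty t)⟩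
  | @insert a T _ _ ih =>
    obtain ⟨V, hV, hVU, hVT⟩ := ih
    obtain ⟨V', hV', ha⟩ := hA a
    obtain ⟨W, hW, hWle⟩ := 𝓤.directed V hV V' hV'
    refine ⟨W, hW, fun s hs => hVU (hWle hs).1, fun t ht s hs => ?_⟩
    rcases Set.mem_insert_iff.1 ht with rfl | ht
    · exact ha s (hWle hs).2
    · exact hVT t ht s (hWle hs).1

/-- the values of a level-constant cochain in a smooth module are fixed by a common level -/
theorem exists_level_fixing_range (hA : IsSmooth 𝓤 A) {f : G → A} (hf : IsLC₁ 𝓤 f) :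
    ∃ V ∈ 𝓤.sets, IsRConst₁ V f ∧ ∀ g, ∀ s ∈ V, A.ρ s (f g) = f g := by
  obtain ⟨U, hU, h⟩ := hf
  haveI := 𝓤.finite U hU
  obtain ⟨V, hV, hVU, hVT⟩ := exists_level_fixing hA (finite_range_of_isRConst₁ h) hU
  exact ⟨V, hV, h.mono hVU, fun g s hs => hVT _ ⟨g, rfl⟩ s hs⟩

theorem d₁₂_apply' (f : G → A) (g h : G) :
    (d₁₂ A).hom f (g, h) = A.ρ g (f h) - f (g * h) + f g := rfl

theorem d₀₁_apply' (m : A) (g : G) : (d₀₁ A).hom m g = A.ρ g m - m := rfl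

theorem d₂₃_apply' (c : G × G → A) (g h j : G) :
    (d₂₃ A).hom c (g, h, j) = A.ρ g (c (h, j)) - c (g * h, j) + c (g, h * j) - c (g, h) := rfl

/-- the coboundary of a level-constant cochain of a smooth module is level-constant -/
theorem isLC₂_d₁₂ (hA : IsSmooth 𝓤 A) {f : G → A} (hf : IsLC₁ 𝓤 f) :
    IsLC₂ 𝓤 ((d₁₂ A).hom f) := by
  obtain ⟨V, hV, hc, hfix⟩ := exists_level_fixing_range hA hf
  haveI := 𝓤.normal V hV
  refine ⟨V, hV, fun g g' s s' hs hs' => ?_⟩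
  rw [d₁₂_apply', d₁₂_apply', hc g' s' hs', hc g s hs, map_mul, Module.End.mul_apply,
    hfix g' s hs]
  have h1 : g * s * (g' * s') = g * g' * (g'⁻¹ * s * g' * s') := by group
  have h2 : g'⁻¹ * s * g' * s' ∈ V := by
    apply Subgroup.mul_mem _ _ hs'
    have := Subgroup.Normal.conj_mem (inferInstance : V.Normal) s hs g'⁻¹
    simpa using this
  rw [h1, hc _ _ h2]

/-- coboundaries `g ↦ g m - m` in a smooth module are level-constant -/
theorem isLC₁_d₀₁ (hA : IsSmooth 𝓤 A) (m : A) : IsLC₁ 𝓤 ((d₀₁ A).hom m) := by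
  obtain ⟨U, hU, h⟩ := hA m
  refine ⟨U, hU, fun g s hs => ?_⟩
  rw [d₀₁_apply', d₀₁_apply', map_mul, Module.End.mul_apply, h s hs]

/-- level-constant cochains lift along surjections -/
theorem exists_lift₁ {X Y : Type*} {π : X → Y} (hπ : Function.Surjective π) {U : Subgroup G}
    {f : G → Y} (hf : IsRConst₁ U f) :
    ∃ f' : G → X, IsRConst₁ U f' ∧ ∀ g, π (f' g) = f g :=
  ⟨fun g => Function.surjInv hπ (f g), fun g s hs => by
      show Function.surjInv hπ (f (g * s)) = Function.surjInv hπ (f g); rw [hf g s hs],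
    fun g => Function.surjInv_eq hπ (f g)⟩

theorem exists_lift₂ {X Y : Type*} {π : X → Y} (hπ : Function.Surjective π) {U : Subgroup G}
    {f : G × G → Y} (hf : IsRConst₂ U f) :
    ∃ f' : G × G → X, IsRConst₂ U f' ∧ ∀ g, π (f' g) = f g :=
  ⟨fun g => Function.surjInv hπ (f g), fun g g' s s' hs hs' => by
      show Function.surjInv hπ (f (g * s, g' * s')) = Function.surjInv hπ (f (g, g'))
      rw [hf g g' s s' hs hs'],
    fun g => Function.surjInv_eq hπ (f g)⟩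

theorem IsLC₁.exists_lift {X Y : Type*} {π : X → Y} (hπ : Function.Surjective π)
    {f : G → Y} (hf : IsLC₁ 𝓤 f) : ∃ f' : G → X, IsLC₁ 𝓤 f' ∧ ∀ g, π (f' g) = f g := by
  obtain ⟨U, hU, h⟩ := hf
  obtain ⟨f', h1, h2⟩ := exists_lift₁ hπ h
  exact ⟨f', ⟨U, hU, h1⟩, h2⟩

theorem IsLC₂.exists_lift {X Y : Type*} {π : X → Y} (hπ : Function.Surjective π)
    {f : G × G → Y} (hf : IsLC₂ 𝓤 f) : ∃ f' : G × G → X, IsLC₂ 𝓤 f' ∧ ∀ g, π (f' g) = f g := by
  obtain ⟨U, hU, h⟩ := hf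
  obtain ⟨f', h1, h2⟩ := exists_lift₂ hπ h
  exact ⟨f', ⟨U, hU, h1⟩, h2⟩

/-! ### the submodules of level-constant cochains, cocycles, coboundaries -/

variable (𝓤 A)

/-- level-constant 1-cochains -/
def lc₁ : Submodule k (G → A) where
  carrier := {f | IsLC₁ 𝓤 f}
  add_mem' hf hf' := hf.comp₂ hf' (· + ·)
  zero_mem' := isLC₁_const 𝓤 (0 : A)
  smul_mem' c _ hf := hf.comp (c • ·)

/-- level-constant 2-cochains -/
def lc₂ : Submodule k (G × G → A) where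
  carrier := {f | IsLC₂ 𝓤 f}
  add_mem' hf hf' := hf.comp₂ hf' (· + ·)
  zero_mem' := isLC₂_const 𝓤 (0 : A)
  smul_mem' c _ hf := hf.comp (c • ·)

/-- level-constant 1-cocycles -/
def lcZ1 : Submodule k (G → A) := cocycles₁ A ⊓ lc₁ 𝓤 A

/-- level-constant 2-cocycles -/
def lcZ2 : Submodule k (G × G → A) := cocycles₂ A ⊓ lc₂ 𝓤 A

/-- coboundaries of level-constant 1-cochains -/
def lcB2 : Submodule k (G × G → A) := (lc₁ 𝓤 A).map (d₁₂ A).hom

/-- the first level-constant cohomology group -/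
abbrev lcH1 : Type := ↥(lcZ1 𝓤 A) ⧸ (coboundaries₁ A).comap (lcZ1 𝓤 A).subtype

/-- the second level-constant cohomology group -/
abbrev lcH2 : Type := ↥(lcZ2 𝓤 A) ⧸ (lcB2 𝓤 A).comap (lcZ2 𝓤 A).subtype

/-- the class of a level-constant 1-cocycle -/
abbrev lcH1π : ↥(lcZ1 𝓤 A) →ₗ[k] lcH1 𝓤 A := Submodule.mkQ _

/-- the class of a level-constant 2-cocycle -/
abbrev lcH2π : ↥(lcZ2 𝓤 A) →ₗ[k] lcH2 𝓤 A := Submodule.mkQ _

variable {𝓤 A}

theorem mem_lc₁_iff (f : G → A) : f ∈ lc₁ 𝓤 A ↔ IsLC₁ 𝓤 f := Iff.rfl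

theorem mem_lc₂_iff (f : G × G → A) : f ∈ lc₂ 𝓤 A ↔ IsLC₂ 𝓤 f := Iff.rfl

theorem mem_lcZ1_iff (f : G → A) : f ∈ lcZ1 𝓤 A ↔ f ∈ cocycles₁ A ∧ IsLC₁ 𝓤 f := Iff.rfl

theorem mem_lcZ2_iff (f : G × G → A) : f ∈ lcZ2 𝓤 A ↔ f ∈ cocycles₂ A ∧ IsLC₂ 𝓤 f := Iff.rfl

theorem mem_lcB2_iff (c : G × G → A) :
    c ∈ lcB2 𝓤 A ↔ ∃ f : G → A, IsLC₁ 𝓤 f ∧ (d₁₂ A).hom f = c := by
  simp only [lcB2, Submodule.mem_map, mem_lc₁_iff]

theorem mem_coboundaries₁_iff' (f : G → A) :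
    f ∈ coboundaries₁ A ↔ ∃ m : A, (d₀₁ A).hom m = f := by
  simp only [coboundaries₁, LinearMap.mem_range]

theorem lcH1π_eq_zero_iff (f : ↥(lcZ1 𝓤 A)) :
    lcH1π 𝓤 A f = 0 ↔ ∃ m : A, (d₀₁ A).hom m = (f : G → A) := by
  rw [Submodule.mkQ_apply, Submodule.Quotient.mk_eq_zero, Submodule.mem_comap,
    Submodule.subtype_apply, mem_coboundaries₁_iff']

theorem lcH2π_eq_zero_iff (c : ↥(lcZ2 𝓤 A)) :
    lcH2π 𝓤 A c = 0 ↔ ∃ f : G → A, IsLC₁ 𝓤 f ∧ (d₁₂ A).hom f = (c : G × G → A) := by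
  rw [Submodule.mkQ_apply, Submodule.Quotient.mk_eq_zero, Submodule.mem_comap,
    Submodule.subtype_apply, mem_lcB2_iff]

theorem lcH1π_eq_iff (f f' : ↥(lcZ1 𝓤 A)) :
    lcH1π 𝓤 A f = lcH1π 𝓤 A f' ↔
      ∃ m : A, (d₀₁ A).hom m = (f : G → A) - (f' : G → A) := by
  rw [← sub_eq_zero, ← map_sub, lcH1π_eq_zero_iff]
  rfl

theorem lcH2π_eq_iff (c c' : ↥(lcZ2 𝓤 A)) :
    lcH2π 𝓤 A c = lcH2π 𝓤 A c' ↔
      ∃ f : G → A, IsLC₁ 𝓤 f ∧ (d₁₂ A).hom f = (c : G × G → A) - (c' : G × G → A) := by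
  rw [← sub_eq_zero, ← map_sub, lcH2π_eq_zero_iff]
  rfl

theorem lcH1π_surjective : Function.Surjective (lcH1π 𝓤 A) := Submodule.mkQ_surjective _

theorem lcH2π_surjective : Function.Surjective (lcH2π 𝓤 A) := Submodule.mkQ_surjective _

/-- coboundaries of a smooth module are level-constant cocycles -/
theorem d₀₁_mem_lcZ1 (hA : IsSmooth 𝓤 A) (m : A) : (d₀₁ A).hom m ∈ lcZ1 𝓤 A :=
  ⟨d₀₁_apply_mem_cocycles₁ m, isLC₁_d₀₁ hA m⟩

/-- coboundaries of level-constant cochains of a smooth module are level-constant cocycles -/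
theorem d₁₂_mem_lcZ2 (hA : IsSmooth 𝓤 A) {f : G → A} (hf : IsLC₁ 𝓤 f) :
    (d₁₂ A).hom f ∈ lcZ2 𝓤 A :=
  ⟨d₁₂_apply_mem_cocycles₂ f, isLC₂_d₁₂ hA hf⟩

theorem lcB2_le_lcZ2 (hA : IsSmooth 𝓤 A) : lcB2 𝓤 A ≤ lcZ2 𝓤 A := by
  intro c hc
  obtain ⟨f, hf, rfl⟩ := (mem_lcB2_iff c).1 hc
  exact d₁₂_mem_lcZ2 hA hf

end H15D

end
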