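/-
W2-C (S55) block D (helper15): functoriality of level-constant cohomology ("pull-push").

`PP 𝓤 𝓥 A B` : a group homomorphism `r : H →* G` compatible with the level structures together
with an `r`-equivariant linear map `φ : A → B` (`A : Rep k G`, `B : Rep k H`).  It induces
`PP.H0`, `PP.Z1`, `PP.Z2`, `PP.H1`, `PP.H2`.  Special cases: change of coefficients
(`PP.ofLinear`, `r = id`) and restriction (`PP.res`, `B = Rep.res r A`, `φ = id`).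
-/
import Mathlib
import Fermat.Agent.CFT2.D.Basic_helper15

set_option autoImplicit false
set_option linter.style.haveILetI false

noncomputable section

namespace H15D

open groupCohomology H15F

variable {k : Type} [CommRing k] {G H : Type} [Group G] [Group H]

/-- pull-push datum -/
structure PP (𝓤 : Levels G) (𝓥 : Levels H) (A : Rep.{0} k G) (B : Rep.{0} k H) where
  /-- the group homomorphism -/
  r : H →* G
  /-- the map of coefficients -/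
  φ : A →ₗ[k] B
  compat : ∀ h a, φ (A.ρ (r h) a) = B.ρ h (φ a)
  levels : ∀ U ∈ 𝓤.sets, ∃ V ∈ 𝓥.sets, V ≤ U.comap r

namespace PP

variable {𝓤 : Levels G} {𝓥 : Levels H} {A : Rep.{0} k G} {B : Rep.{0} k H} (P : PP 𝓤 𝓥 A B)

/-- the map on 1-cochains -/
def c₁ : (G → A) →ₗ[k] (H → B) where
  toFun f h := P.φ (f (P.r h))
  map_add' f f' := by funext h; simp
  map_smul' a f := by funext h; simp

/-- the map on 2-cochains -/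
def c₂ : (G × G → A) →ₗ[k] (H × H → B) where
  toFun f h := P.φ (f (P.r h.1, P.r h.2))
  map_add' f f' := by funext h; simp
  map_smul' a f := by funext h; simp

@[simp] theorem c₁_apply (f : G → A) (h : H) : P.c₁ f h = P.φ (f (P.r h)) := rfl

@[simp] theorem c₂_apply (f : G × G → A) (h h' : H) :
    P.c₂ f (h, h') = P.φ (f (P.r h, P.r h')) := rfl

theorem d₀₁_φ (m : A) : (d₀₁ B).hom (P.φ m) = P.c₁ ((d₀₁ A).hom m) := by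
  funext h
  rw [d₀₁_apply', c₁_apply, d₀₁_apply', map_sub, P.compat]

theorem d₁₂_c₁ (f : G → A) : (d₁₂ B).hom (P.c₁ f) = P.c₂ ((d₁₂ A).hom f) := by
  funext ⟨h, h'⟩
  rw [d₁₂_apply', c₂_apply, d₁₂_apply', map_add, map_sub, P.compat, c₁_apply, c₁_apply,
    c₁_apply, map_mul]

theorem c₁_mem_cocycles₁ {f : G → A} (hf : f ∈ cocycles₁ A) : P.c₁ f ∈ cocycles₁ B := by
  rw [mem_cocycles₁_iff] at hf ⊢
  intro g h
  rw [c₁_apply, c₁_apply, c₁_apply, map_mul, hf, map_add, P.compat]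

theorem c₂_mem_cocycles₂ {f : G × G → A} (hf : f ∈ cocycles₂ A) : P.c₂ f ∈ cocycles₂ B := by
  rw [mem_cocycles₂_iff] at hf ⊢
  intro g h j
  rw [c₂_apply, c₂_apply, c₂_apply, c₂_apply, map_mul, map_mul, ← map_add, hf, map_add,
    P.compat]

theorem isLC₁_c₁ {f : G → A} (hf : IsLC₁ 𝓤 f) : IsLC₁ 𝓥 (P.c₁ f) := by
  obtain ⟨U, hU, h⟩ := hf
  obtain ⟨V, hV, hVU⟩ := P.levels U hU
  refine ⟨V, hV, fun g s hs => ?_⟩
  rw [c₁_apply, c₁_apply, map_mul, h _ _ (hVU hs)]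

theorem isLC₂_c₂ {f : G × G → A} (hf : IsLC₂ 𝓤 f) : IsLC₂ 𝓥 (P.c₂ f) := by
  obtain ⟨U, hU, h⟩ := hf
  obtain ⟨V, hV, hVU⟩ := P.levels U hU
  refine ⟨V, hV, fun g g' s s' hs hs' => ?_⟩
  rw [c₂_apply, c₂_apply, map_mul, map_mul, h _ _ _ _ (hVU hs) (hVU hs')]

theorem c₁_mem_lcZ1 {f : G → A} (hf : f ∈ lcZ1 𝓤 A) : P.c₁ f ∈ lcZ1 𝓥 B :=
  ⟨P.c₁_mem_cocycles₁ hf.1, P.isLC₁_c₁ hf.2⟩

theorem c₂_mem_lcZ2 {f : G × G → A} (hf : f ∈ lcZ2 𝓤 A) : P.c₂ f ∈ lcZ2 𝓥 B :=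
  ⟨P.c₂_mem_cocycles₂ hf.1, P.isLC₂_c₂ hf.2⟩

/-- the map on invariants -/
def H0 : A.ρ.invariants →ₗ[k] B.ρ.invariants :=
  (P.φ ∘ₗ A.ρ.invariants.subtype).codRestrict _ (fun m h => by
    show B.ρ h (P.φ m) = P.φ m
    rw [← P.compat, m.2 (P.r h)])

@[simp] theorem H0_coe (m : A.ρ.invariants) : ((P.H0 m : B.ρ.invariants) : B) = P.φ m := rfl

/-- the map on level-constant 1-cocycles -/
def Z1 : ↥(lcZ1 𝓤 A) →ₗ[k] ↥(lcZ1 𝓥 B) :=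
  (P.c₁ ∘ₗ (lcZ1 𝓤 A).subtype).codRestrict _ (fun f => P.c₁_mem_lcZ1 f.2)

/-- the map on level-constant 2-cocycles -/
def Z2 : ↥(lcZ2 𝓤 A) →ₗ[k] ↥(lcZ2 𝓥 B) :=
  (P.c₂ ∘ₗ (lcZ2 𝓤 A).subtype).codRestrict _ (fun f => P.c₂_mem_lcZ2 f.2)

@[simp] theorem Z1_coe (f : ↥(lcZ1 𝓤 A)) : ((P.Z1 f : ↥(lcZ1 𝓥 B)) : H → B) = P.c₁ f := rfl

@[simp] theorem Z2_coe (f : ↥(lcZ2 𝓤 A)) : ((P.Z2 f : ↥(lcZ2 𝓥 B)) : H × H → B) = P.c₂ f := rfl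

/-- the map on `H¹` -/
def H1 : lcH1 𝓤 A →ₗ[k] lcH1 𝓥 B :=
  Submodule.mapQ _ _ P.Z1 (fun f hf => by
    have hf' : (f : G → A) ∈ coboundaries₁ A := hf
    show ((P.Z1 f : ↥(lcZ1 𝓥 B)) : H → B) ∈ coboundaries₁ B
    rw [mem_coboundaries₁_iff'] at hf' ⊢
    obtain ⟨m, hm⟩ := hf'
    exact ⟨P.φ m, by rw [P.d₀₁_φ, hm]; rfl⟩)

/-- the map on `H²` -/
def H2 : lcH2 𝓤 A →ₗ[k] lcH2 𝓥 B :=
  Submodule.mapQ _ _ P.Z2 (fun c hc => by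
    have hc' : (c : G × G → A) ∈ lcB2 𝓤 A := hc
    show ((P.Z2 c : ↥(lcZ2 𝓥 B)) : H × H → B) ∈ lcB2 𝓥 B
    rw [mem_lcB2_iff] at hc' ⊢
    obtain ⟨f, hf, hfc⟩ := hc'
    exact ⟨P.c₁ f, P.isLC₁_c₁ hf, by rw [P.d₁₂_c₁, hfc]; rfl⟩)

@[simp] theorem H1_π (f : ↥(lcZ1 𝓤 A)) : P.H1 (lcH1π 𝓤 A f) = lcH1π 𝓥 B (P.Z1 f) := rfl

@[simp] theorem H2_π (c : ↥(lcZ2 𝓤 A)) : P.H2 (lcH2π 𝓤 A c) = lcH2π 𝓥 B (P.Z2 c) := rfl

end PP

/-- change of coefficients -/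
def PP.ofLinear (𝓤 : Levels G) {A B : Rep.{0} k G} (φ : A →ₗ[k] B)
    (hφ : ∀ g a, φ (A.ρ g a) = B.ρ g (φ a)) : PP 𝓤 𝓤 A B where
  r := MonoidHom.id G
  φ := φ
  compat := hφ
  levels U hU := ⟨U, hU, le_rfl⟩

@[simp] theorem PP.ofLinear_c₁ (𝓤 : Levels G) {A B : Rep.{0} k G} (φ : A →ₗ[k] B)
    (hφ : ∀ g a, φ (A.ρ g a) = B.ρ g (φ a)) (f : G → A) (g : G) :
    (PP.ofLinear 𝓤 φ hφ).c₁ f g = φ (f g) := rfl

@[simp] theorem PP.ofLinear_c₂ (𝓤 : Levels G) {A B : Rep.{0} k G} (φ : A →ₗ[k] B)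
    (hφ : ∀ g a, φ (A.ρ g a) = B.ρ g (φ a)) (f : G × G → A) (g : G × G) :
    (PP.ofLinear 𝓤 φ hφ).c₂ f g = φ (f g) := rfl

/-- restriction along a group homomorphism -/
def PP.res {𝓤 : Levels G} {𝓥 : Levels H} (r : H →* G)
    (hr : ∀ U ∈ 𝓤.sets, ∃ V ∈ 𝓥.sets, V ≤ U.comap r) (A : Rep.{0} k G) :
    PP 𝓤 𝓥 A (Rep.res r A) where
  r := r
  φ := (LinearMap.id : A →ₗ[k] Rep.res r A)
  compat _ _ := rfl
  levels := hr

end H15D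

end
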