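/-
W2-C (S55) block D (helper15): short exact sequences of smooth modules and the connecting maps
`δ₀ : H⁰(A'') → H¹(A')`, `δ₁ : H¹(A'') → H²(A')` of level-constant cohomology, with their
characterisations on representatives (`δ₀_spec`, `δ₁_spec`).
-/
import Mathlib
import Fermat.Agent.CFT2.D.Map_helper15

set_option autoImplicit false
set_option linter.style.haveILetI false

noncomputable section

namespace H15D

open groupCohomology H15F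

section descSurj

variable {k : Type*} [CommRing k] {P V W : Type*} [AddCommGroup P] [Module k P]
  [AddCommGroup V] [Module k V] [AddCommGroup W] [Module k W]

/-- the linear map `V → W` induced by a surjection `p : P → V` and a map `q : P → W` vanishing
on `ker p` -/
def descSurj (p : P →ₗ[k] V) (hp : Function.Surjective p) (q : P →ₗ[k] W)
    (h : ∀ x, p x = 0 → q x = 0) : V →ₗ[k] W :=
  (Submodule.liftQ (LinearMap.ker p) q (fun x hx => h x hx)) ∘ₗ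
    (p.quotKerEquivOfSurjective hp).symm.toLinearMap

theorem descSurj_apply (p : P →ₗ[k] V) (hp : Function.Surjective p) (q : P →ₗ[k] W)
    (h : ∀ x, p x = 0 → q x = 0) (x : P) : descSurj p hp q h (p x) = q x := by
  unfold descSurj
  rw [LinearMap.comp_apply, LinearEquiv.coe_coe, LinearMap.quotKerEquivOfSurjective_symm_apply]
  rfl

end descSurj

variable {k : Type} [CommRing k] {G : Type} [Group G]

/-- a short exact sequence of representations with smooth middle term -/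
structure SES (𝓤 : Levels G) (A' A A'' : Rep.{0} k G) where
  /-- the injection -/
  ι : A' →ₗ[k] A
  /-- the surjection -/
  π : A →ₗ[k] A''
  ι_comm : ∀ g a, ι (A'.ρ g a) = A.ρ g (ι a)
  π_comm : ∀ g a, π (A.ρ g a) = A''.ρ g (π a)
  inj : Function.Injective ι
  surj : Function.Surjective π
  exact : ∀ a, π a = 0 ↔ ∃ a', ι a' = a
  smooth : IsSmooth 𝓤 A

namespace SES

variable {𝓤 : Levels G} {A' A A'' : Rep.{0} k G} (E : SES 𝓤 A' A A'')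

/-- the pull-push datum of `ι` -/
def Pι : PP 𝓤 𝓤 A' A := PP.ofLinear 𝓤 E.ι E.ι_comm

/-- the pull-push datum of `π` -/
def Pπ : PP 𝓤 𝓤 A A'' := PP.ofLinear 𝓤 E.π E.π_comm

@[simp] theorem Pι_c₁ (f : G → A') (g : G) : E.Pι.c₁ f g = E.ι (f g) := rfl
@[simp] theorem Pι_c₂ (f : G × G → A') (g : G × G) : E.Pι.c₂ f g = E.ι (f g) := rfl
@[simp] theorem Pπ_c₁ (f : G → A) (g : G) : E.Pπ.c₁ f g = E.π (f g) := rfl
@[simp] theorem Pπ_c₂ (f : G × G → A) (g : G × G) : E.Pπ.c₂ f g = E.π (f g) := rfl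
@[simp] theorem Pι_φ : E.Pι.φ = E.ι := rfl
@[simp] theorem Pπ_φ : E.Pπ.φ = E.π := rfl

theorem π_ι (a' : A') : E.π (E.ι a') = 0 := (E.exact _).2 ⟨a', rfl⟩

theorem smooth' (E : SES 𝓤 A' A A'') : IsSmooth 𝓤 A' := by
  intro m
  obtain ⟨U, hU, h⟩ := E.smooth (E.ι m)
  refine ⟨U, hU, fun s hs => E.inj ?_⟩
  rw [E.ι_comm, h s hs]

theorem smooth'' (E : SES 𝓤 A' A A'') : IsSmooth 𝓤 A'' := by
  intro m
  obtain ⟨a, rfl⟩ := E.surj m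
  obtain ⟨U, hU, h⟩ := E.smooth a
  refine ⟨U, hU, fun s hs => ?_⟩
  rw [← E.π_comm, h s hs]

theorem Pι_c₁_injective : Function.Injective E.Pι.c₁ := by
  intro f f' h
  funext g
  exact E.inj (congrFun h g)

theorem Pι_c₂_injective : Function.Injective E.Pι.c₂ := by
  intro f f' h
  funext g
  exact E.inj (congrFun h g)

/-- a cochain with values in the kernel of `π` comes from `A'` -/
theorem exists_c₁_of_π_eq_zero {f : G → A} (hf : ∀ g, E.π (f g) = 0) :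
    ∃ f' : G → A', E.Pι.c₁ f' = f := by
  choose f' hf' using fun g => (E.exact (f g)).1 (hf g)
  exact ⟨f', funext hf'⟩

theorem exists_c₂_of_π_eq_zero {f : G × G → A} (hf : ∀ g, E.π (f g) = 0) :
    ∃ f' : G × G → A', E.Pι.c₂ f' = f := by
  choose f' hf' using fun g => (E.exact (f g)).1 (hf g)
  exact ⟨f', funext hf'⟩

theorem isLC₁_of_c₁ {f' : G → A'} (h : IsLC₁ 𝓤 (E.Pι.c₁ f')) : IsLC₁ 𝓤 f' := by
  obtain ⟨U, hU, hc⟩ := h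
  exact ⟨U, hU, fun g s hs => E.inj (hc g s hs)⟩

theorem isLC₂_of_c₂ {f' : G × G → A'} (h : IsLC₂ 𝓤 (E.Pι.c₂ f')) : IsLC₂ 𝓤 f' := by
  obtain ⟨U, hU, hc⟩ := h
  exact ⟨U, hU, fun g g' s s' hs hs' => E.inj (hc g g' s s' hs hs')⟩

theorem mem_cocycles₁_of_c₁ {f' : G → A'} (h : E.Pι.c₁ f' ∈ cocycles₁ A) :
    f' ∈ cocycles₁ A' := by
  rw [mem_cocycles₁_iff] at h ⊢
  intro g g'
  apply E.inj
  have := h g g'
  simp only [Pι_c₁] at this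
  rw [this, map_add, E.ι_comm]

theorem mem_cocycles₂_of_c₂ {f' : G × G → A'} (h : E.Pι.c₂ f' ∈ cocycles₂ A) :
    f' ∈ cocycles₂ A' := by
  rw [mem_cocycles₂_iff] at h ⊢
  intro g g' g''
  apply E.inj
  have := h g g' g''
  simp only [Pι_c₂] at this
  rw [map_add, this, map_add, E.ι_comm]

/-! ### the connecting map `δ₀` -/

/-- pairs `(m, f')` with `ι ∘ f' = d⁰ m` -/
def P₀ : Submodule k (A × (G → A')) where
  carrier := {x | E.Pι.c₁ x.2 = (d₀₁ A).hom x.1}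
  add_mem' {x y} hx hy := by
    show E.Pι.c₁ (x.2 + y.2) = (d₀₁ A).hom (x.1 + y.1)
    rw [map_add, map_add, hx, hy]
  zero_mem' := by
    show E.Pι.c₁ 0 = (d₀₁ A).hom 0
    rw [map_zero, map_zero]
  smul_mem' c x hx := by
    show E.Pι.c₁ (c • x.2) = (d₀₁ A).hom (c • x.1)
    rw [map_smul, map_smul, hx]

theorem mem_P₀_iff (x : A × (G → A')) : x ∈ E.P₀ ↔ E.Pι.c₁ x.2 = (d₀₁ A).hom x.1 := Iff.rfl

theorem P₀_snd_mem {x : A × (G → A')} (hx : x ∈ E.P₀) : x.2 ∈ lcZ1 𝓤 A' := by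
  refine ⟨E.mem_cocycles₁_of_c₁ ?_, E.isLC₁_of_c₁ ?_⟩
  · rw [(E.mem_P₀_iff x).1 hx]; exact d₀₁_apply_mem_cocycles₁ _
  · rw [(E.mem_P₀_iff x).1 hx]; exact isLC₁_d₀₁ E.smooth _

theorem P₀_fst_mem {x : A × (G → A')} (hx : x ∈ E.P₀) : E.π x.1 ∈ A''.ρ.invariants := by
  intro g
  have h := congrFun ((E.mem_P₀_iff x).1 hx) g
  rw [Pι_c₁, d₀₁_apply'] at h
  have h2 : A.ρ g x.1 = x.1 + E.ι (x.2 g) := by rw [h]; abel
  rw [← E.π_comm, h2, map_add, E.π_ι, add_zero]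

/-- `(m, f') ↦ π m` -/
def p₀ : ↥E.P₀ →ₗ[k] A''.ρ.invariants :=
  ((E.π ∘ₗ LinearMap.fst k A (G → A')) ∘ₗ E.P₀.subtype).codRestrict _
    (fun x => E.P₀_fst_mem x.2)

/-- `(m, f') ↦ [f']` -/
def q₀ : ↥E.P₀ →ₗ[k] lcH1 𝓤 A' :=
  lcH1π 𝓤 A' ∘ₗ ((LinearMap.snd k A (G → A')) ∘ₗ E.P₀.subtype).codRestrict _
    (fun x => E.P₀_snd_mem x.2)

theorem p₀_surjective : Function.Surjective E.p₀ := by
  rintro ⟨m'', hm''⟩
  obtain ⟨m, rfl⟩ := E.surj m''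
  have h1 : ∀ g, E.π ((d₀₁ A).hom m g) = 0 := by
    intro g
    rw [d₀₁_apply', map_sub, E.π_comm, hm'' g, sub_self]
  obtain ⟨f', hf'⟩ := E.exists_c₁_of_π_eq_zero h1
  exact ⟨⟨(m, f'), hf'⟩, rfl⟩

theorem q₀_eq_zero_of_p₀ (x : ↥E.P₀) (hx : E.p₀ x = 0) : E.q₀ x = 0 := by
  obtain ⟨⟨m, f'⟩, hmf⟩ := x
  have h1 : E.π m = 0 := congrArg Subtype.val hx
  obtain ⟨a', rfl⟩ := (E.exact m).1 h1
  show lcH1π 𝓤 A' _ = 0
  rw [lcH1π_eq_zero_iff]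
  refine ⟨a', E.Pι_c₁_injective ?_⟩
  show E.Pι.c₁ ((d₀₁ A').hom a') = E.Pι.c₁ f'
  rw [← E.Pι.d₀₁_φ]
  exact hmf.symm

/-- the connecting map `H⁰(A'') → H¹(A')` -/
def δ₀ : A''.ρ.invariants →ₗ[k] lcH1 𝓤 A' :=
  descSurj E.p₀ E.p₀_surjective E.q₀ E.q₀_eq_zero_of_p₀

/-- `δ₀ (π m) = [f']` whenever `ι ∘ f' = d⁰ m` -/
theorem δ₀_spec (m : A) (f' : ↥(lcZ1 𝓤 A')) (h : E.Pι.c₁ (f' : G → A') = (d₀₁ A).hom m)
    (hm : E.π m ∈ A''.ρ.invariants) :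
    E.δ₀ ⟨E.π m, hm⟩ = lcH1π 𝓤 A' f' := by
  have := descSurj_apply E.p₀ E.p₀_surjective E.q₀ E.q₀_eq_zero_of_p₀
    ⟨(m, (f' : G → A')), h⟩
  exact this

/-- every invariant has a representative as in `δ₀_spec` -/
theorem exists_δ₀_rep (m'' : A''.ρ.invariants) :
    ∃ (m : A) (f' : ↥(lcZ1 𝓤 A')), E.π m = m'' ∧ E.Pι.c₁ (f' : G → A') = (d₀₁ A).hom m ∧
      E.δ₀ m'' = lcH1π 𝓤 A' f' := by
  obtain ⟨⟨⟨m, f'⟩, hmf⟩, rfl⟩ := E.p₀_surjective m''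
  exact ⟨m, ⟨f', E.P₀_snd_mem hmf⟩, rfl, hmf, E.δ₀_spec m ⟨f', E.P₀_snd_mem hmf⟩ hmf _⟩

/-! ### the connecting map `δ₁` -/

/-- pairs `(f, c')` with `f` level-constant and `ι ∘ c' = d¹ f` -/
def P₁ : Submodule k ((G → A) × (G × G → A')) where
  carrier := {x | IsLC₁ 𝓤 x.1 ∧ E.Pι.c₂ x.2 = (d₁₂ A).hom x.1}
  add_mem' {x y} hx hy := by
    refine ⟨(lc₁ 𝓤 A).add_mem hx.1 hy.1, ?_⟩
    show E.Pι.c₂ (x.2 + y.2) = (d₁₂ A).hom (x.1 + y.1)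
    rw [map_add, map_add, hx.2, hy.2]
  zero_mem' := by
    refine ⟨(lc₁ 𝓤 A).zero_mem, ?_⟩
    show E.Pι.c₂ 0 = (d₁₂ A).hom 0
    rw [map_zero, map_zero]
  smul_mem' c x hx := by
    refine ⟨(lc₁ 𝓤 A).smul_mem c hx.1, ?_⟩
    show E.Pι.c₂ (c • x.2) = (d₁₂ A).hom (c • x.1)
    rw [map_smul, map_smul, hx.2]

theorem mem_P₁_iff (x : (G → A) × (G × G → A')) :
    x ∈ E.P₁ ↔ IsLC₁ 𝓤 x.1 ∧ E.Pι.c₂ x.2 = (d₁₂ A).hom x.1 := Iff.rfl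

theorem P₁_snd_mem {x : (G → A) × (G × G → A')} (hx : x ∈ E.P₁) : x.2 ∈ lcZ2 𝓤 A' := by
  refine ⟨E.mem_cocycles₂_of_c₂ ?_, E.isLC₂_of_c₂ ?_⟩
  · rw [((E.mem_P₁_iff x).1 hx).2]; exact d₁₂_apply_mem_cocycles₂ _
  · rw [((E.mem_P₁_iff x).1 hx).2]; exact isLC₂_d₁₂ E.smooth hx.1

theorem P₁_fst_mem {x : (G → A) × (G × G → A')} (hx : x ∈ E.P₁) :
    E.Pπ.c₁ x.1 ∈ lcZ1 𝓤 A'' := by
  refine ⟨?_, E.Pπ.isLC₁_c₁ hx.1⟩
  show E.Pπ.c₁ x.1 ∈ LinearMap.ker (d₁₂ A'').hom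
  rw [LinearMap.mem_ker, E.Pπ.d₁₂_c₁, ← ((E.mem_P₁_iff x).1 hx).2]
  funext g
  exact E.π_ι _

/-- `(f, c') ↦ [π ∘ f]` -/
def p₁ : ↥E.P₁ →ₗ[k] lcH1 𝓤 A'' :=
  lcH1π 𝓤 A'' ∘ₗ ((E.Pπ.c₁ ∘ₗ LinearMap.fst k (G → A) (G × G → A')) ∘ₗ
    E.P₁.subtype).codRestrict _ (fun x => E.P₁_fst_mem x.2)

/-- `(f, c') ↦ [c']` -/
def q₁ : ↥E.P₁ →ₗ[k] lcH2 𝓤 A' :=
  lcH2π 𝓤 A' ∘ₗ ((LinearMap.snd k (G → A) (G × G → A')) ∘ₗ E.P₁.subtype).codRestrict _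
    (fun x => E.P₁_snd_mem x.2)

theorem p₁_surjective : Function.Surjective E.p₁ := by
  intro x''
  obtain ⟨f'', rfl⟩ := lcH1π_surjective x''
  obtain ⟨f, hf, hff⟩ := IsLC₁.exists_lift E.surj f''.2.2
  have h1 : ∀ g, E.π ((d₁₂ A).hom f g) = 0 := by
    intro g
    have h2 : E.Pπ.c₁ f = (f'' : G → A'') := funext hff
    have h3 : (d₁₂ A'').hom (E.Pπ.c₁ f) = 0 := by
      rw [h2]
      exact f''.2.1
    rw [E.Pπ.d₁₂_c₁] at h3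
    exact congrFun h3 g
  obtain ⟨c', hc'⟩ := E.exists_c₂_of_π_eq_zero h1
  refine ⟨⟨(f, c'), hf, hc'⟩, ?_⟩
  show lcH1π 𝓤 A'' _ = lcH1π 𝓤 A'' _
  congr 1
  exact Subtype.ext (funext hff)

theorem q₁_eq_zero_of_p₁ (x : ↥E.P₁) (hx : E.p₁ x = 0) : E.q₁ x = 0 := by
  obtain ⟨⟨f, c'⟩, hf, hfc⟩ := x
  have h1 : lcH1π 𝓤 A'' ⟨E.Pπ.c₁ f, E.P₁_fst_mem ⟨hf, hfc⟩⟩ = 0 := hx
  rw [lcH1π_eq_zero_iff] at h1
  obtain ⟨m'', hm''⟩ := h1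
  obtain ⟨m, rfl⟩ := E.surj m''
  -- `e = f - d⁰ m` has values in `ι A'`
  have h2 : ∀ g, E.π ((f - (d₀₁ A).hom m) g) = 0 := by
    intro g
    have h3 : A''.ρ g (E.π m) - E.π m = E.π (f g) := congrFun hm'' g
    rw [Pi.sub_apply, map_sub, d₀₁_apply', map_sub, E.π_comm, h3, sub_self]
  obtain ⟨e', he'⟩ := E.exists_c₁_of_π_eq_zero h2
  have he'LC : IsLC₁ 𝓤 e' := by
    apply E.isLC₁_of_c₁
    rw [he']
    exact (lc₁ 𝓤 A).sub_mem hf (isLC₁_d₀₁ E.smooth m)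
  show lcH2π 𝓤 A' _ = 0
  rw [lcH2π_eq_zero_iff]
  refine ⟨e', he'LC, E.Pι_c₂_injective ?_⟩
  have h4 : E.Pι.c₂ c' = (d₁₂ A).hom f := hfc
  rw [← E.Pι.d₁₂_c₁, he', map_sub]
  have h5 : (d₁₂ A).hom ((d₀₁ A).hom m) = 0 := by
    have := d₀₁_apply_mem_cocycles₁ (A := A) m
    exact this
  rw [h5, sub_zero]
  exact h4.symm

/-- the connecting map `H¹(A'') → H²(A')` -/
def δ₁ : lcH1 𝓤 A'' →ₗ[k] lcH2 𝓤 A' :=
  descSurj E.p₁ E.p₁_surjective E.q₁ E.q₁_eq_zero_of_p₁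

/-- `δ₁ [π ∘ f] = [c']` whenever `f` is level-constant and `ι ∘ c' = d¹ f` -/
theorem δ₁_spec (f : G → A) (hf : IsLC₁ 𝓤 f) (f'' : ↥(lcZ1 𝓤 A'')) (c' : ↥(lcZ2 𝓤 A'))
    (h1 : E.Pπ.c₁ f = (f'' : G → A''))
    (h2 : E.Pι.c₂ (c' : G × G → A') = (d₁₂ A).hom f) :
    E.δ₁ (lcH1π 𝓤 A'' f'') = lcH2π 𝓤 A' c' := by
  have := descSurj_apply E.p₁ E.p₁_surjective E.q₁ E.q₁_eq_zero_of_p₁
    ⟨(f, (c' : G × G → A')), hf, h2⟩
  have h3 : E.p₁ ⟨(f, (c' : G × G → A')), hf, h2⟩ = lcH1π 𝓤 A'' f'' := by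
    show lcH1π 𝓤 A'' _ = lcH1π 𝓤 A'' _
    congr 1
    exact Subtype.ext h1
  rw [h3] at this
  exact this

/-- every class has representatives as in `δ₁_spec` -/
theorem exists_δ₁_rep (f'' : ↥(lcZ1 𝓤 A'')) :
    ∃ (f : G → A) (c' : ↥(lcZ2 𝓤 A')), IsLC₁ 𝓤 f ∧ E.Pπ.c₁ f = (f'' : G → A'') ∧
      E.Pι.c₂ (c' : G × G → A') = (d₁₂ A).hom f ∧
      E.δ₁ (lcH1π 𝓤 A'' f'') = lcH2π 𝓤 A' c' := by
  obtain ⟨f, hf, hff⟩ := IsLC₁.exists_lift E.surj f''.2.2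
  have h1 : ∀ g, E.π ((d₁₂ A).hom f g) = 0 := by
    intro g
    have h2 : E.Pπ.c₁ f = (f'' : G → A'') := funext hff
    have h3 : (d₁₂ A'').hom (E.Pπ.c₁ f) = 0 := by
      rw [h2]
      exact f''.2.1
    rw [E.Pπ.d₁₂_c₁] at h3
    exact congrFun h3 g
  obtain ⟨c', hc'⟩ := E.exists_c₂_of_π_eq_zero h1
  have hmem : (f, c') ∈ E.P₁ := ⟨hf, hc'⟩
  exact ⟨f, ⟨c', E.P₁_snd_mem hmem⟩, hf, funext hff, hc',
    E.δ₁_spec f hf f'' ⟨c', E.P₁_snd_mem hmem⟩ (funext hff) hc'⟩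

end SES

end H15D

end
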