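/-
W2-C (S55) block D (helper15): the long exact sequence of level-constant cohomology in degrees
`0, 1, 2` attached to a short exact sequence `E : SES 𝓤 A' A A''`:

`0 → H⁰(A') → H⁰(A) → H⁰(A'') -δ₀→ H¹(A') → H¹(A) → H¹(A'') -δ₁→ H²(A') → H²(A) → H²(A'')`.

Exactness at each of the eight spots, in `iff` form:
`exact_H0'`, `exact_H0`, `exact_H0''`, `exact_H1'`, `exact_H1`, `exact_H1''`, `exact_H2'`,
`exact_H2`.
-/
import Mathlib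
import Fermat.Agent.CFT2.D.Delta_helper15

set_option autoImplicit false
set_option linter.style.haveILetI false

noncomputable section

namespace H15D

open groupCohomology H15F

variable {k : Type} [CommRing k] {G : Type} [Group G]

namespace SES

variable {𝓤 : Levels G} {A' A A'' : Rep.{0} k G} (E : SES 𝓤 A' A A'')

/-- exactness at `H⁰(A')`: `H⁰(A') → H⁰(A)` is injective -/
theorem exact_H0' : Function.Injective E.Pι.H0 := by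
  intro m m' h
  apply Subtype.ext
  apply E.inj
  exact congrArg Subtype.val h

/-- exactness at `H⁰(A)` -/
theorem exact_H0 (m : A.ρ.invariants) :
    E.Pπ.H0 m = 0 ↔ ∃ m' : A'.ρ.invariants, E.Pι.H0 m' = m := by
  constructor
  · intro h
    have h1 : E.π m = 0 := congrArg Subtype.val h
    obtain ⟨a', ha'⟩ := (E.exact _).1 h1
    refine ⟨⟨a', fun g => E.inj ?_⟩, Subtype.ext ha'⟩
    rw [E.ι_comm, ha', m.2 g]
  · rintro ⟨m', rfl⟩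
    apply Subtype.ext
    exact E.π_ι _

/-- exactness at `H⁰(A'')` -/
theorem exact_H0'' (m'' : A''.ρ.invariants) :
    E.δ₀ m'' = 0 ↔ ∃ m : A.ρ.invariants, E.Pπ.H0 m = m'' := by
  constructor
  · intro h
    obtain ⟨m, f', hm, hf', hδ⟩ := E.exists_δ₀_rep m''
    rw [h] at hδ
    obtain ⟨a', ha'⟩ := (lcH1π_eq_zero_iff f').1 hδ.symm
    refine ⟨⟨m - E.ι a', fun g => ?_⟩, Subtype.ext ?_⟩
    · have h1 := congrFun hf' g
      rw [← ha'] at h1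
      rw [Pι_c₁, d₀₁_apply', d₀₁_apply', map_sub, E.ι_comm] at h1
      rw [map_sub]
      have h2 : A.ρ g m - A.ρ g (E.ι a') = m - E.ι a' + ((A.ρ g m - m)
          - (A.ρ g (E.ι a') - E.ι a')) := by abel
      rw [h2, h1, sub_self, add_zero]
    · show E.π (m - E.ι a') = m''
      rw [map_sub, E.π_ι, sub_zero, hm]
  · rintro ⟨m, rfl⟩
    have h0 : (0 : G → A') ∈ lcZ1 𝓤 A' := (lcZ1 𝓤 A').zero_mem
    have h1 : E.Pι.c₁ ((⟨0, h0⟩ : ↥(lcZ1 𝓤 A')) : G → A') = (d₀₁ A).hom m := by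
      show E.Pι.c₁ 0 = (d₀₁ A).hom m
      rw [map_zero]
      funext g
      rw [d₀₁_apply', m.2 g, sub_self]
      rfl
    have h2 := E.δ₀_spec m ⟨0, h0⟩ h1 (E.Pπ.H0 m).2
    have h3 : (⟨E.π m, (E.Pπ.H0 m).2⟩ : A''.ρ.invariants) = E.Pπ.H0 m := rfl
    rw [h3] at h2
    rw [h2]
    have : (⟨0, h0⟩ : ↥(lcZ1 𝓤 A')) = 0 := rfl
    rw [this, map_zero]

/-- exactness at `H¹(A')` -/
theorem exact_H1' (x' : lcH1 𝓤 A') :
    E.Pι.H1 x' = 0 ↔ ∃ m'' : A''.ρ.invariants, E.δ₀ m'' = x' := by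
  constructor
  · intro h
    obtain ⟨f', rfl⟩ := lcH1π_surjective x'
    rw [PP.H1_π, lcH1π_eq_zero_iff] at h
    obtain ⟨m, hm⟩ := h
    have hmem : (m, (f' : G → A')) ∈ E.P₀ := hm.symm
    exact ⟨⟨E.π m, E.P₀_fst_mem hmem⟩, E.δ₀_spec m f' hm.symm _⟩
  · rintro ⟨m'', rfl⟩
    obtain ⟨m, f', -, hf', hδ⟩ := E.exists_δ₀_rep m''
    rw [hδ, PP.H1_π, lcH1π_eq_zero_iff]
    exact ⟨m, hf'.symm⟩

/-- exactness at `H¹(A)` -/
theorem exact_H1 (x : lcH1 𝓤 A) :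
    E.Pπ.H1 x = 0 ↔ ∃ x' : lcH1 𝓤 A', E.Pι.H1 x' = x := by
  constructor
  · intro h
    obtain ⟨f, rfl⟩ := lcH1π_surjective x
    rw [PP.H1_π, lcH1π_eq_zero_iff] at h
    obtain ⟨m'', hm''⟩ := h
    obtain ⟨m, rfl⟩ := E.surj m''
    have h2 : ∀ g, E.π (((f : G → A) - (d₀₁ A).hom m) g) = 0 := by
      intro g
      have h3 : A''.ρ g (E.π m) - E.π m = E.π ((f : G → A) g) := congrFun hm'' g
      rw [Pi.sub_apply, map_sub, d₀₁_apply', map_sub, E.π_comm, h3, sub_self]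
    obtain ⟨e', he'⟩ := E.exists_c₁_of_π_eq_zero h2
    have hmem : (f : G → A) - (d₀₁ A).hom m ∈ lcZ1 𝓤 A :=
      (lcZ1 𝓤 A).sub_mem f.2 (d₀₁_mem_lcZ1 E.smooth m)
    have he'mem : e' ∈ lcZ1 𝓤 A' := by
      refine ⟨E.mem_cocycles₁_of_c₁ ?_, E.isLC₁_of_c₁ ?_⟩
      · rw [he']; exact hmem.1
      · rw [he']; exact hmem.2
    refine ⟨lcH1π 𝓤 A' ⟨e', he'mem⟩, ?_⟩
    rw [PP.H1_π, lcH1π_eq_iff]
    refine ⟨-m, ?_⟩
    rw [map_neg]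
    show -(d₀₁ A).hom m = E.Pι.c₁ e' - (f : G → A)
    rw [he']
    abel
  · rintro ⟨x', rfl⟩
    obtain ⟨f', rfl⟩ := lcH1π_surjective x'
    rw [PP.H1_π, PP.H1_π, lcH1π_eq_zero_iff]
    refine ⟨0, ?_⟩
    rw [map_zero]
    funext g
    exact (E.π_ι _).symm

/-- exactness at `H¹(A'')` -/
theorem exact_H1'' (x'' : lcH1 𝓤 A'') :
    E.δ₁ x'' = 0 ↔ ∃ x : lcH1 𝓤 A, E.Pπ.H1 x = x'' := by
  constructor
  · intro h
    obtain ⟨f'', rfl⟩ := lcH1π_surjective x''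
    obtain ⟨f, c', hf, hff, hfc, hδ⟩ := E.exists_δ₁_rep f''
    rw [h] at hδ
    obtain ⟨e', he', hec⟩ := (lcH2π_eq_zero_iff c').1 hδ.symm
    have hmem : f - E.Pι.c₁ e' ∈ lcZ1 𝓤 A := by
      refine ⟨?_, (lc₁ 𝓤 A).sub_mem hf (E.Pι.isLC₁_c₁ he')⟩
      show f - E.Pι.c₁ e' ∈ LinearMap.ker (d₁₂ A).hom
      rw [LinearMap.mem_ker, map_sub, E.Pι.d₁₂_c₁, hec, hfc, sub_self]
    refine ⟨lcH1π 𝓤 A ⟨f - E.Pι.c₁ e', hmem⟩, ?_⟩
    rw [PP.H1_π]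
    congr 1
    apply Subtype.ext
    show E.Pπ.c₁ (f - E.Pι.c₁ e') = (f'' : G → A'')
    rw [map_sub, hff]
    have : E.Pπ.c₁ (E.Pι.c₁ e') = 0 := by
      funext g
      exact E.π_ι _
    rw [this, sub_zero]
  · rintro ⟨x, rfl⟩
    obtain ⟨f, rfl⟩ := lcH1π_surjective x
    have h0 : (0 : G × G → A') ∈ lcZ2 𝓤 A' := (lcZ2 𝓤 A').zero_mem
    have h1 : E.Pι.c₂ ((⟨0, h0⟩ : ↥(lcZ2 𝓤 A')) : G × G → A') = (d₁₂ A).hom (f : G → A) := by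
      show E.Pι.c₂ 0 = (d₁₂ A).hom (f : G → A)
      rw [map_zero]
      exact (f.2.1 : (d₁₂ A).hom (f : G → A) = 0).symm
    rw [PP.H1_π, E.δ₁_spec (f : G → A) f.2.2 (E.Pπ.Z1 f) ⟨0, h0⟩ rfl h1]
    have : (⟨0, h0⟩ : ↥(lcZ2 𝓤 A')) = 0 := rfl
    rw [this, map_zero]

/-- exactness at `H²(A')` -/
theorem exact_H2' (y' : lcH2 𝓤 A') :
    E.Pι.H2 y' = 0 ↔ ∃ x'' : lcH1 𝓤 A'', E.δ₁ x'' = y' := by
  constructor
  · intro h
    obtain ⟨c', rfl⟩ := lcH2π_surjective y'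
    rw [PP.H2_π, lcH2π_eq_zero_iff] at h
    obtain ⟨f, hf, hfc⟩ := h
    have hmem : (f, (c' : G × G → A')) ∈ E.P₁ := ⟨hf, hfc.symm⟩
    exact ⟨lcH1π 𝓤 A'' ⟨E.Pπ.c₁ f, E.P₁_fst_mem hmem⟩,
      E.δ₁_spec f hf ⟨E.Pπ.c₁ f, E.P₁_fst_mem hmem⟩ c' rfl hfc.symm⟩
  · rintro ⟨x'', rfl⟩
    obtain ⟨f'', rfl⟩ := lcH1π_surjective x''
    obtain ⟨f, c', hf, -, hfc, hδ⟩ := E.exists_δ₁_rep f''
    rw [hδ, PP.H2_π, lcH2π_eq_zero_iff]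
    exact ⟨f, hf, hfc.symm⟩

/-- exactness at `H²(A)` -/
theorem exact_H2 (y : lcH2 𝓤 A) :
    E.Pπ.H2 y = 0 ↔ ∃ y' : lcH2 𝓤 A', E.Pι.H2 y' = y := by
  constructor
  · intro h
    obtain ⟨c, rfl⟩ := lcH2π_surjective y
    rw [PP.H2_π, lcH2π_eq_zero_iff] at h
    obtain ⟨f'', hf'', hfc⟩ := h
    obtain ⟨f, hf, hff⟩ := IsLC₁.exists_lift E.surj hf''
    have hff' : E.Pπ.c₁ f = f'' := funext hff
    have h2 : ∀ g, E.π (((c : G × G → A) - (d₁₂ A).hom f) g) = 0 := by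
      intro g
      have h3 : E.Pπ.c₂ ((c : G × G → A) - (d₁₂ A).hom f) = 0 := by
        rw [map_sub, ← E.Pπ.d₁₂_c₁, hff', hfc]
        exact sub_self _
      exact congrFun h3 g
    obtain ⟨c', hc'⟩ := E.exists_c₂_of_π_eq_zero h2
    have hmem : (c : G × G → A) - (d₁₂ A).hom f ∈ lcZ2 𝓤 A :=
      (lcZ2 𝓤 A).sub_mem c.2 (d₁₂_mem_lcZ2 E.smooth hf)
    have hc'mem : c' ∈ lcZ2 𝓤 A' := by
      refine ⟨E.mem_cocycles₂_of_c₂ ?_, E.isLC₂_of_c₂ ?_⟩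
      · rw [hc']; exact hmem.1
      · rw [hc']; exact hmem.2
    refine ⟨lcH2π 𝓤 A' ⟨c', hc'mem⟩, ?_⟩
    rw [PP.H2_π, lcH2π_eq_iff]
    refine ⟨-f, (lc₁ 𝓤 A).neg_mem hf, ?_⟩
    rw [map_neg]
    show -(d₁₂ A).hom f = E.Pι.c₂ c' - (c : G × G → A)
    rw [hc']
    abel
  · rintro ⟨y', rfl⟩
    obtain ⟨c', rfl⟩ := lcH2π_surjective y'
    rw [PP.H2_π, PP.H2_π, lcH2π_eq_zero_iff]
    refine ⟨0, (lc₁ 𝓤 A'').zero_mem, ?_⟩
    rw [map_zero]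
    funext g
    exact (E.π_ι _).symm

end SES

end H15D

end
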