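/-
W2-C (S55) block D (helper15): naturality.

* `PP.comp`, `PP.id` and functoriality of `PP.H0`, `PP.H1`, `PP.H2`;
* `SESMap E F` : a morphism of short exact sequences along a group homomorphism; the connecting
  maps commute with it (`SESMap.δ₀_comm`, `SESMap.δ₁_comm`).
-/
import Mathlib
import Fermat.Agent.CFT2.D.Exact_helper15

set_option autoImplicit false
set_option linter.style.haveILetI false

noncomputable section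

namespace H15D

open groupCohomology H15F

variable {k : Type} [CommRing k] {G H K : Type} [Group G] [Group H] [Group K]

namespace PP

variable {𝓤 : Levels G} {𝓥 : Levels H} {𝓦 : Levels K}
  {A : Rep.{0} k G} {B : Rep.{0} k H} {C : Rep.{0} k K}

/-- composition of pull-push data -/
def comp (Q : PP 𝓥 𝓦 B C) (P : PP 𝓤 𝓥 A B) : PP 𝓤 𝓦 A C where
  r := P.r.comp Q.r
  φ := Q.φ ∘ₗ P.φ
  compat h a := by
    show Q.φ (P.φ (A.ρ (P.r (Q.r h)) a)) = C.ρ h (Q.φ (P.φ a))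
    rw [P.compat, Q.compat]
  levels U hU := by
    obtain ⟨V, hV, hVU⟩ := P.levels U hU
    obtain ⟨W, hW, hWV⟩ := Q.levels V hV
    exact ⟨W, hW, fun w hw => hVU (hWV hw)⟩

theorem comp_c₁ (Q : PP 𝓥 𝓦 B C) (P : PP 𝓤 𝓥 A B) (f : G → A) :
    (Q.comp P).c₁ f = Q.c₁ (P.c₁ f) := rfl

theorem comp_c₂ (Q : PP 𝓥 𝓦 B C) (P : PP 𝓤 𝓥 A B) (f : G × G → A) :
    (Q.comp P).c₂ f = Q.c₂ (P.c₂ f) := rfl

theorem comp_H0 (Q : PP 𝓥 𝓦 B C) (P : PP 𝓤 𝓥 A B) (m : A.ρ.invariants) :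
    (Q.comp P).H0 m = Q.H0 (P.H0 m) := rfl

theorem comp_H1 (Q : PP 𝓥 𝓦 B C) (P : PP 𝓤 𝓥 A B) (x : lcH1 𝓤 A) :
    (Q.comp P).H1 x = Q.H1 (P.H1 x) := by
  obtain ⟨f, rfl⟩ := lcH1π_surjective x
  rfl

theorem comp_H2 (Q : PP 𝓥 𝓦 B C) (P : PP 𝓤 𝓥 A B) (x : lcH2 𝓤 A) :
    (Q.comp P).H2 x = Q.H2 (P.H2 x) := by
  obtain ⟨f, rfl⟩ := lcH2π_surjective x
  rfl

/-- two pull-push data with the same maps induce the same maps on cohomology -/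
theorem H1_congr {P Q : PP 𝓤 𝓥 A B} (hr : P.r = Q.r) (hφ : P.φ = Q.φ) (x : lcH1 𝓤 A) :
    P.H1 x = Q.H1 x := by
  obtain ⟨r, φ, _, _⟩ := P
  obtain ⟨r', φ', _, _⟩ := Q
  obtain rfl : r = r' := hr
  obtain rfl : φ = φ' := hφ
  rfl

theorem H2_congr {P Q : PP 𝓤 𝓥 A B} (hr : P.r = Q.r) (hφ : P.φ = Q.φ) (x : lcH2 𝓤 A) :
    P.H2 x = Q.H2 x := by
  obtain ⟨r, φ, _, _⟩ := P
  obtain ⟨r', φ', _, _⟩ := Q
  obtain rfl : r = r' := hr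
  obtain rfl : φ = φ' := hφ
  rfl

variable (𝓤 A) in
/-- the identity pull-push datum -/
def id : PP 𝓤 𝓤 A A := PP.ofLinear 𝓤 LinearMap.id (fun _ _ => rfl)

theorem id_H1 (x : lcH1 𝓤 A) : (PP.id 𝓤 A).H1 x = x := by
  obtain ⟨f, rfl⟩ := lcH1π_surjective x
  rfl

theorem id_H2 (x : lcH2 𝓤 A) : (PP.id 𝓤 A).H2 x = x := by
  obtain ⟨f, rfl⟩ := lcH2π_surjective x
  rfl

end PP

/-- a morphism of short exact sequences along a group homomorphism `r : H →* G` -/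
structure SESMap {𝓤 : Levels G} {𝓥 : Levels H} {A' A A'' : Rep.{0} k G}
    {B' B B'' : Rep.{0} k H} (E : SES 𝓤 A' A A'') (F : SES 𝓥 B' B B'') where
  /-- the group homomorphism -/
  r : H →* G
  levels : ∀ U ∈ 𝓤.sets, ∃ V ∈ 𝓥.sets, V ≤ U.comap r
  /-- the map on the sub -/
  φ' : A' →ₗ[k] B'
  /-- the map on the middle -/
  φ : A →ₗ[k] B
  /-- the map on the quotient -/
  φ'' : A'' →ₗ[k] B''
  compat' : ∀ h a, φ' (A'.ρ (r h) a) = B'.ρ h (φ' a)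
  compat : ∀ h a, φ (A.ρ (r h) a) = B.ρ h (φ a)
  compat'' : ∀ h a, φ'' (A''.ρ (r h) a) = B''.ρ h (φ'' a)
  sq_ι : ∀ a, φ (E.ι a) = F.ι (φ' a)
  sq_π : ∀ a, φ'' (E.π a) = F.π (φ a)

namespace SESMap

variable {𝓤 : Levels G} {𝓥 : Levels H} {A' A A'' : Rep.{0} k G} {B' B B'' : Rep.{0} k H}
  {E : SES 𝓤 A' A A''} {F : SES 𝓥 B' B B''} (T : SESMap E F)

/-- the pull-push datum on the sub -/
def P' : PP 𝓤 𝓥 A' B' := ⟨T.r, T.φ', T.compat', T.levels⟩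

/-- the pull-push datum on the middle -/
def P : PP 𝓤 𝓥 A B := ⟨T.r, T.φ, T.compat, T.levels⟩

/-- the pull-push datum on the quotient -/
def P'' : PP 𝓤 𝓥 A'' B'' := ⟨T.r, T.φ'', T.compat'', T.levels⟩

theorem c₁_ι (f' : G → A') : T.P.c₁ (E.Pι.c₁ f') = F.Pι.c₁ (T.P'.c₁ f') := by
  funext h
  exact T.sq_ι _

theorem c₂_ι (f' : G × G → A') : T.P.c₂ (E.Pι.c₂ f') = F.Pι.c₂ (T.P'.c₂ f') := by
  funext h
  exact T.sq_ι _

theorem c₁_π (f : G → A) : T.P''.c₁ (E.Pπ.c₁ f) = F.Pπ.c₁ (T.P.c₁ f) := by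
  funext h
  exact T.sq_π _

/-- `δ₀` commutes with morphisms of short exact sequences -/
theorem δ₀_comm (m'' : A''.ρ.invariants) : F.δ₀ (T.P''.H0 m'') = T.P'.H1 (E.δ₀ m'') := by
  obtain ⟨m, f', hm, hf', hδ⟩ := E.exists_δ₀_rep m''
  rw [hδ, PP.H1_π]
  have h1 : F.Pι.c₁ ((T.P'.Z1 f' : ↥(lcZ1 𝓥 B')) : H → B') = (d₀₁ B).hom (T.φ m) := by
    show F.Pι.c₁ (T.P'.c₁ (f' : G → A')) = (d₀₁ B).hom (T.P.φ m)
    rw [← T.c₁_ι, hf', T.P.d₀₁_φ]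
  have h2 : F.π (T.φ m) = ((T.P''.H0 m'' : B''.ρ.invariants) : B'') := by
    show F.π (T.φ m) = T.φ'' m''
    rw [← T.sq_π, hm]
  have h3 : F.π (T.φ m) ∈ B''.ρ.invariants := by
    rw [h2]; exact (T.P''.H0 m'').2
  have h4 := F.δ₀_spec (T.φ m) (T.P'.Z1 f') h1 h3
  rw [← h4]
  congr 1
  exact Subtype.ext h2.symm

/-- `δ₁` commutes with morphisms of short exact sequences -/
theorem δ₁_comm (x'' : lcH1 𝓤 A'') : F.δ₁ (T.P''.H1 x'') = T.P'.H2 (E.δ₁ x'') := by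
  obtain ⟨f'', rfl⟩ := lcH1π_surjective x''
  obtain ⟨f, c', hf, hff, hfc, hδ⟩ := E.exists_δ₁_rep f''
  rw [hδ, PP.H2_π, PP.H1_π]
  refine F.δ₁_spec (T.P.c₁ f) (T.P.isLC₁_c₁ hf) (T.P''.Z1 f'') (T.P'.Z2 c') ?_ ?_
  · show F.Pπ.c₁ (T.P.c₁ f) = T.P''.c₁ (f'' : G → A'')
    rw [← T.c₁_π, hff]
  · show F.Pι.c₂ (T.P'.c₂ (c' : G × G → A')) = (d₁₂ B).hom (T.P.c₁ f)
    rw [← T.c₂_ι, hfc, T.P.d₁₂_c₁]

end SESMap

end H15D

end
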