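/-
W2-C (S55) block D (helper15): finite groups.  For a finite group `Γ` with the trivial level
structure `Levels.bot Γ = {⊥}` every cochain is level-constant, every module is smooth, and
level-constant cohomology is Mathlib's group cohomology:

* `botH1 B : lcH1 (Levels.bot Γ) B ≃ₗ[k] H1 B`,  `botH2 B : lcH2 (Levels.bot Γ) B ≃ₗ[k] H2 B`.
-/
import Mathlib
import Fermat.Agent.CFT2.D.Natural_helper15

set_option autoImplicit false
set_option linter.style.haveILetI false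

noncomputable section

namespace H15D

open groupCohomology H15F CategoryTheory

variable {k : Type} [CommRing k] {Γ : Type} [Group Γ] [Finite Γ]

/-- the trivial level structure on a finite group -/
def Levels.bot (Γ : Type) [Group Γ] [Finite Γ] : Levels Γ where
  sets := {⊥}
  nonempty := ⟨⊥, rfl⟩
  directed := by
    rintro U hU V hV
    rw [Set.mem_singleton_iff] at hU hV
    subst hU
    subst hV
    exact ⟨⊥, rfl, le_inf le_rfl le_rfl⟩
  normal := by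
    rintro U hU
    rw [Set.mem_singleton_iff] at hU
    subst hU
    infer_instance
  finite := by
    rintro U hU
    infer_instance

theorem isRConst₁_bot {X : Type*} (f : Γ → X) : IsRConst₁ (⊥ : Subgroup Γ) f := by
  intro g s hs
  rw [Subgroup.mem_bot] at hs
  rw [hs, mul_one]

theorem isRConst₂_bot {X : Type*} (f : Γ × Γ → X) : IsRConst₂ (⊥ : Subgroup Γ) f := by
  intro g g' s s' hs hs'
  rw [Subgroup.mem_bot] at hs hs'
  rw [hs, hs', mul_one, mul_one]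

theorem isLC₁_bot {X : Type*} (f : Γ → X) : IsLC₁ (Levels.bot Γ) f :=
  ⟨⊥, rfl, isRConst₁_bot f⟩

theorem isLC₂_bot {X : Type*} (f : Γ × Γ → X) : IsLC₂ (Levels.bot Γ) f :=
  ⟨⊥, rfl, isRConst₂_bot f⟩

theorem isSmooth_bot (B : Rep.{0} k Γ) : IsSmooth (Levels.bot Γ) B := fun m =>
  ⟨⊥, rfl, fun s hs => by
    rw [Subgroup.mem_bot] at hs
    rw [hs, map_one]; rfl⟩

variable (B : Rep.{0} k Γ)

theorem lcZ1_bot : lcZ1 (Levels.bot Γ) B = cocycles₁ B := by
  ext f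
  rw [mem_lcZ1_iff]
  exact ⟨fun h => h.1, fun h => ⟨h, isLC₁_bot f⟩⟩

theorem lcZ2_bot : lcZ2 (Levels.bot Γ) B = cocycles₂ B := by
  ext f
  rw [mem_lcZ2_iff]
  exact ⟨fun h => h.1, fun h => ⟨h, isLC₂_bot f⟩⟩

theorem lcB2_bot : lcB2 (Levels.bot Γ) B = coboundaries₂ B := by
  ext f
  rw [mem_lcB2_iff]
  constructor
  · rintro ⟨x, -, rfl⟩
    exact ⟨x, rfl⟩
  · rintro ⟨x, rfl⟩
    exact ⟨x, isLC₁_bot x, rfl⟩

/-- the underlying cocycle of a level-constant 1-cocycle -/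
def toCoc₁ {G : Type} [Group G] {𝓤 : Levels G} {A : Rep.{0} k G} (c : ↥(lcZ1 𝓤 A)) :
    cocycles₁ A :=
  ⟨(c : G → A), ((mem_lcZ1_iff _).1 c.2).1⟩

/-- the underlying cocycle of a level-constant 2-cocycle -/
def toCoc₂ {G : Type} [Group G] {𝓤 : Levels G} {A : Rep.{0} k G} (c : ↥(lcZ2 𝓤 A)) :
    cocycles₂ A :=
  ⟨(c : G × G → A), ((mem_lcZ2_iff _).1 c.2).1⟩

theorem toCoc₁_coe {G : Type} [Group G] {𝓤 : Levels G} {A : Rep.{0} k G} (c : ↥(lcZ1 𝓤 A)) :
    ((toCoc₁ c : cocycles₁ A) : G → A) = (c : G → A) := rfl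

theorem toCoc₂_coe {G : Type} [Group G] {𝓤 : Levels G} {A : Rep.{0} k G} (c : ↥(lcZ2 𝓤 A)) :
    ((toCoc₂ c : cocycles₂ A) : G × G → A) = (c : G × G → A) := rfl

/-- `lcH1 → H1` for a finite group -/
def botH1fun : lcH1 (Levels.bot Γ) B →ₗ[k] H1 B :=
  Submodule.liftQ _
    ((H1π B).hom ∘ₗ Submodule.inclusion (inf_le_left : lcZ1 (Levels.bot Γ) B ≤ cocycles₁ B))
    (fun c hc => by
      have hc' : ((toCoc₁ c : cocycles₁ B) : Γ → B) ∈ coboundaries₁ B := hc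
      exact (H1π_eq_zero_iff (A := B) (toCoc₁ c)).2 hc')

theorem botH1fun_π (c : ↥(lcZ1 (Levels.bot Γ) B)) :
    botH1fun B (lcH1π (Levels.bot Γ) B c) = (H1π B).hom (toCoc₁ c) := rfl

theorem botH1fun_bijective : Function.Bijective (botH1fun B) := by
  constructor
  · rw [← LinearMap.ker_eq_bot, LinearMap.ker_eq_bot']
    intro x hx
    obtain ⟨c, rfl⟩ := lcH1π_surjective x
    rw [botH1fun_π] at hx
    have h2 := (H1π_eq_zero_iff (A := B) (toCoc₁ c)).1 hx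
    rw [lcH1π_eq_zero_iff]
    exact (mem_coboundaries₁_iff' _).1 h2
  · intro x
    induction x using H1_induction_on with | @h c =>
    exact ⟨lcH1π (Levels.bot Γ) B ⟨(c : Γ → B), (mem_lcZ1_iff _).2 ⟨c.2, isLC₁_bot _⟩⟩, rfl⟩

/-- level-constant `H¹` of a finite group is Mathlib's `H1` -/
def botH1 : lcH1 (Levels.bot Γ) B ≃ₗ[k] H1 B :=
  LinearEquiv.ofBijective (botH1fun B) (botH1fun_bijective B)

theorem botH1_π (c : ↥(lcZ1 (Levels.bot Γ) B)) :
    botH1 B (lcH1π (Levels.bot Γ) B c) = (H1π B).hom (toCoc₁ c) := rfl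

theorem botH1_symm_π (c : cocycles₁ B) :
    (botH1 B).symm ((H1π B).hom c)
      = lcH1π (Levels.bot Γ) B ⟨(c : Γ → B), (mem_lcZ1_iff _).2 ⟨c.2, isLC₁_bot _⟩⟩ := by
  rw [LinearEquiv.symm_apply_eq]
  rfl

/-- `lcH2 → H2` for a finite group -/
def botH2fun : lcH2 (Levels.bot Γ) B →ₗ[k] H2 B :=
  Submodule.liftQ _
    ((H2π B).hom ∘ₗ Submodule.inclusion (inf_le_left : lcZ2 (Levels.bot Γ) B ≤ cocycles₂ B))
    (fun c hc => by
      have hc' : ((toCoc₂ c : cocycles₂ B) : Γ × Γ → B) ∈ lcB2 (Levels.bot Γ) B := hc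
      rw [lcB2_bot] at hc'
      exact (H2π_eq_zero_iff (A := B) (toCoc₂ c)).2 hc')

theorem botH2fun_π (c : ↥(lcZ2 (Levels.bot Γ) B)) :
    botH2fun B (lcH2π (Levels.bot Γ) B c) = (H2π B).hom (toCoc₂ c) := rfl

theorem botH2fun_bijective : Function.Bijective (botH2fun B) := by
  constructor
  · rw [← LinearMap.ker_eq_bot, LinearMap.ker_eq_bot']
    intro x hx
    obtain ⟨c, rfl⟩ := lcH2π_surjective x
    rw [botH2fun_π] at hx
    have h2 := (H2π_eq_zero_iff (A := B) (toCoc₂ c)).1 hx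
    rw [lcH2π_eq_zero_iff]
    have h3 : ((toCoc₂ c : cocycles₂ B) : Γ × Γ → B) ∈ lcB2 (Levels.bot Γ) B := by
      rw [lcB2_bot]; exact h2
    exact (mem_lcB2_iff _).1 h3
  · intro x
    induction x using H2_induction_on with | @h c =>
    exact ⟨lcH2π (Levels.bot Γ) B ⟨(c : Γ × Γ → B), (mem_lcZ2_iff _).2 ⟨c.2, isLC₂_bot _⟩⟩, rfl⟩

/-- level-constant `H²` of a finite group is Mathlib's `H2` -/
def botH2 : lcH2 (Levels.bot Γ) B ≃ₗ[k] H2 B :=
  LinearEquiv.ofBijective (botH2fun B) (botH2fun_bijective B)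

theorem botH2_π (c : ↥(lcZ2 (Levels.bot Γ) B)) :
    botH2 B (lcH2π (Levels.bot Γ) B c) = (H2π B).hom (toCoc₂ c) := rfl

theorem botH2_symm_π (c : cocycles₂ B) :
    (botH2 B).symm ((H2π B).hom c)
      = lcH2π (Levels.bot Γ) B ⟨(c : Γ × Γ → B), (mem_lcZ2_iff _).2 ⟨c.2, isLC₂_bot _⟩⟩ := by
  rw [LinearEquiv.symm_apply_eq]
  rfl

end H15D

end
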