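/-
W2-C (S55) block D2 (helper15): finite levels.  For a level `L` of `𝓤` (bundled: `𝓤.Lv`) the
finite group `G ⧸ L.U` acts on the invariants `A^{L.U}` (`A.quotientToInvariants L.U`, Mathlib).

* `inflPP 𝓤 A L`  : inflation as a pull-push datum from `(G ⧸ L.U, Levels.bot)` to `(G, 𝓤)`;
* `infl₁ 𝓤 A L : H1 (A.quotientToInvariants L.U) →ₗ[k] lcH1 𝓤 A`, `infl₂` (T1a);
* `transPP`, `trans₁`, `trans₂` : inflation between two levels `L'.U ≤ L.U`, `infl_trans`;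
* `exists_infl₁_eq`, `exists_infl₂_eq` : every class comes from all small levels (T1b);
* `infl₁_injective`, `exists_trans₂_eq_zero` : a class of finite level that dies in `lcH`
  dies at all small finite levels (T1c).
No smoothness assumption is needed.
-/
import Mathlib
import Fermat.Agent.CFT2.D.Fin_helper15

set_option autoImplicit false
set_option linter.style.haveILetI false
set_option linter.unusedSectionVars false

noncomputable section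

namespace H15D

open groupCohomology H15F CategoryTheory

variable {k : Type} [CommRing k] {G : Type} [Group G]

/-- a bundled level -/
structure Levels.Lv (𝓤 : Levels G) where
  /-- the subgroup -/
  U : Subgroup G
  mem : U ∈ 𝓤.sets

namespace Levels.Lv

variable {𝓤 : Levels G} (L : 𝓤.Lv)

instance instNormalLv : L.U.Normal := 𝓤.normal _ L.mem

instance instFiniteIndexLv : L.U.FiniteIndex := 𝓤.finite _ L.mem

instance instFiniteQuotLv : Finite (G ⧸ L.U) := Subgroup.finite_quotient_of_finiteIndex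

end Levels.Lv

theorem Levels.exists_lv_le (𝓤 : Levels G) (L L' : 𝓤.Lv) :
    ∃ L'' : 𝓤.Lv, L''.U ≤ L.U ∧ L''.U ≤ L'.U := by
  obtain ⟨W, hW, hle⟩ := 𝓤.directed L.U L.mem L'.U L'.mem
  exact ⟨⟨W, hW⟩, hle.trans inf_le_left, hle.trans inf_le_right⟩

theorem Levels.exists_lv (𝓤 : Levels G) : Nonempty 𝓤.Lv := by
  obtain ⟨U, hU⟩ := 𝓤.nonempty
  exact ⟨⟨U, hU⟩⟩

variable (𝓤 : Levels G) (A : Rep.{0} k G)

/-- the finite level `A^{L.U}` as a representation of `G ⧸ L.U` -/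
abbrev finLv (L : 𝓤.Lv) : Rep.{0} k (G ⧸ L.U) := A.quotientToInvariants L.U

theorem finLv_ρ_mk (L : 𝓤.Lv) (g : G) (a : finLv 𝓤 A L) :
    (((finLv 𝓤 A L).ρ (g : G ⧸ L.U) a : finLv 𝓤 A L) : A) = A.ρ g (a : A) := rfl

/-- inflation from the finite level `L`, as a pull-push datum -/
def inflPP (L : 𝓤.Lv) : PP (Levels.bot (G ⧸ L.U)) 𝓤 (finLv 𝓤 A L) A where
  r := QuotientGroup.mk' L.U
  φ := (Representation.invariants (A.ρ.comp L.U.subtype)).subtype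
  compat _ _ := rfl
  levels V hV := ⟨L.U, L.mem, by
    rw [Set.mem_singleton_iff.1 hV]
    intro s hs
    rw [Subgroup.mem_comap, Subgroup.mem_bot]
    exact (QuotientGroup.eq_one_iff s).2 hs⟩

/-- inflation `H¹(G ⧸ U, A^U) → H¹_lc(G, A)` -/
def infl₁ (L : 𝓤.Lv) : H1 (finLv 𝓤 A L) →ₗ[k] lcH1 𝓤 A :=
  (inflPP 𝓤 A L).H1 ∘ₗ (botH1 (finLv 𝓤 A L)).symm.toLinearMap

/-- inflation `H²(G ⧸ U, A^U) → H²_lc(G, A)` -/
def infl₂ (L : 𝓤.Lv) : H2 (finLv 𝓤 A L) →ₗ[k] lcH2 𝓤 A :=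
  (inflPP 𝓤 A L).H2 ∘ₗ (botH2 (finLv 𝓤 A L)).symm.toLinearMap

/-- the inflation of a 1-cocycle of finite level -/
def inflZ1 (L : 𝓤.Lv) (c : cocycles₁ (finLv 𝓤 A L)) : ↥(lcZ1 𝓤 A) :=
  (inflPP 𝓤 A L).Z1 ⟨(c : G ⧸ L.U → finLv 𝓤 A L), (mem_lcZ1_iff _).2 ⟨c.2, isLC₁_bot _⟩⟩

/-- the inflation of a 2-cocycle of finite level -/
def inflZ2 (L : 𝓤.Lv) (c : cocycles₂ (finLv 𝓤 A L)) : ↥(lcZ2 𝓤 A) :=
  (inflPP 𝓤 A L).Z2 ⟨(c : (G ⧸ L.U) × (G ⧸ L.U) → finLv 𝓤 A L),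
    (mem_lcZ2_iff _).2 ⟨c.2, isLC₂_bot _⟩⟩

theorem inflZ1_apply (L : 𝓤.Lv) (c : cocycles₁ (finLv 𝓤 A L)) (g : G) :
    (inflZ1 𝓤 A L c : G → A) g = ((c (g : G ⧸ L.U) : finLv 𝓤 A L) : A) := rfl

theorem inflZ2_apply (L : 𝓤.Lv) (c : cocycles₂ (finLv 𝓤 A L)) (g h : G) :
    (inflZ2 𝓤 A L c : G × G → A) (g, h)
      = ((c ((g : G ⧸ L.U), (h : G ⧸ L.U)) : finLv 𝓤 A L) : A) := rfl

theorem infl₁_π (L : 𝓤.Lv) (c : cocycles₁ (finLv 𝓤 A L)) :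
    infl₁ 𝓤 A L ((H1π (finLv 𝓤 A L)).hom c) = lcH1π 𝓤 A (inflZ1 𝓤 A L c) := by
  show (inflPP 𝓤 A L).H1 ((botH1 (finLv 𝓤 A L)).symm ((H1π (finLv 𝓤 A L)).hom c)) = _
  rw [botH1_symm_π]
  rfl

theorem infl₂_π (L : 𝓤.Lv) (c : cocycles₂ (finLv 𝓤 A L)) :
    infl₂ 𝓤 A L ((H2π (finLv 𝓤 A L)).hom c) = lcH2π 𝓤 A (inflZ2 𝓤 A L c) := by
  show (inflPP 𝓤 A L).H2 ((botH2 (finLv 𝓤 A L)).symm ((H2π (finLv 𝓤 A L)).hom c)) = _
  rw [botH2_symm_π]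
  rfl

/-! ### level-constant cocycles take values in the invariants -/

section fixed

variable {A}

theorem conj_mem_of_normal {U : Subgroup G} [hn : U.Normal] {s : G} (hs : s ∈ U) (g : G) :
    g⁻¹ * s * g ∈ U := by
  have := hn.conj_mem s hs g⁻¹
  rwa [inv_inv] at this

theorem fixed_of_cocycle₁ {U : Subgroup G} [U.Normal] {c : G → A} (hc : c ∈ cocycles₁ A)
    (hU : IsRConst₁ U c) (g s : G) (hs : s ∈ U) : A.ρ s (c g) = c g := by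
  have h1 := (mem_cocycles₁_iff c).1 hc s g
  have h2 : c s = 0 := by
    have := hU 1 s hs
    rw [one_mul] at this
    rw [this]
    exact cocycles₁_map_one (⟨c, hc⟩ : cocycles₁ A)
  have h3 : c (s * g) = c g := by
    have := hU g (g⁻¹ * s * g) (conj_mem_of_normal hs g)
    rwa [show g * (g⁻¹ * s * g) = s * g by group] at this
  rw [h3, h2, add_zero] at h1
  exact h1.symm

theorem fixed_of_cocycle₂ {U : Subgroup G} [U.Normal] {c : G × G → A} (hc : c ∈ cocycles₂ A)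
    (hU : IsRConst₂ U c) (g h s : G) (hs : s ∈ U) : A.ρ s (c (g, h)) = c (g, h) := by
  have h1 := (mem_cocycles₂_iff c).1 hc s g h
  have h2 : ∀ x : G, c (s, x) = c (1, 1) := by
    intro x
    have := hU 1 x s 1 hs (Subgroup.one_mem _)
    rw [one_mul, mul_one] at this
    rw [this]
    exact cocycles₂_map_one_fst (⟨c, hc⟩ : cocycles₂ A) x
  have h3 : c (s * g, h) = c (g, h) := by
    have := hU g h (g⁻¹ * s * g) 1 (conj_mem_of_normal hs g) (Subgroup.one_mem _)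
    rwa [show g * (g⁻¹ * s * g) = s * g by group, mul_one] at this
  rw [h3, h2, h2] at h1
  exact (add_right_cancel h1).symm

/-- a coboundary `d f` that is right-`U`-constant in the first variable and takes the value
`d f (1, h) = f 1`: then `f` takes values in the invariants if it is right-`U`-constant -/
theorem fixed_of_d₁₂ {U : Subgroup G} [U.Normal] {f : G → A} (hU : IsRConst₁ U f)
    (hd : ∀ s ∈ U, ∀ h : G, (d₁₂ A).hom f (s, h) = (d₁₂ A).hom f (1, h))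
    (h s : G) (hs : s ∈ U) : A.ρ s (f h) = f h := by
  have h1 := hd s hs h
  rw [d₁₂_apply', d₁₂_apply', map_one, one_mul] at h1
  have h3 : f (s * h) = f h := by
    have := hU h (h⁻¹ * s * h) (conj_mem_of_normal hs h)
    rwa [show h * (h⁻¹ * s * h) = s * h by group] at this
  have h4 : f s = f 1 := by
    have := hU 1 s hs
    rwa [one_mul] at this
  rw [h3, h4] at h1
  have h5 : A.ρ s (f h) - f h = (1 : Module.End k A) (f h) - f h := by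
    have := congrArg (fun z => z - f 1) h1
    simpa only [add_sub_cancel_right] using this
  rw [Module.End.one_apply] at h5
  exact sub_left_injective h5

end fixed

/-! ### descent to a finite level -/

section desc

variable {𝓤 A}

/-- descent of a 1-cochain with values in the invariants -/
def dscFun₁ (L : 𝓤.Lv) (c : G → A) (hfix : ∀ g s, s ∈ L.U → A.ρ s (c g) = c g) :
    G ⧸ L.U → finLv 𝓤 A L :=
  fun γ => ⟨c (Quotient.out γ), fun s => hfix _ s.1 s.2⟩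

/-- descent of a 2-cochain with values in the invariants -/
def dscFun₂ (L : 𝓤.Lv) (c : G × G → A) (hfix : ∀ g s, s ∈ L.U → A.ρ s (c g) = c g) :
    (G ⧸ L.U) × (G ⧸ L.U) → finLv 𝓤 A L :=
  fun γ => ⟨c (Quotient.out γ.1, Quotient.out γ.2), fun s => hfix _ s.1 s.2⟩

theorem dscFun₁_mk (L : 𝓤.Lv) (c : G → A) (hfix : ∀ g s, s ∈ L.U → A.ρ s (c g) = c g)
    (hc : IsRConst₁ L.U c) (g : G) :
    ((dscFun₁ L c hfix (g : G ⧸ L.U) : finLv 𝓤 A L) : A) = c g := by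
  obtain ⟨h, hh⟩ := QuotientGroup.mk_out_eq_mul L.U g
  show c (Quotient.out (g : G ⧸ L.U)) = c g
  rw [hh]
  exact hc g h.1 h.2

theorem dscFun₂_mk (L : 𝓤.Lv) (c : G × G → A) (hfix : ∀ g s, s ∈ L.U → A.ρ s (c g) = c g)
    (hc : IsRConst₂ L.U c) (g g' : G) :
    ((dscFun₂ L c hfix ((g : G ⧸ L.U), (g' : G ⧸ L.U)) : finLv 𝓤 A L) : A) = c (g, g') := by
  obtain ⟨h, hh⟩ := QuotientGroup.mk_out_eq_mul L.U g
  obtain ⟨h', hh'⟩ := QuotientGroup.mk_out_eq_mul L.U g'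
  show c (Quotient.out (g : G ⧸ L.U), Quotient.out (g' : G ⧸ L.U)) = c (g, g')
  rw [hh, hh']
  exact hc g g' h.1 h'.1 h.2 h'.2

theorem dscFun₁_mem_cocycles₁ (L : 𝓤.Lv) {c : G → A} (hc : c ∈ cocycles₁ A)
    (hU : IsRConst₁ L.U c) :
    dscFun₁ L c (fun g s hs => fixed_of_cocycle₁ hc hU g s hs) ∈ cocycles₁ (finLv 𝓤 A L) := by
  rw [mem_cocycles₁_iff]
  intro γ γ'
  obtain ⟨g, rfl⟩ := QuotientGroup.mk_surjective γ
  obtain ⟨h, rfl⟩ := QuotientGroup.mk_surjective γ'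
  apply Subtype.ext
  rw [← QuotientGroup.mk_mul]
  rw [dscFun₁_mk _ _ _ hU, Submodule.coe_add, finLv_ρ_mk, dscFun₁_mk _ _ _ hU,
    dscFun₁_mk _ _ _ hU]
  exact (mem_cocycles₁_iff c).1 hc g h

theorem dscFun₂_mem_cocycles₂ (L : 𝓤.Lv) {c : G × G → A} (hc : c ∈ cocycles₂ A)
    (hU : IsRConst₂ L.U c) :
    dscFun₂ L c (fun g s hs => fixed_of_cocycle₂ hc hU g.1 g.2 s hs)
      ∈ cocycles₂ (finLv 𝓤 A L) := by
  rw [mem_cocycles₂_iff]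
  intro γ γ' γ''
  obtain ⟨g, rfl⟩ := QuotientGroup.mk_surjective γ
  obtain ⟨h, rfl⟩ := QuotientGroup.mk_surjective γ'
  obtain ⟨j, rfl⟩ := QuotientGroup.mk_surjective γ''
  apply Subtype.ext
  rw [← QuotientGroup.mk_mul, ← QuotientGroup.mk_mul]
  rw [Submodule.coe_add, Submodule.coe_add, finLv_ρ_mk, dscFun₂_mk _ _ _ hU,
    dscFun₂_mk _ _ _ hU, dscFun₂_mk _ _ _ hU, dscFun₂_mk _ _ _ hU]
  exact (mem_cocycles₂_iff c).1 hc g h j

end desc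

/-! ### T1b: every class comes from all small finite levels -/

theorem exists_infl₁_eq (x : lcH1 𝓤 A) :
    ∃ L0 : 𝓤.Lv, ∀ L : 𝓤.Lv, L.U ≤ L0.U → ∃ y : H1 (finLv 𝓤 A L), infl₁ 𝓤 A L y = x := by
  obtain ⟨c, rfl⟩ := lcH1π_surjective x
  obtain ⟨hc, U, hU, hconst⟩ := (mem_lcZ1_iff _).1 c.2
  refine ⟨⟨U, hU⟩, fun L hL => ?_⟩
  have hcL : IsRConst₁ L.U (c : G → A) := hconst.mono hL
  refine ⟨(H1π _).hom ⟨_, dscFun₁_mem_cocycles₁ L hc hcL⟩, ?_⟩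
  rw [infl₁_π]
  congr 1
  apply Subtype.ext
  funext g
  rw [inflZ1_apply]
  exact dscFun₁_mk L (c : G → A) (fun g s hs => fixed_of_cocycle₁ hc hcL g s hs) hcL g

theorem exists_infl₂_eq (x : lcH2 𝓤 A) :
    ∃ L0 : 𝓤.Lv, ∀ L : 𝓤.Lv, L.U ≤ L0.U → ∃ y : H2 (finLv 𝓤 A L), infl₂ 𝓤 A L y = x := by
  obtain ⟨c, rfl⟩ := lcH2π_surjective x
  obtain ⟨hc, U, hU, hconst⟩ := (mem_lcZ2_iff _).1 c.2
  refine ⟨⟨U, hU⟩, fun L hL => ?_⟩
  have hcL : IsRConst₂ L.U (c : G × G → A) := hconst.mono hL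
  refine ⟨(H2π _).hom ⟨_, dscFun₂_mem_cocycles₂ L hc hcL⟩, ?_⟩
  rw [infl₂_π]
  congr 1
  apply Subtype.ext
  funext ⟨g, h⟩
  rw [inflZ2_apply]
  exact dscFun₂_mk L (c : G × G → A)
    (fun g s hs => fixed_of_cocycle₂ hc hcL g.1 g.2 s hs) hcL g h

/-! ### inflation between two finite levels -/

theorem invariants_le_of_le {U V : Subgroup G} (h : V ≤ U) :
    Representation.invariants (A.ρ.comp U.subtype)
      ≤ Representation.invariants (A.ρ.comp V.subtype) :=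
  fun _ ha s => ha ⟨s.1, h s.2⟩

/-- inflation from the level `L` to the smaller level `L'`, as a pull-push datum -/
def transPP (L L' : 𝓤.Lv) (h : L'.U ≤ L.U) :
    PP (Levels.bot (G ⧸ L.U)) (Levels.bot (G ⧸ L'.U)) (finLv 𝓤 A L) (finLv 𝓤 A L') where
  r := QuotientGroup.map L'.U L.U (MonoidHom.id G) h
  φ := Submodule.inclusion (invariants_le_of_le A h)
  compat γ a := by
    obtain ⟨g, rfl⟩ := QuotientGroup.mk_surjective γ
    rfl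
  levels V hV := ⟨⊥, rfl, bot_le⟩

theorem transPP_φ_coe (L L' : 𝓤.Lv) (h : L'.U ≤ L.U) (a : finLv 𝓤 A L) :
    (((transPP 𝓤 A L L' h).φ a : finLv 𝓤 A L') : A) = (a : A) := rfl

theorem transPP_r_mk (L L' : 𝓤.Lv) (h : L'.U ≤ L.U) (g : G) :
    (transPP 𝓤 A L L' h).r (g : G ⧸ L'.U) = (g : G ⧸ L.U) := rfl

/-- inflation `H¹(G ⧸ U, A^U) → H¹(G ⧸ U', A^{U'})` for `U' ≤ U` -/
def trans₁ (L L' : 𝓤.Lv) (h : L'.U ≤ L.U) : H1 (finLv 𝓤 A L) →ₗ[k] H1 (finLv 𝓤 A L') :=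
  (botH1 (finLv 𝓤 A L')).toLinearMap ∘ₗ (transPP 𝓤 A L L' h).H1 ∘ₗ
    (botH1 (finLv 𝓤 A L)).symm.toLinearMap

/-- inflation `H²(G ⧸ U, A^U) → H²(G ⧸ U', A^{U'})` for `U' ≤ U` -/
def trans₂ (L L' : 𝓤.Lv) (h : L'.U ≤ L.U) : H2 (finLv 𝓤 A L) →ₗ[k] H2 (finLv 𝓤 A L') :=
  (botH2 (finLv 𝓤 A L')).toLinearMap ∘ₗ (transPP 𝓤 A L L' h).H2 ∘ₗ
    (botH2 (finLv 𝓤 A L)).symm.toLinearMap

/-- the inflation of a 1-cocycle to a smaller finite level -/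
def transZ1 (L L' : 𝓤.Lv) (h : L'.U ≤ L.U) (c : cocycles₁ (finLv 𝓤 A L)) :
    cocycles₁ (finLv 𝓤 A L') :=
  toCoc₁ ((transPP 𝓤 A L L' h).Z1
    ⟨(c : G ⧸ L.U → finLv 𝓤 A L), (mem_lcZ1_iff _).2 ⟨c.2, isLC₁_bot _⟩⟩)

/-- the inflation of a 2-cocycle to a smaller finite level -/
def transZ2 (L L' : 𝓤.Lv) (h : L'.U ≤ L.U) (c : cocycles₂ (finLv 𝓤 A L)) :
    cocycles₂ (finLv 𝓤 A L') :=
  toCoc₂ ((transPP 𝓤 A L L' h).Z2
    ⟨(c : (G ⧸ L.U) × (G ⧸ L.U) → finLv 𝓤 A L), (mem_lcZ2_iff _).2 ⟨c.2, isLC₂_bot _⟩⟩)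

theorem transZ1_apply (L L' : 𝓤.Lv) (h : L'.U ≤ L.U) (c : cocycles₁ (finLv 𝓤 A L)) (g : G) :
    ((transZ1 𝓤 A L L' h c (g : G ⧸ L'.U) : finLv 𝓤 A L') : A)
      = ((c (g : G ⧸ L.U) : finLv 𝓤 A L) : A) := rfl

theorem transZ2_apply (L L' : 𝓤.Lv) (h : L'.U ≤ L.U) (c : cocycles₂ (finLv 𝓤 A L))
    (g g' : G) :
    ((transZ2 𝓤 A L L' h c ((g : G ⧸ L'.U), (g' : G ⧸ L'.U)) : finLv 𝓤 A L') : A)
      = ((c ((g : G ⧸ L.U), (g' : G ⧸ L.U)) : finLv 𝓤 A L) : A) := rfl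

theorem trans₁_π (L L' : 𝓤.Lv) (h : L'.U ≤ L.U) (c : cocycles₁ (finLv 𝓤 A L)) :
    trans₁ 𝓤 A L L' h ((H1π (finLv 𝓤 A L)).hom c)
      = (H1π (finLv 𝓤 A L')).hom (transZ1 𝓤 A L L' h c) := by
  show botH1 (finLv 𝓤 A L') ((transPP 𝓤 A L L' h).H1
    ((botH1 (finLv 𝓤 A L)).symm ((H1π (finLv 𝓤 A L)).hom c))) = _
  rw [botH1_symm_π]
  rfl

theorem trans₂_π (L L' : 𝓤.Lv) (h : L'.U ≤ L.U) (c : cocycles₂ (finLv 𝓤 A L)) :
    trans₂ 𝓤 A L L' h ((H2π (finLv 𝓤 A L)).hom c)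
      = (H2π (finLv 𝓤 A L')).hom (transZ2 𝓤 A L L' h c) := by
  show botH2 (finLv 𝓤 A L') ((transPP 𝓤 A L L' h).H2
    ((botH2 (finLv 𝓤 A L)).symm ((H2π (finLv 𝓤 A L)).hom c))) = _
  rw [botH2_symm_π]
  rfl

theorem infl₁_trans₁ (L L' : 𝓤.Lv) (h : L'.U ≤ L.U) (y : H1 (finLv 𝓤 A L)) :
    infl₁ 𝓤 A L' (trans₁ 𝓤 A L L' h y) = infl₁ 𝓤 A L y := by
  induction y using H1_induction_on with | @h c =>
  rw [trans₁_π, infl₁_π, infl₁_π]
  rfl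

theorem infl₂_trans₂ (L L' : 𝓤.Lv) (h : L'.U ≤ L.U) (y : H2 (finLv 𝓤 A L)) :
    infl₂ 𝓤 A L' (trans₂ 𝓤 A L L' h y) = infl₂ 𝓤 A L y := by
  induction y using H2_induction_on with | @h c =>
  rw [trans₂_π, infl₂_π, infl₂_π]
  rfl

theorem trans₁_trans₁ (L L' L'' : 𝓤.Lv) (h : L'.U ≤ L.U) (h' : L''.U ≤ L'.U)
    (y : H1 (finLv 𝓤 A L)) :
    trans₁ 𝓤 A L' L'' h' (trans₁ 𝓤 A L L' h y) = trans₁ 𝓤 A L L'' (h'.trans h) y := by
  induction y using H1_induction_on with | @h c =>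
  rw [trans₁_π, trans₁_π, trans₁_π]
  congr 1
  apply Subtype.ext
  funext γ
  obtain ⟨g, rfl⟩ := QuotientGroup.mk_surjective γ
  rfl

theorem trans₂_trans₂ (L L' L'' : 𝓤.Lv) (h : L'.U ≤ L.U) (h' : L''.U ≤ L'.U)
    (y : H2 (finLv 𝓤 A L)) :
    trans₂ 𝓤 A L' L'' h' (trans₂ 𝓤 A L L' h y) = trans₂ 𝓤 A L L'' (h'.trans h) y := by
  induction y using H2_induction_on with | @h c =>
  rw [trans₂_π, trans₂_π, trans₂_π]
  congr 1
  apply Subtype.ext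
  funext ⟨γ, γ'⟩
  obtain ⟨g, rfl⟩ := QuotientGroup.mk_surjective γ
  obtain ⟨g', rfl⟩ := QuotientGroup.mk_surjective γ'
  rfl

/-! ### T1c: the kernel of inflation -/

theorem infl₁_injective (L : 𝓤.Lv) : Function.Injective (infl₁ 𝓤 A L) := by
  rw [← LinearMap.ker_eq_bot, LinearMap.ker_eq_bot']
  intro y hy
  induction y using H1_induction_on with | @h c =>
  rw [infl₁_π, lcH1π_eq_zero_iff] at hy
  obtain ⟨m, hm⟩ := hy
  have hval : ∀ g : G, A.ρ g m - m = ((c (g : G ⧸ L.U) : finLv 𝓤 A L) : A) := by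
    intro g
    have := congrFun hm g
    rw [d₀₁_apply', inflZ1_apply] at this
    exact this
  have hfix : ∀ s : L.U, (A.ρ.comp L.U.subtype) s m = m := by
    intro s
    have h1 := hval s.1
    have h2 : ((s.1 : G) : G ⧸ L.U) = ((1 : G) : G ⧸ L.U) :=
      (QuotientGroup.eq_one_iff s.1).2 s.2
    rw [h2, QuotientGroup.mk_one, cocycles₁_map_one, Submodule.coe_zero] at h1
    exact sub_eq_zero.1 h1
  rw [H1π_eq_zero_iff, mem_coboundaries₁_iff']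
  refine ⟨(⟨m, hfix⟩ : finLv 𝓤 A L), ?_⟩
  funext γ
  obtain ⟨g, rfl⟩ := QuotientGroup.mk_surjective γ
  apply Subtype.ext
  rw [← hval g]
  rfl

theorem exists_trans₂_eq_zero (L : 𝓤.Lv) (y : H2 (finLv 𝓤 A L)) (hy : infl₂ 𝓤 A L y = 0) :
    ∃ L0 : 𝓤.Lv, L0.U ≤ L.U ∧
      ∀ (L' : 𝓤.Lv) (h : L'.U ≤ L.U), L'.U ≤ L0.U → trans₂ 𝓤 A L L' h y = 0 := by
  induction y using H2_induction_on with | @h c =>
  rw [infl₂_π, lcH2π_eq_zero_iff] at hy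
  obtain ⟨f, ⟨V, hV, hfV⟩, hf⟩ := hy
  obtain ⟨W, hW, hWle⟩ := 𝓤.directed L.U L.mem V hV
  refine ⟨⟨W, hW⟩, hWle.trans inf_le_left, fun L' h hL' => ?_⟩
  have hfL' : IsRConst₁ L'.U f := hfV.mono (hL'.trans (hWle.trans inf_le_right))
  have hval : ∀ g g' : G, (d₁₂ A).hom f (g, g')
      = ((c ((g : G ⧸ L.U), (g' : G ⧸ L.U)) : finLv 𝓤 A L) : A) := by
    intro g g'
    have := congrFun hf (g, g')
    rw [inflZ2_apply] at this
    exact this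
  have hfix : ∀ g s : G, s ∈ L'.U → A.ρ s (f g) = f g := by
    refine fixed_of_d₁₂ hfL' (fun s hs x => ?_)
    rw [hval, hval]
    have h2 : ((s : G) : G ⧸ L.U) = ((1 : G) : G ⧸ L.U) :=
      (QuotientGroup.eq_one_iff s).2 (h hs)
    rw [h2]
  rw [trans₂_π, H2π_eq_zero_iff]
  refine ⟨dscFun₁ L' f hfix, ?_⟩
  funext ⟨γ, γ'⟩
  obtain ⟨g, rfl⟩ := QuotientGroup.mk_surjective γ
  obtain ⟨g', rfl⟩ := QuotientGroup.mk_surjective γ'
  apply Subtype.ext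
  rw [transZ2_apply, ← hval, d₁₂_apply', d₁₂_apply', ← QuotientGroup.mk_mul]
  rw [Submodule.coe_add, Submodule.coe_sub, finLv_ρ_mk, dscFun₁_mk _ _ _ hfL',
    dscFun₁_mk _ _ _ hfL', dscFun₁_mk _ _ _ hfL']

end H15D

end
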