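/-
W2-C (S55) blocks D/F (helper15): the level structures of the prelude.

* `H15D.levelsS S : Levels GQ` : the subgroups `Gal(ℚ̄/F)`, `F` finite Galois over `ℚ` and
  unramified outside `S`;  `isLC₁_levelsS_iff`, `isLC₂_levelsS_iff` : level-constant for `levelsS S`
  = the prelude's `IsLevelConstantS₁/₂ S`.
* `H15D.levelsLoc r : Levels H` for `r : H →* GQ` : the subgroups `r⁻¹ Gal(ℚ̄/F)`, `F` finite
  Galois over `ℚ`;  `isLC₁_levelsLoc_iff`, `isLC₂_levelsLoc_iff` : = the prelude's
  `IsLevelConstant₁/₂ r`.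
* `levelsS_le_levelsLoc` : compatibility for restriction (`PP.res`).
-/
import Mathlib
import Fermat.Prelude.Def_GroupCohomology_ContinuousUnramified
import Fermat.Agent.CFT2.F.Levels_helper15
import Fermat.Agent.CFT2.D.Natural_helper15

set_option autoImplicit false
set_option linter.style.haveILetI false

noncomputable section

namespace H15D

open groupCohomology H15F

local notation "Qb" => AlgebraicClosure ℚ
local notation "GQ" => (AlgebraicClosure ℚ ≃ₐ[ℚ] AlgebraicClosure ℚ)

/-- the fixing subgroup of a finite extension has finite index -/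
theorem finiteIndex_fixingSubgroup (F : IntermediateField ℚ Qb) [FiniteDimensional ℚ F] :
    F.fixingSubgroup.FiniteIndex := by
  let φ : GQ → (F →ₐ[ℚ] Qb) := fun g => (g : Qb →ₐ[ℚ] Qb).comp F.val
  have hwd : ∀ a b : GQ, (QuotientGroup.leftRel F.fixingSubgroup) a b → φ a = φ b := by
    intro a b hab
    rw [QuotientGroup.leftRel_apply] at hab
    apply AlgHom.ext
    intro x
    have h1 := (IntermediateField.mem_fixingSubgroup_iff F (a⁻¹ * b)).1 hab x x.2
    show a x = b x
    have h2 : (a⁻¹ * b) (x : Qb) = a⁻¹ (b x) := rfl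
    rw [h2] at h1
    have h3 : a (a⁻¹ (b x)) = b x := by
      show (a * a⁻¹) (b x) = b x
      simp
    rw [← h3, h1]
  let φ' : GQ ⧸ F.fixingSubgroup → (F →ₐ[ℚ] Qb) := Quotient.lift φ hwd
  have hinj : Function.Injective φ' := by
    intro x y hxy
    obtain ⟨a, rfl⟩ := QuotientGroup.mk_surjective x
    obtain ⟨b, rfl⟩ := QuotientGroup.mk_surjective y
    apply Quotient.sound
    show (QuotientGroup.leftRel F.fixingSubgroup) a b
    rw [QuotientGroup.leftRel_apply, IntermediateField.mem_fixingSubgroup_iff]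
    intro x hx
    have h1 : a x = b x := congrArg (fun f : F →ₐ[ℚ] Qb => f ⟨x, hx⟩) hxy
    show a⁻¹ (b x) = x
    rw [← h1]
    show (a⁻¹ * a) x = x
    simp
  have : Finite (GQ ⧸ F.fixingSubgroup) := Finite.of_injective φ' hinj
  exact Subgroup.finiteIndex_of_finite_quotient

theorem fixingSubgroup_bot_eq_top :
    (⊥ : IntermediateField ℚ Qb).fixingSubgroup = ⊤ := by
  ext σ
  simp only [Subgroup.mem_top, iff_true]
  rw [IntermediateField.mem_fixingSubgroup_iff]
  rintro x hx
  obtain ⟨r, rfl⟩ := IntermediateField.mem_bot.1 hx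
  exact σ.commutes r

/-- the `S`-levels: `Gal(ℚ̄/F)`, `F` finite Galois over `ℚ`, unramified outside `S` -/
def levelsS (S : Finset Nat.Primes) : Levels GQ where
  sets := {U | ∃ F : IntermediateField ℚ Qb, F.IsUnramifiedOutside S ∧
    F.fixingSubgroup.Normal ∧ U = F.fixingSubgroup}
  nonempty := ⟨⊤, ⊥, IntermediateField.isUnramifiedOutside_bot S, by
    rw [fixingSubgroup_bot_eq_top]; infer_instance, fixingSubgroup_bot_eq_top.symm⟩
  directed := by
    rintro U ⟨F, hF, hn, rfl⟩ V ⟨F', hF', hn', rfl⟩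
    refine ⟨(F ⊔ F').fixingSubgroup, ⟨F ⊔ F', hF.sup hF', ?_, rfl⟩, ?_⟩
    · rw [IntermediateField.fixingSubgroup_sup]
      haveI := hn
      haveI := hn'
      infer_instance
    · rw [IntermediateField.fixingSubgroup_sup]
  normal := by
    rintro U ⟨F, hF, hn, rfl⟩
    exact hn
  finite := by
    rintro U ⟨F, hF, hn, rfl⟩
    haveI := hF.1
    exact finiteIndex_fixingSubgroup F

theorem mem_levelsS_iff (S : Finset Nat.Primes) (U : Subgroup GQ) :
    U ∈ (levelsS S).sets ↔ ∃ F : IntermediateField ℚ Qb, F.IsUnramifiedOutside S ∧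
      F.fixingSubgroup.Normal ∧ U = F.fixingSubgroup := Iff.rfl

theorem isLC₁_levelsS_iff (S : Finset Nat.Primes) {X : Type*} (f : GQ → X) :
    IsLC₁ (levelsS S) f ↔ IsLevelConstantS₁ S f := by
  constructor
  · rintro ⟨U, ⟨F, hF, -, rfl⟩, h⟩
    exact ⟨F, hF, h⟩
  · rintro ⟨F, hF, h⟩
    obtain ⟨F', h1, h2, h3⟩ := exists_normal_ge_of_isUnramifiedOutside hF
    exact ⟨F'.fixingSubgroup, ⟨F', h2, h3, rfl⟩,
      fun g s hs => h g s (IntermediateField.fixingSubgroup_antitone h1 hs)⟩

theorem isLC₂_levelsS_iff (S : Finset Nat.Primes) {X : Type*} (f : GQ × GQ → X) :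
    IsLC₂ (levelsS S) f ↔ IsLevelConstantS₂ S f := by
  constructor
  · rintro ⟨U, ⟨F, hF, -, rfl⟩, h⟩
    exact ⟨F, hF, h⟩
  · rintro ⟨F, hF, h⟩
    obtain ⟨F', h1, h2, h3⟩ := exists_normal_ge_of_isUnramifiedOutside hF
    exact ⟨F'.fixingSubgroup, ⟨F', h2, h3, rfl⟩,
      fun g g' s s' hs hs' => h g g' s s' (IntermediateField.fixingSubgroup_antitone h1 hs)
        (IntermediateField.fixingSubgroup_antitone h1 hs')⟩

variable {H : Type} [Group H]

/-- the local levels along `r : H →* GQ`: `r⁻¹ Gal(ℚ̄/F)`, `F` finite Galois over `ℚ` -/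
def levelsLoc (r : H →* GQ) : Levels H where
  sets := {V | ∃ F : IntermediateField ℚ Qb, FiniteDimensional ℚ F ∧
    F.fixingSubgroup.Normal ∧ V = F.fixingSubgroup.comap r}
  nonempty := ⟨⊤, ⊥, inferInstance, by
    rw [fixingSubgroup_bot_eq_top]; infer_instance, by
    rw [fixingSubgroup_bot_eq_top, Subgroup.comap_top]⟩
  directed := by
    rintro U ⟨F, hF, hn, rfl⟩ V ⟨F', hF', hn', rfl⟩
    haveI := hF
    haveI := hF'
    refine ⟨(F ⊔ F').fixingSubgroup.comap r,
      ⟨F ⊔ F', IntermediateField.finiteDimensional_sup F F', ?_, rfl⟩, ?_⟩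
    · rw [IntermediateField.fixingSubgroup_sup]
      haveI := hn
      haveI := hn'
      infer_instance
    · rw [IntermediateField.fixingSubgroup_sup, Subgroup.comap_inf]
  normal := by
    rintro U ⟨F, hF, hn, rfl⟩
    haveI := hn
    infer_instance
  finite := by
    rintro U ⟨F, hF, hn, rfl⟩
    haveI := hF
    haveI := hn
    have h1 := finiteIndex_fixingSubgroup F
    refine ⟨?_⟩
    rw [Subgroup.index_comap]
    intro h0
    have h2 := Subgroup.relIndex_dvd_index_of_normal F.fixingSubgroup r.range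
    rw [h0, zero_dvd_iff] at h2
    exact h1.index_ne_zero h2

theorem mem_levelsLoc_iff (r : H →* GQ) (V : Subgroup H) :
    V ∈ (levelsLoc r).sets ↔ ∃ F : IntermediateField ℚ Qb, FiniteDimensional ℚ F ∧
      F.fixingSubgroup.Normal ∧ V = F.fixingSubgroup.comap r := Iff.rfl

theorem isLC₁_levelsLoc_iff (r : H →* GQ) {X : Type*} (f : H → X) :
    IsLC₁ (levelsLoc r) f ↔ IsLevelConstant₁ r f := by
  constructor
  · rintro ⟨U, ⟨F, hF, -, rfl⟩, h⟩
    exact ⟨F, hF, fun g s hs => h g s hs⟩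
  · rintro ⟨F, hF, h⟩
    haveI := hF
    obtain ⟨F', h1, h2, h3⟩ := exists_normal_ge_of_finiteDimensional F
    exact ⟨F'.fixingSubgroup.comap r, ⟨F', h2, h3, rfl⟩,
      fun g s hs => h g s (IntermediateField.fixingSubgroup_antitone h1 hs)⟩

theorem isLC₂_levelsLoc_iff (r : H →* GQ) {X : Type*} (f : H × H → X) :
    IsLC₂ (levelsLoc r) f ↔ IsLevelConstant₂ r f := by
  constructor
  · rintro ⟨U, ⟨F, hF, -, rfl⟩, h⟩
    exact ⟨F, hF, fun g g' s s' hs hs' => h g g' s s' hs hs'⟩
  · rintro ⟨F, hF, h⟩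
    haveI := hF
    obtain ⟨F', h1, h2, h3⟩ := exists_normal_ge_of_finiteDimensional F
    exact ⟨F'.fixingSubgroup.comap r, ⟨F', h2, h3, rfl⟩,
      fun g g' s s' hs hs' => h g g' s s' (IntermediateField.fixingSubgroup_antitone h1 hs)
        (IntermediateField.fixingSubgroup_antitone h1 hs')⟩

/-- the local levels are finer than the pull-back of the `S`-levels -/
theorem levelsS_le_levelsLoc (S : Finset Nat.Primes) (r : H →* GQ) :
    ∀ U ∈ (levelsS S).sets, ∃ V ∈ (levelsLoc r).sets, V ≤ U.comap r := by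
  rintro U ⟨F, hF, hn, rfl⟩
  exact ⟨F.fixingSubgroup.comap r, ⟨F, hF.1, hn, rfl⟩, le_rfl⟩

/-- the levels of `GQ` itself (all finite Galois extensions) -/
abbrev levelsAll : Levels GQ := levelsLoc (MonoidHom.id GQ)

theorem levelsS_le_levelsAll (S : Finset Nat.Primes) :
    ∀ U ∈ (levelsS S).sets, ∃ V ∈ levelsAll.sets, V ≤ U.comap (MonoidHom.id GQ) :=
  levelsS_le_levelsLoc S _

variable {k : Type} [CommRing k]

/-- a smooth module in the sense of the prelude (`S55`), unramified outside `S`, is smooth for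
`levelsS S` when it is finitely generated -/
theorem isSmooth_levelsS {S : Finset Nat.Primes} {M : Rep.{0} k GQ} {F : IntermediateField ℚ Qb}
    (hF : IsLevel S M F) : IsSmooth (levelsS S) M := fun m =>
  ⟨F.fixingSubgroup, ⟨F, hF.unram, hF.normal, rfl⟩, fun s hs => by rw [hF.triv s hs]; rfl⟩

theorem isSmooth_levelsLoc {M : Rep.{0} k GQ} {F : IntermediateField ℚ Qb}
    (hF : IsFinLevel M F) (r : H →* GQ) : IsSmooth (levelsLoc r) (Rep.res r M) := fun m =>
  ⟨F.fixingSubgroup.comap r, ⟨F, hF.fin, hF.normal, rfl⟩, fun s hs => by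
    show M.ρ (r s) m = m
    rw [hF.triv (r s) hs]; rfl⟩

end H15D

end
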