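/-
W2-C (S55) blocks D/F (helper15): the prelude's continuous cohomology groups are the
level-constant cohomology groups of block D.

* `bridgeH2S S M : continuousH2S S M ≃ₗ[k] lcH2 (levelsS S) M`;
* `bridgeH2 r B : continuousH2 r B ≃ₗ[k] lcH2 (levelsLoc r) B`;
* `bridgeH1S S A : ↥(continuousH1S S A) ≃ₗ[k] lcH1 (levelsS S) A`;
* `bridge_locRes₂S` : the prelude's localisation `locRes₂S` is `PP.res`;
* `bridge_H1_loc` : vanishing of the prelude's localisation on `H¹` is vanishing of `PP.res`.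
-/
import Mathlib
import Fermat.Prelude.Def_GroupCohomology_ContinuousUnramified
import Fermat.Agent.CFT2.F.Unfold_helper15
import Fermat.Agent.CFT2.F.UnfoldH1_helper15
import Fermat.Agent.CFT2.D.Levels_helper15

set_option autoImplicit false
set_option linter.style.haveILetI false

noncomputable section

namespace H15D

open groupCohomology H15F CategoryTheory

local notation "Qb" => AlgebraicClosure ℚ
local notation "GQ" => (AlgebraicClosure ℚ ≃ₐ[ℚ] AlgebraicClosure ℚ)

section generic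

variable {k : Type*} [CommRing k] {X : Type*} [AddCommGroup X] [Module k X]

/-- quotients of equal submodules by equal submodules are equivalent -/
def quotEquivOfEq {Z Z' B B' : Submodule k X} (hZ : Z = Z') (hB : B = B') :
    (↥Z ⧸ B.comap Z.subtype) ≃ₗ[k] (↥Z' ⧸ B'.comap Z'.subtype) := by
  subst hZ
  subst hB
  exact LinearEquiv.refl _ _

theorem quotEquivOfEq_mk {Z Z' B B' : Submodule k X} (hZ : Z = Z') (hB : B = B') (c : X)
    (hc : c ∈ Z) :
    quotEquivOfEq hZ hB (Submodule.Quotient.mk ⟨c, hc⟩)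
      = Submodule.Quotient.mk ⟨c, hZ ▸ hc⟩ := by
  subst hZ
  subst hB
  rfl

end generic

variable {k : Type} [CommRing k]

/-- the underlying cocycle of a level-constant cocycle -/
def toCocycles₁ {G : Type} [Group G] {𝓤 : Levels G} {A : Rep.{0} k G} (c : ↥(lcZ1 𝓤 A)) :
    cocycles₁ A :=
  ⟨(c : G → A), ((mem_lcZ1_iff _).1 c.2).1⟩

theorem toCocycles₁_coe {G : Type} [Group G] {𝓤 : Levels G} {A : Rep.{0} k G}
    (c : ↥(lcZ1 𝓤 A)) : ((toCocycles₁ c : cocycles₁ A) : G → A) = (c : G → A) := rfl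

section global

variable (S : Finset Nat.Primes) (M : Rep.{0} k GQ)

theorem lcZ2_levelsS : lcZ2 (levelsS S) M = levelCocyclesS₂ S M := by
  ext c
  rw [mem_lcZ2_iff, mem_levelCocyclesS₂_iff, isLC₂_levelsS_iff]

theorem lcB2_levelsS : lcB2 (levelsS S) M = levelCoboundariesS₂ S M := by
  ext c
  rw [mem_lcB2_iff, mem_levelCoboundariesS₂_iff]
  simp only [isLC₁_levelsS_iff]

/-- the prelude's `continuousH2S` is the level-constant `H²` for the `S`-levels -/
def bridgeH2S : continuousH2S S M ≃ₗ[k] lcH2 (levelsS S) M :=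
  quotEquivOfEq (lcZ2_levelsS S M).symm (lcB2_levelsS S M).symm

theorem bridgeH2S_π (c : ↥(levelCocyclesS₂ S M)) :
    bridgeH2S S M (continuousH2Sπ S M c)
      = lcH2π (levelsS S) M ⟨(c : GQ × GQ → M), (lcZ2_levelsS S M).symm ▸ c.2⟩ :=
  quotEquivOfEq_mk _ _ _ _

theorem bridgeH2S_symm_π (c : ↥(lcZ2 (levelsS S) M)) :
    (bridgeH2S S M).symm (lcH2π (levelsS S) M c)
      = continuousH2Sπ S M ⟨(c : GQ × GQ → M), (lcZ2_levelsS S M) ▸ c.2⟩ := by
  rw [LinearEquiv.symm_apply_eq, bridgeH2S_π]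

/-- the prelude's `continuousH1S` is the level-constant `H¹` for the `S`-levels -/
def bridgeH1Sfun : lcH1 (levelsS S) M →ₗ[k] ↥(continuousH1S S M) :=
  Submodule.liftQ _
    (((H1π M).hom ∘ₗ Submodule.inclusion (inf_le_left : lcZ1 (levelsS S) M ≤ cocycles₁ M)).codRestrict
      (continuousH1S S M) (fun c => by
        rw [mem_continuousH1S_iff]
        exact ⟨toCocycles₁ c, (isLC₁_levelsS_iff S _).1 ((mem_lcZ1_iff _).1 c.2).2, rfl⟩))
    (fun c hc => by
      have hc' : ((toCocycles₁ c : cocycles₁ M) : GQ → M) ∈ coboundaries₁ M := hc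
      have h1 := (H1π_eq_zero_iff (A := M) (toCocycles₁ c)).2 hc'
      apply Subtype.ext
      exact h1)

theorem bridgeH1Sfun_π (c : ↥(lcZ1 (levelsS S) M)) :
    ((bridgeH1Sfun S M (lcH1π (levelsS S) M c) : ↥(continuousH1S S M)) : H1 M)
      = (H1π M).hom (toCocycles₁ c) := rfl

theorem bridgeH1Sfun_bijective : Function.Bijective (bridgeH1Sfun S M) := by
  constructor
  · rw [← LinearMap.ker_eq_bot, LinearMap.ker_eq_bot']
    intro x hx
    obtain ⟨c, rfl⟩ := lcH1π_surjective x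
    have h1 := congrArg Subtype.val hx
    rw [bridgeH1Sfun_π] at h1
    have h2 := (H1π_eq_zero_iff (A := M) (toCocycles₁ c)).1 h1
    rw [lcH1π_eq_zero_iff]
    exact (mem_coboundaries₁_iff' _).1 h2
  · rintro ⟨x, hx⟩
    obtain ⟨c, hc, rfl⟩ := (mem_continuousH1S_iff S M x).1 hx
    refine ⟨lcH1π (levelsS S) M ⟨(c : GQ → M),
      (mem_lcZ1_iff _).2 ⟨c.2, (isLC₁_levelsS_iff S _).2 hc⟩⟩, ?_⟩
    apply Subtype.ext
    rfl

/-- the prelude's `continuousH1S` is the level-constant `H¹` for the `S`-levels -/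
def bridgeH1S : ↥(continuousH1S S M) ≃ₗ[k] lcH1 (levelsS S) M :=
  (LinearEquiv.ofBijective (bridgeH1Sfun S M) (bridgeH1Sfun_bijective S M)).symm

theorem bridgeH1S_symm_π (c : ↥(lcZ1 (levelsS S) M)) :
    (((bridgeH1S S M).symm (lcH1π (levelsS S) M c) : ↥(continuousH1S S M)) : H1 M)
      = (H1π M).hom (toCocycles₁ c) := rfl

theorem bridgeH1S_π (c : cocycles₁ M) (hc : IsLevelConstantS₁ S (c : GQ → M))
    (hx : (H1π M).hom c ∈ continuousH1S S M) :
    bridgeH1S S M ⟨(H1π M).hom c, hx⟩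
      = lcH1π (levelsS S) M ⟨(c : GQ → M),
          (mem_lcZ1_iff _).2 ⟨c.2, (isLC₁_levelsS_iff S _).2 hc⟩⟩ := by
  rw [bridgeH1S, LinearEquiv.symm_apply_eq]
  apply Subtype.ext
  rfl

end global

section loc

variable {H : Type} [Group H] (r : H →* GQ) (B : Rep.{0} k H)

theorem lcZ2_levelsLoc : lcZ2 (levelsLoc r) B = levelCocycles₂ r B := by
  ext c
  rw [mem_lcZ2_iff, mem_levelCocycles₂_iff, isLC₂_levelsLoc_iff]

theorem lcB2_levelsLoc : lcB2 (levelsLoc r) B = levelCoboundaries₂ r B := by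
  ext c
  rw [mem_lcB2_iff, mem_levelCoboundaries₂_iff]
  simp only [isLC₁_levelsLoc_iff]

/-- the prelude's local `continuousH2` is the level-constant `H²` for the local levels -/
def bridgeH2 : continuousH2 r B ≃ₗ[k] lcH2 (levelsLoc r) B :=
  quotEquivOfEq (lcZ2_levelsLoc r B).symm (lcB2_levelsLoc r B).symm

theorem bridgeH2_π (c : ↥(levelCocycles₂ r B)) :
    bridgeH2 r B (continuousH2π r B c)
      = lcH2π (levelsLoc r) B ⟨(c : H × H → B), (lcZ2_levelsLoc r B).symm ▸ c.2⟩ :=
  quotEquivOfEq_mk _ _ _ _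

end loc

section compat

variable (S : Finset Nat.Primes) (M : Rep.{0} k GQ) {H : Type} [Group H] (r : H →* GQ)

/-- restriction from the `S`-levels to the local levels -/
abbrev resS : PP (levelsS S) (levelsLoc r) M (Rep.res r M) :=
  PP.res r (levelsS_le_levelsLoc S r) M

/-- the prelude's localisation map on `H²` is the restriction map of block D -/
theorem bridge_locRes₂S (x : continuousH2S S M) :
    bridgeH2 r (Rep.res r M) (locRes₂S S M r x) = (resS S M r).H2 (bridgeH2S S M x) := by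
  obtain ⟨c, rfl⟩ := Submodule.mkQ_surjective _ x
  rw [h15f_locRes₂S_π, bridgeH2_π]
  have h1 := bridgeH2S_π S M c
  rw [h1, PP.H2_π]
  rfl

/-- the localisation of the class of a cocycle vanishes iff the restricted cocycle is a
coboundary (version of `H15F.h15f_map_H1π_eq_zero_iff` over a commutative ring) -/
theorem map_H1π_eq_zero_iff' (c : cocycles₁ M) :
    (map r (𝟙 (Rep.res r M)) 1).hom ((H1π M).hom c) = 0 ↔
      ∃ m : M, ∀ h : H, (c : GQ → M) (r h) = M.ρ (r h) m - m := by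
  have h1 : (map r (𝟙 (Rep.res r M)) 1).hom ((H1π M).hom c)
      = (H1π (Rep.res r M)).hom ((mapCocycles₁ r (𝟙 (Rep.res r M))).hom c) := by
    have := H1π_comp_map_apply (A := M) (B := Rep.res r M) r (𝟙 (Rep.res r M)) c
    exact this
  rw [h1]
  have h2 := H1π_eq_zero_iff (A := Rep.res r M) ((mapCocycles₁ r (𝟙 (Rep.res r M))).hom c)
  rw [h2]
  have key : ∀ h : H, ((mapCocycles₁ r (𝟙 (Rep.res r M))).hom c) h = (c : GQ → M) (r h) :=
    fun h => rfl
  constructor
  · rintro ⟨m, hm⟩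
    refine ⟨m, fun h => ?_⟩
    have := congrFun hm h
    simp only [d₀₁_hom_apply] at this
    rw [← key h, ← this]
    rfl
  · rintro ⟨m, hm⟩
    refine ⟨m, ?_⟩
    funext h
    simp only [d₀₁_hom_apply]
    rw [key h, hm h]
    rfl

/-- vanishing of the prelude's localisation map on `H¹` is vanishing of the restriction map of
block D -/
theorem bridge_H1_loc (c : ↥(lcZ1 (levelsS S) M)) :
    (map r (𝟙 (Rep.res r M)) 1).hom ((H1π M).hom (toCocycles₁ c)) = 0 ↔
      (resS S M r).H1 (lcH1π (levelsS S) M c) = 0 := by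
  rw [map_H1π_eq_zero_iff', PP.H1_π, lcH1π_eq_zero_iff]
  constructor
  · rintro ⟨m, hm⟩
    refine ⟨m, ?_⟩
    funext h
    rw [d₀₁_apply']
    exact (hm h).symm
  · rintro ⟨m, hm⟩
    refine ⟨m, fun h => ?_⟩
    have := congrFun hm h
    rw [d₀₁_apply'] at this
    exact this.symm

end compat

end H15D

end
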