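/-
W2-C (S55) blocks D/F (helper15): `sha₁`, `sha₂` in terms of level-constant cohomology, and the
reduction of S55 to an equality of dimensions there.

* `sha1lc S A ≤ lcH1 (levelsS S) A`, `sha2lc S M ≤ lcH2 (levelsS S) M` : the classes whose
  restrictions to the local groups at the primes of `S` vanish (`PP.res`, block D);
* `sha₁Equiv : ↥(sha₁ S A) ≃ₗ ↥(sha1lc S A)`,  `sha₂Equiv : ↥(sha₂ S M) ≃ₗ ↥(sha2lc S M)`
  (the archimedean conditions are vacuous since `2` is invertible);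
* `S55_of_lc` : the conclusion of S55 from finite-dimensionality and equality of dimensions of
  `sha1lc S (M.dualTwist (cycloChar p))` and `sha2lc S M`.
-/
import Mathlib
import Fermat.Prelude.Def_GroupCohomology_ContinuousUnramified
import Fermat.Agent.CFT2.F.Arch_helper15
import Fermat.Agent.CFT2.F.Pairing_helper15
import Fermat.Agent.CFT2.D.Bridge_helper15

set_option autoImplicit false
set_option linter.style.haveILetI false

noncomputable section

namespace H15D

open groupCohomology H15F CategoryTheory ExtCitation Module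

local notation "Qb" => AlgebraicClosure ℚ
local notation "GQ" => (AlgebraicClosure ℚ ≃ₐ[ℚ] AlgebraicClosure ℚ)

variable {k : Type} [Field k] (S : Finset Nat.Primes) (M : Rep.{0} k GQ)

/-- classes of `H¹` that vanish locally at the primes of `S` -/
def sha1lc : Submodule k (lcH1 (levelsS S) M) :=
  ⨅ q : ↥S, LinearMap.ker (resS S M (primeLocalToGlobal q.1)).H1

/-- classes of `H²` that vanish locally at the primes of `S` -/
def sha2lc : Submodule k (lcH2 (levelsS S) M) :=
  ⨅ q : ↥S, LinearMap.ker (resS S M (primeLocalToGlobal q.1)).H2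

theorem mem_sha1lc_iff (x : lcH1 (levelsS S) M) :
    x ∈ sha1lc S M ↔ ∀ q : ↥S, (resS S M (primeLocalToGlobal q.1)).H1 x = 0 := by
  simp only [sha1lc, Submodule.mem_iInf, LinearMap.mem_ker]

theorem mem_sha2lc_iff (x : lcH2 (levelsS S) M) :
    x ∈ sha2lc S M ↔ ∀ q : ↥S, (resS S M (primeLocalToGlobal q.1)).H2 x = 0 := by
  simp only [sha2lc, Submodule.mem_iInf, LinearMap.mem_ker]

/-- membership in the prelude's `sha₂` in terms of block D -/
theorem bridge_mem_sha₂ (h2 : (2 : k) ≠ 0) {F₀ : IntermediateField ℚ Qb}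
    (hF₀ : IsFinLevel M F₀) (x : continuousH2S S M) :
    x ∈ sha₂ S M ↔ bridgeH2S S M x ∈ sha2lc S M := by
  rw [h15f_mem_sha₂_iff_primes S M h2 hF₀, mem_sha2lc_iff]
  refine forall_congr' fun q => ?_
  rw [← bridge_locRes₂S, LinearEquiv.map_eq_zero_iff]

/-- membership in the prelude's `sha₁` in terms of block D -/
theorem bridge_mem_sha₁ (h2 : (2 : k) ≠ 0) (x : ↥(continuousH1S S M)) :
    (x : H1 M) ∈ sha₁ S M ↔ bridgeH1S S M x ∈ sha1lc S M := by
  rw [h15f_mem_sha₁_iff_primes M S h2, mem_sha1lc_iff]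
  obtain ⟨c, hc⟩ := (bridgeH1S S M).symm.surjective x
  obtain ⟨c, rfl⟩ := lcH1π_surjective c
  subst hc
  rw [LinearEquiv.apply_symm_apply]
  constructor
  · rintro ⟨-, h⟩ q
    have := h q
    rw [bridgeH1S_symm_π] at this
    exact (bridge_H1_loc S M (primeLocalToGlobal q.1) c).1 this
  · intro h
    refine ⟨Subtype.property _, fun q => ?_⟩
    rw [bridgeH1S_symm_π]
    exact (bridge_H1_loc S M (primeLocalToGlobal q.1) c).2 (h q)

theorem sha₁_le_continuousH1S : sha₁ S M ≤ continuousH1S S M := inf_le_left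

/-- the prelude's `sha₂` is `sha2lc` -/
def sha₂Equiv (h2 : (2 : k) ≠ 0) {F₀ : IntermediateField ℚ Qb} (hF₀ : IsFinLevel M F₀) :
    ↥(sha₂ S M) ≃ₗ[k] ↥(sha2lc S M) :=
  ((bridgeH2S S M).submoduleMap (sha₂ S M)).trans (LinearEquiv.ofEq _ _ (by
    ext y
    rw [Submodule.mem_map]
    constructor
    · rintro ⟨x, hx, rfl⟩
      exact (bridge_mem_sha₂ S M h2 hF₀ x).1 hx
    · intro hy
      refine ⟨(bridgeH2S S M).symm y, ?_, LinearEquiv.apply_symm_apply _ _⟩
      rw [bridge_mem_sha₂ S M h2 hF₀, LinearEquiv.apply_symm_apply]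
      exact hy))

/-- the prelude's `sha₁` is `sha1lc` -/
def sha₁Equiv (h2 : (2 : k) ≠ 0) : ↥(sha₁ S M) ≃ₗ[k] ↥(sha1lc S M) :=
  ((Submodule.comapSubtypeEquivOfLe (sha₁_le_continuousH1S S M)).symm.trans
    ((bridgeH1S S M).submoduleMap _)).trans (LinearEquiv.ofEq _ _ (by
    ext y
    rw [Submodule.mem_map]
    constructor
    · rintro ⟨x, hx, rfl⟩
      exact (bridge_mem_sha₁ S M h2 x).1 hx
    · intro hy
      refine ⟨(bridgeH1S S M).symm y, ?_, LinearEquiv.apply_symm_apply _ _⟩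
      rw [Submodule.mem_comap, Submodule.subtype_apply, bridge_mem_sha₁ S M h2,
        LinearEquiv.apply_symm_apply]
      exact hy))

end H15D

namespace H15D

open groupCohomology H15F CategoryTheory ExtCitation Module

local notation "Qb" => AlgebraicClosure ℚ
local notation "GQ" => (AlgebraicClosure ℚ ≃ₐ[ℚ] AlgebraicClosure ℚ)

set_option maxHeartbeats 1600000 in
/-- **S55 from the equality of dimensions in level-constant cohomology** -/
theorem S55_of_lc {p : ℕ} [Fact p.Prime] (hp2 : p ≠ 2) (S : Finset Nat.Primes)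
    (M : Rep (ZMod p) (AlgebraicClosure ℚ ≃ₐ[ℚ] AlgebraicClosure ℚ))
    [FiniteDimensional (ZMod p) M]
    (hsm : ∀ m : M, ∃ F : IntermediateField ℚ (AlgebraicClosure ℚ), FiniteDimensional ℚ F ∧
      ∀ s ∈ F.fixingSubgroup, M.ρ s m = m)
    (hMur : ∀ q : Nat.Primes, q ∉ S → ∀ A : ValuationSubring (AlgebraicClosure ℚ),
      A.LiesOverPrime (q : ℕ) → ∀ g ∈ A.inertiaSubgroupIn ℚ, M.ρ g = 1)
    (hfin1 : Module.Finite (ZMod p) ↥(sha1lc S (M.dualTwist (cycloChar p))))
    (hfin2 : Module.Finite (ZMod p) ↥(sha2lc S M))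
    (heq : finrank (ZMod p) ↥(sha1lc S (M.dualTwist (cycloChar p)))
      = finrank (ZMod p) ↥(sha2lc S M)) :
    ∃ B : sha₁ S (M.dualTwist (cycloChar p)) →ₗ[ZMod p] sha₂ S M →ₗ[ZMod p] ZMod p,
      (∀ y, (∀ x, B y x = 0) → y = 0) ∧ (∀ x, (∀ y, B y x = 0) → x = 0) := by
  have h2 : (2 : ZMod p) ≠ 0 := by
    intro h
    have h3 : ((2 : ℕ) : ZMod p) = 0 := by exact_mod_cast h
    rw [ZMod.natCast_eq_zero_iff] at h3
    have hp : p.Prime := Fact.out
    have := (Nat.prime_dvd_prime_iff_eq hp Nat.prime_two).1 h3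
    exact hp2 this
  obtain ⟨F₀, hF₀⟩ := exists_isLevel S M hsm hMur
  let e1 := sha₁Equiv S (M.dualTwist (cycloChar p)) h2
  let e2 := sha₂Equiv S M h2 hF₀.isFinLevel
  haveI : Module.Finite (ZMod p) ↥(sha₁ S (M.dualTwist (cycloChar p))) :=
    Module.Finite.equiv e1.symm
  haveI : Module.Finite (ZMod p) ↥(sha₂ S M) := Module.Finite.equiv e2.symm
  apply h15f_exists_pairing
  rw [e1.finrank_eq, e2.finrank_eq, heq]

end H15D

end
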