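/-
W2-C (S55) block D (helper15): additive functoriality and change of scalars.

* `APP 𝓤 𝓥 A B` : like `PP`, but `A : Rep k G`, `B : Rep k' H` may have different coefficient
  rings and `φ : A →+ B` is only additive;  `APP.H1`, `APP.H2` are additive maps.
* `zRep A : Rep ℤ G` : the underlying `ℤ`-representation of `A : Rep k G` (same carrier);
  `toZ`, `ofZ` : `APP`s between `A` and `zRep A`;  `zEquivH1`, `zEquivH2` : the induced additive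
  equivalences on level-constant cohomology.
-/
import Mathlib
import Fermat.Agent.CFT2.D.Natural_helper15

set_option autoImplicit false
set_option linter.style.haveILetI false

noncomputable section

namespace H15D

open groupCohomology H15F

section addDescSurj

variable {P V W : Type*} [AddCommGroup P] [AddCommGroup V] [AddCommGroup W]

/-- the additive map `V → W` induced by a surjection `p : P → V` and a map `q : P → W` vanishing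
on `ker p` -/
def addDescSurj (p : P →+ V) (hp : Function.Surjective p) (q : P →+ W)
    (h : ∀ x, p x = 0 → q x = 0) : V →+ W :=
  (descSurj p.toIntLinearMap hp q.toIntLinearMap h).toAddMonoidHom

theorem addDescSurj_apply (p : P →+ V) (hp : Function.Surjective p) (q : P →+ W)
    (h : ∀ x, p x = 0 → q x = 0) (x : P) : addDescSurj p hp q h (p x) = q x :=
  descSurj_apply p.toIntLinearMap hp q.toIntLinearMap h x

end addDescSurj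

variable {k k' k'' : Type} [CommRing k] [CommRing k'] [CommRing k'']
  {G H K : Type} [Group G] [Group H] [Group K]

/-- additive pull-push datum -/
structure APP (𝓤 : Levels G) (𝓥 : Levels H) (A : Rep.{0} k G) (B : Rep.{0} k' H) where
  /-- the group homomorphism -/
  r : H →* G
  /-- the map of coefficients -/
  φ : A →+ B
  compat : ∀ h a, φ (A.ρ (r h) a) = B.ρ h (φ a)
  levels : ∀ U ∈ 𝓤.sets, ∃ V ∈ 𝓥.sets, V ≤ U.comap r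

namespace APP

variable {𝓤 : Levels G} {𝓥 : Levels H} {𝓦 : Levels K} {A : Rep.{0} k G} {B : Rep.{0} k' H}
  {C : Rep.{0} k'' K} (P : APP 𝓤 𝓥 A B)

/-- the map on 1-cochains -/
def c₁ : (G → A) →+ (H → B) where
  toFun f h := P.φ (f (P.r h))
  map_zero' := by funext h; simp
  map_add' f f' := by funext h; simp

/-- the map on 2-cochains -/
def c₂ : (G × G → A) →+ (H × H → B) where
  toFun f h := P.φ (f (P.r h.1, P.r h.2))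
  map_zero' := by funext h; simp
  map_add' f f' := by funext h; simp

@[simp] theorem c₁_apply (f : G → A) (h : H) : P.c₁ f h = P.φ (f (P.r h)) := rfl

@[simp] theorem c₂_apply (f : G × G → A) (h h' : H) :
    P.c₂ f (h, h') = P.φ (f (P.r h, P.r h')) := rfl

theorem d₀₁_φ (m : A) : (d₀₁ B).hom (P.φ m) = P.c₁ ((d₀₁ A).hom m) := by
  funext h
  rw [d₀₁_apply', c₁_apply, d₀₁_apply', map_sub, P.compat]

theorem d₁₂_c₁ (f : G → A) : (d₁₂ B).hom (P.c₁ f) = P.c₂ ((d₁₂ A).hom f) := by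
  funext ⟨h, h'⟩
  rw [d₁₂_apply', c₂_apply, d₁₂_apply', map_add, map_sub, P.compat, c₁_apply, c₁_apply,
    c₁_apply, map_mul]

theorem c₁_mem_cocycles₁ {f : G → A} (hf : f ∈ cocycles₁ A) : P.c₁ f ∈ cocycles₁ B := by
  rw [mem_cocycles₁_iff] at hf ⊢
  intro g h
  rw [c₁_apply, c₁_apply, c₁_apply, map_mul, hf, map_add, P.compat]

theorem c₂_mem_cocycles₂ {f : G × G → A} (hf : f ∈ cocycles₂ A) : P.c₂ f ∈ cocycles₂ B := by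
  rw [mem_cocycles₂_iff] at hf ⊢
  intro g h j
  rw [c₂_apply, c₂_apply, c₂_apply, c₂_apply, map_mul, map_mul, ← map_add, hf, map_add,
    P.compat]

theorem isLC₁_c₁ {f : G → A} (hf : IsLC₁ 𝓤 f) : IsLC₁ 𝓥 (P.c₁ f) := by
  obtain ⟨U, hU, h⟩ := hf
  obtain ⟨V, hV, hVU⟩ := P.levels U hU
  refine ⟨V, hV, fun g s hs => ?_⟩
  rw [c₁_apply, c₁_apply, map_mul, h _ _ (hVU hs)]

theorem isLC₂_c₂ {f : G × G → A} (hf : IsLC₂ 𝓤 f) : IsLC₂ 𝓥 (P.c₂ f) := by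
  obtain ⟨U, hU, h⟩ := hf
  obtain ⟨V, hV, hVU⟩ := P.levels U hU
  refine ⟨V, hV, fun g g' s s' hs hs' => ?_⟩
  rw [c₂_apply, c₂_apply, map_mul, map_mul, h _ _ _ _ (hVU hs) (hVU hs')]

theorem c₁_mem_lcZ1 {f : G → A} (hf : f ∈ lcZ1 𝓤 A) : P.c₁ f ∈ lcZ1 𝓥 B :=
  (mem_lcZ1_iff _).2 ⟨P.c₁_mem_cocycles₁ ((mem_lcZ1_iff _).1 hf).1,
    P.isLC₁_c₁ ((mem_lcZ1_iff _).1 hf).2⟩

theorem c₂_mem_lcZ2 {f : G × G → A} (hf : f ∈ lcZ2 𝓤 A) : P.c₂ f ∈ lcZ2 𝓥 B :=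
  (mem_lcZ2_iff _).2 ⟨P.c₂_mem_cocycles₂ ((mem_lcZ2_iff _).1 hf).1,
    P.isLC₂_c₂ ((mem_lcZ2_iff _).1 hf).2⟩

/-- the map on level-constant 1-cocycles -/
def Z1 : ↥(lcZ1 𝓤 A) →+ ↥(lcZ1 𝓥 B) where
  toFun f := ⟨P.c₁ f, P.c₁_mem_lcZ1 f.2⟩
  map_zero' := Subtype.ext (map_zero P.c₁)
  map_add' f f' := Subtype.ext (map_add P.c₁ _ _)

/-- the map on level-constant 2-cocycles -/
def Z2 : ↥(lcZ2 𝓤 A) →+ ↥(lcZ2 𝓥 B) where
  toFun f := ⟨P.c₂ f, P.c₂_mem_lcZ2 f.2⟩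
  map_zero' := Subtype.ext (map_zero P.c₂)
  map_add' f f' := Subtype.ext (map_add P.c₂ _ _)

@[simp] theorem Z1_coe (f : ↥(lcZ1 𝓤 A)) : ((P.Z1 f : ↥(lcZ1 𝓥 B)) : H → B) = P.c₁ f := rfl

@[simp] theorem Z2_coe (f : ↥(lcZ2 𝓤 A)) : ((P.Z2 f : ↥(lcZ2 𝓥 B)) : H × H → B) = P.c₂ f := rfl

/-- the map on `H¹` -/
def H1 : lcH1 𝓤 A →+ lcH1 𝓥 B :=
  addDescSurj (lcH1π 𝓤 A).toAddMonoidHom lcH1π_surjective
    ((lcH1π 𝓥 B).toAddMonoidHom.comp P.Z1) (fun f hf => by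
      have hf' : lcH1π 𝓤 A f = 0 := hf
      rw [lcH1π_eq_zero_iff] at hf'
      obtain ⟨m, hm⟩ := hf'
      show lcH1π 𝓥 B (P.Z1 f) = 0
      rw [lcH1π_eq_zero_iff]
      exact ⟨P.φ m, by rw [P.d₀₁_φ, hm]; rfl⟩)

/-- the map on `H²` -/
def H2 : lcH2 𝓤 A →+ lcH2 𝓥 B :=
  addDescSurj (lcH2π 𝓤 A).toAddMonoidHom lcH2π_surjective
    ((lcH2π 𝓥 B).toAddMonoidHom.comp P.Z2) (fun c hc => by
      have hc' : lcH2π 𝓤 A c = 0 := hc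
      rw [lcH2π_eq_zero_iff] at hc'
      obtain ⟨f, hf, hfc⟩ := hc'
      show lcH2π 𝓥 B (P.Z2 c) = 0
      rw [lcH2π_eq_zero_iff]
      exact ⟨P.c₁ f, P.isLC₁_c₁ hf, by rw [P.d₁₂_c₁, hfc]; rfl⟩)

@[simp] theorem H1_π (f : ↥(lcZ1 𝓤 A)) : P.H1 (lcH1π 𝓤 A f) = lcH1π 𝓥 B (P.Z1 f) :=
  addDescSurj_apply (lcH1π 𝓤 A).toAddMonoidHom lcH1π_surjective _ _ f

@[simp] theorem H2_π (c : ↥(lcZ2 𝓤 A)) : P.H2 (lcH2π 𝓤 A c) = lcH2π 𝓥 B (P.Z2 c) :=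
  addDescSurj_apply (lcH2π 𝓤 A).toAddMonoidHom lcH2π_surjective _ _ c

/-- composition -/
def comp (Q : APP 𝓥 𝓦 B C) (P : APP 𝓤 𝓥 A B) : APP 𝓤 𝓦 A C where
  r := P.r.comp Q.r
  φ := Q.φ.comp P.φ
  compat h a := by
    show Q.φ (P.φ (A.ρ (P.r (Q.r h)) a)) = C.ρ h (Q.φ (P.φ a))
    rw [P.compat, Q.compat]
  levels U hU := by
    obtain ⟨V, hV, hVU⟩ := P.levels U hU
    obtain ⟨W, hW, hWV⟩ := Q.levels V hV
    exact ⟨W, hW, fun w hw => hVU (hWV hw)⟩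

theorem comp_H1 (Q : APP 𝓥 𝓦 B C) (P : APP 𝓤 𝓥 A B) (x : lcH1 𝓤 A) :
    (Q.comp P).H1 x = Q.H1 (P.H1 x) := by
  obtain ⟨f, rfl⟩ := lcH1π_surjective x
  rw [H1_π, H1_π, H1_π]
  rfl

theorem comp_H2 (Q : APP 𝓥 𝓦 B C) (P : APP 𝓤 𝓥 A B) (x : lcH2 𝓤 A) :
    (Q.comp P).H2 x = Q.H2 (P.H2 x) := by
  obtain ⟨f, rfl⟩ := lcH2π_surjective x
  rw [H2_π, H2_π, H2_π]
  rfl

theorem H1_congr {P Q : APP 𝓤 𝓥 A B} (hr : P.r = Q.r) (hφ : P.φ = Q.φ) (x : lcH1 𝓤 A) :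
    P.H1 x = Q.H1 x := by
  obtain ⟨r, φ, _, _⟩ := P
  obtain ⟨r', φ', _, _⟩ := Q
  obtain rfl : r = r' := hr
  obtain rfl : φ = φ' := hφ
  rfl

theorem H2_congr {P Q : APP 𝓤 𝓥 A B} (hr : P.r = Q.r) (hφ : P.φ = Q.φ) (x : lcH2 𝓤 A) :
    P.H2 x = Q.H2 x := by
  obtain ⟨r, φ, _, _⟩ := P
  obtain ⟨r', φ', _, _⟩ := Q
  obtain rfl : r = r' := hr
  obtain rfl : φ = φ' := hφ
  rfl

/-- the identity-like datum: `r = id`, `φ` the identity of the carrier -/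
theorem H1_eq_self {P : APP 𝓤 𝓤 A A} (hr : P.r = MonoidHom.id G) (hφ : ∀ a, P.φ a = a)
    (x : lcH1 𝓤 A) : P.H1 x = x := by
  obtain ⟨f, rfl⟩ := lcH1π_surjective x
  rw [H1_π]
  congr 1
  apply Subtype.ext
  funext g
  rw [Z1_coe, c₁_apply, hφ, hr]
  rfl

theorem H2_eq_self {P : APP 𝓤 𝓤 A A} (hr : P.r = MonoidHom.id G) (hφ : ∀ a, P.φ a = a)
    (x : lcH2 𝓤 A) : P.H2 x = x := by
  obtain ⟨f, rfl⟩ := lcH2π_surjective x
  rw [H2_π]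
  congr 1
  apply Subtype.ext
  funext ⟨g, g'⟩
  rw [Z2_coe, c₂_apply, hφ, hr]
  rfl

end APP

/-- a (linear) pull-push datum is an additive one -/
def PP.toAPP {𝓤 : Levels G} {𝓥 : Levels H} {A : Rep.{0} k G} {B : Rep.{0} k H}
    (P : PP 𝓤 𝓥 A B) : APP 𝓤 𝓥 A B where
  r := P.r
  φ := P.φ.toAddMonoidHom
  compat := P.compat
  levels := P.levels

theorem PP.toAPP_H1 {𝓤 : Levels G} {𝓥 : Levels H} {A : Rep.{0} k G} {B : Rep.{0} k H}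
    (P : PP 𝓤 𝓥 A B) (x : lcH1 𝓤 A) : P.toAPP.H1 x = P.H1 x := by
  obtain ⟨f, rfl⟩ := lcH1π_surjective x
  rw [APP.H1_π, PP.H1_π]
  rfl

theorem PP.toAPP_H2 {𝓤 : Levels G} {𝓥 : Levels H} {A : Rep.{0} k G} {B : Rep.{0} k H}
    (P : PP 𝓤 𝓥 A B) (x : lcH2 𝓤 A) : P.toAPP.H2 x = P.H2 x := by
  obtain ⟨f, rfl⟩ := lcH2π_surjective x
  rw [APP.H2_π, PP.H2_π]
  rfl

/-! ### the underlying `ℤ`-representation -/

/-- the underlying `ℤ`-linear representation -/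
def zRho (A : Rep.{0} k G) : Representation ℤ G A.V where
  toFun g := (A.ρ g).toAddMonoidHom.toIntLinearMap
  map_one' := by
    ext a
    show A.ρ 1 a = a
    rw [map_one]; rfl
  map_mul' g h := by
    ext a
    show A.ρ (g * h) a = A.ρ g (A.ρ h a)
    rw [map_mul]; rfl

/-- the underlying `ℤ`-representation of `A : Rep k G` (same carrier) -/
def zRep (A : Rep.{0} k G) : Rep.{0} ℤ G := Rep.of (zRho A)

theorem zRep_ρ (A : Rep.{0} k G) (g : G) (a : A) : (zRep A).ρ g a = A.ρ g a := rfl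

/-- `A → zRep A` -/
def toZ (𝓤 : Levels G) (A : Rep.{0} k G) : APP 𝓤 𝓤 A (zRep A) where
  r := MonoidHom.id G
  φ := AddMonoidHom.id A.V
  compat _ _ := rfl
  levels U hU := ⟨U, hU, le_rfl⟩

/-- `zRep A → A` -/
def ofZ (𝓤 : Levels G) (A : Rep.{0} k G) : APP 𝓤 𝓤 (zRep A) A where
  r := MonoidHom.id G
  φ := AddMonoidHom.id A.V
  compat _ _ := rfl
  levels U hU := ⟨U, hU, le_rfl⟩

theorem ofZ_toZ_H1 (𝓤 : Levels G) (A : Rep.{0} k G) (x : lcH1 𝓤 A) :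
    (ofZ 𝓤 A).H1 ((toZ 𝓤 A).H1 x) = x := by
  rw [← APP.comp_H1]
  exact APP.H1_eq_self rfl (fun _ => rfl) x

theorem toZ_ofZ_H1 (𝓤 : Levels G) (A : Rep.{0} k G) (x : lcH1 𝓤 (zRep A)) :
    (toZ 𝓤 A).H1 ((ofZ 𝓤 A).H1 x) = x := by
  rw [← APP.comp_H1]
  exact APP.H1_eq_self rfl (fun _ => rfl) x

theorem ofZ_toZ_H2 (𝓤 : Levels G) (A : Rep.{0} k G) (x : lcH2 𝓤 A) :
    (ofZ 𝓤 A).H2 ((toZ 𝓤 A).H2 x) = x := by
  rw [← APP.comp_H2]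
  exact APP.H2_eq_self rfl (fun _ => rfl) x

theorem toZ_ofZ_H2 (𝓤 : Levels G) (A : Rep.{0} k G) (x : lcH2 𝓤 (zRep A)) :
    (toZ 𝓤 A).H2 ((ofZ 𝓤 A).H2 x) = x := by
  rw [← APP.comp_H2]
  exact APP.H2_eq_self rfl (fun _ => rfl) x

/-- change of scalars on `H¹` -/
def zEquivH1 (𝓤 : Levels G) (A : Rep.{0} k G) : lcH1 𝓤 A ≃+ lcH1 𝓤 (zRep A) where
  toFun := (toZ 𝓤 A).H1
  invFun := (ofZ 𝓤 A).H1
  left_inv := ofZ_toZ_H1 𝓤 A
  right_inv := toZ_ofZ_H1 𝓤 A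
  map_add' := map_add _

/-- change of scalars on `H²` -/
def zEquivH2 (𝓤 : Levels G) (A : Rep.{0} k G) : lcH2 𝓤 A ≃+ lcH2 𝓤 (zRep A) where
  toFun := (toZ 𝓤 A).H2
  invFun := (ofZ 𝓤 A).H2
  left_inv := ofZ_toZ_H2 𝓤 A
  right_inv := toZ_ofZ_H2 𝓤 A
  map_add' := map_add _

theorem isSmooth_zRep {𝓤 : Levels G} {A : Rep.{0} k G} (hA : IsSmooth 𝓤 A) :
    IsSmooth 𝓤 (zRep A) := hA

/-- restriction commutes with change of scalars (`H²`) -/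
theorem res_toZ_H2 {𝓤 : Levels G} {𝓥 : Levels H} (r : H →* G)
    (hr : ∀ U ∈ 𝓤.sets, ∃ V ∈ 𝓥.sets, V ≤ U.comap r) (A : Rep.{0} k G) (x : lcH2 𝓤 A) :
    (PP.res r hr (zRep A)).H2 ((toZ 𝓤 A).H2 x)
      = (toZ 𝓥 (Rep.res r A)).H2 ((PP.res r hr A).H2 x) := by
  obtain ⟨c, rfl⟩ := lcH2π_surjective x
  rw [APP.H2_π, PP.H2_π, PP.H2_π, APP.H2_π]
  rfl

/-- restriction commutes with change of scalars (`H¹`) -/
theorem res_toZ_H1 {𝓤 : Levels G} {𝓥 : Levels H} (r : H →* G)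
    (hr : ∀ U ∈ 𝓤.sets, ∃ V ∈ 𝓥.sets, V ≤ U.comap r) (A : Rep.{0} k G) (x : lcH1 𝓤 A) :
    (PP.res r hr (zRep A)).H1 ((toZ 𝓤 A).H1 x)
      = (toZ 𝓥 (Rep.res r A)).H1 ((PP.res r hr A).H1 x) := by
  obtain ⟨c, rfl⟩ := lcH1π_surjective x
  rw [APP.H1_π, PP.H1_π, PP.H1_π, APP.H1_π]
  rfl

end H15D

end
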