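/-
W2-C (S55) blocks D/F (helper15): S55 from an equality of cardinalities in `ℤ`-coefficients.

* `sha1Z S A`, `sha2Z S M` : the kernels of the localisation maps at the primes of `S` for the
  underlying `ℤ`-representations `zRep A`, `zRep M` (this is `PTData.sha1`, `PTData.sha2` of block E
  for the concrete data);
* `sha1ZEquiv`, `sha2ZEquiv` : bijections with `sha1lc`, `sha2lc`;
* `S55_of_card` : the conclusion of S55 from finiteness of `sha1Z S N`, `sha2Z S M` and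
  `Nat.card (sha2Z S M) = Nat.card (sha1Z S N)`  (`N = M.dualTwist (cycloChar p)`).
-/
import Mathlib
import Fermat.Prelude.Def_GroupCohomology_ContinuousUnramified
import Fermat.Agent.CFT2.D.Sha_helper15
import Fermat.Agent.CFT2.D.Add_helper15

set_option autoImplicit false
set_option linter.style.haveILetI false

noncomputable section

namespace H15D

open groupCohomology H15F CategoryTheory ExtCitation Module

local notation "Qb" => AlgebraicClosure ℚ
local notation "GQ" => (AlgebraicClosure ℚ ≃ₐ[ℚ] AlgebraicClosure ℚ)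

section defs

variable {k : Type} [CommRing k] (S : Finset Nat.Primes) (M : Rep.{0} k GQ)

/-- restriction to the local group at `q` for the underlying `ℤ`-representation -/
abbrev resZ (q : Nat.Primes) :
    PP (levelsS S) (levelsLoc (primeLocalToGlobal q)) (zRep M)
      (Rep.res (primeLocalToGlobal q) (zRep M)) :=
  PP.res (primeLocalToGlobal q) (levelsS_le_levelsLoc S (primeLocalToGlobal q)) (zRep M)

/-- `Ш¹` with `ℤ`-coefficients -/
def sha1Z : Submodule ℤ (lcH1 (levelsS S) (zRep M)) :=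
  ⨅ q : ↥S, LinearMap.ker (resZ S M q.1).H1

/-- `Ш²` with `ℤ`-coefficients -/
def sha2Z : Submodule ℤ (lcH2 (levelsS S) (zRep M)) :=
  ⨅ q : ↥S, LinearMap.ker (resZ S M q.1).H2

theorem mem_sha1Z_iff (x : lcH1 (levelsS S) (zRep M)) :
    x ∈ sha1Z S M ↔ ∀ q : ↥S, (resZ S M q.1).H1 x = 0 := by
  simp only [sha1Z, Submodule.mem_iInf]
  exact forall_congr' fun q => LinearMap.mem_ker

theorem mem_sha2Z_iff (x : lcH2 (levelsS S) (zRep M)) :
    x ∈ sha2Z S M ↔ ∀ q : ↥S, (resZ S M q.1).H2 x = 0 := by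
  simp only [sha2Z, Submodule.mem_iInf]
  exact forall_congr' fun q => LinearMap.mem_ker

end defs

section equiv

variable {k : Type} [Field k] (S : Finset Nat.Primes) (M : Rep.{0} k GQ)

theorem toZ_H1_eq_zero_iff {G : Type} [Group G] (𝓤 : Levels G) (A : Rep.{0} k G)
    (x : lcH1 𝓤 A) : (toZ 𝓤 A).H1 x = 0 ↔ x = 0 := by
  constructor
  · intro h
    have h1 := ofZ_toZ_H1 𝓤 A x
    rw [h, map_zero] at h1
    exact h1.symm
  · rintro rfl
    exact map_zero _

theorem toZ_H2_eq_zero_iff {G : Type} [Group G] (𝓤 : Levels G) (A : Rep.{0} k G)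
    (x : lcH2 𝓤 A) : (toZ 𝓤 A).H2 x = 0 ↔ x = 0 := by
  constructor
  · intro h
    have h1 := ofZ_toZ_H2 𝓤 A x
    rw [h, map_zero] at h1
    exact h1.symm
  · rintro rfl
    exact map_zero _

theorem toZ_mem_sha1Z_iff (x : lcH1 (levelsS S) M) :
    (toZ (levelsS S) M).H1 x ∈ sha1Z S M ↔ x ∈ sha1lc S M := by
  rw [mem_sha1Z_iff, mem_sha1lc_iff]
  refine forall_congr' fun q => ?_
  rw [res_toZ_H1]
  exact toZ_H1_eq_zero_iff (levelsLoc (primeLocalToGlobal q.1))
    (Rep.res (primeLocalToGlobal q.1) M) _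

theorem toZ_mem_sha2Z_iff (x : lcH2 (levelsS S) M) :
    (toZ (levelsS S) M).H2 x ∈ sha2Z S M ↔ x ∈ sha2lc S M := by
  rw [mem_sha2Z_iff, mem_sha2lc_iff]
  refine forall_congr' fun q => ?_
  rw [res_toZ_H2]
  exact toZ_H2_eq_zero_iff (levelsLoc (primeLocalToGlobal q.1))
    (Rep.res (primeLocalToGlobal q.1) M) _

/-- `sha1lc ≃ sha1Z` -/
def sha1ZEquiv : ↥(sha1lc S M) ≃ ↥(sha1Z S M) where
  toFun x := ⟨(toZ (levelsS S) M).H1 x, (toZ_mem_sha1Z_iff S M x).2 x.2⟩
  invFun y := ⟨(ofZ (levelsS S) M).H1 y, by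
    rw [← toZ_mem_sha1Z_iff, toZ_ofZ_H1]
    exact y.2⟩
  left_inv x := Subtype.ext (ofZ_toZ_H1 _ _ _)
  right_inv y := Subtype.ext (toZ_ofZ_H1 _ _ _)

/-- `sha2lc ≃ sha2Z` -/
def sha2ZEquiv : ↥(sha2lc S M) ≃ ↥(sha2Z S M) where
  toFun x := ⟨(toZ (levelsS S) M).H2 x, (toZ_mem_sha2Z_iff S M x).2 x.2⟩
  invFun y := ⟨(ofZ (levelsS S) M).H2 y, by
    rw [← toZ_mem_sha2Z_iff, toZ_ofZ_H2]
    exact y.2⟩
  left_inv x := Subtype.ext (ofZ_toZ_H2 _ _ _)
  right_inv y := Subtype.ext (toZ_ofZ_H2 _ _ _)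

end equiv

/-- a finite vector space over `ZMod p`: finite-dimensional, of cardinality `p ^ finrank` -/
theorem natCard_eq_pow_finrank_zmod {p : ℕ} [Fact p.Prime] (V : Type*) [AddCommGroup V]
    [Module (ZMod p) V] [Finite V] : Nat.card V = p ^ finrank (ZMod p) V := by
  haveI : Module.Finite (ZMod p) V := Module.Finite.of_finite
  have := Module.natCard_eq_pow_finrank (K := ZMod p) (V := V)
  rw [this, Nat.card_zmod]

set_option maxHeartbeats 1600000 in
/-- **S55 from the equality of cardinalities with `ℤ`-coefficients** -/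
theorem S55_of_card {p : ℕ} [Fact p.Prime] (hp2 : p ≠ 2) (S : Finset Nat.Primes)
    (M : Rep (ZMod p) (AlgebraicClosure ℚ ≃ₐ[ℚ] AlgebraicClosure ℚ))
    [FiniteDimensional (ZMod p) M]
    (hsm : ∀ m : M, ∃ F : IntermediateField ℚ (AlgebraicClosure ℚ), FiniteDimensional ℚ F ∧
      ∀ s ∈ F.fixingSubgroup, M.ρ s m = m)
    (hMur : ∀ q : Nat.Primes, q ∉ S → ∀ A : ValuationSubring (AlgebraicClosure ℚ),
      A.LiesOverPrime (q : ℕ) → ∀ g ∈ A.inertiaSubgroupIn ℚ, M.ρ g = 1)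
    (hfin1 : Finite ↥(sha1Z S (M.dualTwist (cycloChar p))))
    (hfin2 : Finite ↥(sha2Z S M))
    (hcard : Nat.card ↥(sha2Z S M) = Nat.card ↥(sha1Z S (M.dualTwist (cycloChar p)))) :
    ∃ B : sha₁ S (M.dualTwist (cycloChar p)) →ₗ[ZMod p] sha₂ S M →ₗ[ZMod p] ZMod p,
      (∀ y, (∀ x, B y x = 0) → y = 0) ∧ (∀ x, (∀ y, B y x = 0) → x = 0) := by
  have hp : p.Prime := Fact.out
  let e1 := sha1ZEquiv S (M.dualTwist (cycloChar p))
  let e2 := sha2ZEquiv S M
  haveI : Finite ↥(sha1lc S (M.dualTwist (cycloChar p))) := Finite.of_equiv _ e1.symm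
  haveI : Finite ↥(sha2lc S M) := Finite.of_equiv _ e2.symm
  have hc1 : Nat.card ↥(sha1lc S (M.dualTwist (cycloChar p)))
      = Nat.card ↥(sha1Z S (M.dualTwist (cycloChar p))) := Nat.card_congr e1
  have hc2 : Nat.card ↥(sha2lc S M) = Nat.card ↥(sha2Z S M) := Nat.card_congr e2
  refine S55_of_lc hp2 S M hsm hMur Module.Finite.of_finite Module.Finite.of_finite ?_
  have h1 := natCard_eq_pow_finrank_zmod (p := p) ↥(sha1lc S (M.dualTwist (cycloChar p)))
  have h2 := natCard_eq_pow_finrank_zmod (p := p) ↥(sha2lc S M)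
  have h3 : p ^ finrank (ZMod p) ↥(sha1lc S (M.dualTwist (cycloChar p)))
      = p ^ finrank (ZMod p) ↥(sha2lc S M) := by
    rw [← h1, ← h2, hc1, hc2, hcard]
  exact Nat.pow_right_injective hp.two_le h3

end H15D

end
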