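/-
W2-C (S55) block D2 (helper15): corollaries of the finite-level comparison.

* `lcH1_eq_zero_of_cofinal`, `lcH2_eq_zero_of_cofinal` : vanishing at cofinally many finite levels
  implies vanishing of `lcH1`, `lcH2`;
* `exists_infl₁_eq₂`, `exists_infl₂_eq₂` : two classes come from a common finite level;
* `exists_infl₂_eq_of_smul`, `exists_infl₁_eq_of_smul` : a class killed by `a` comes from classes
  killed by `a` at all small finite levels;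
* `infl₂_eq_zero_iff` : `infl₂ L y = 0 ↔` `y` dies at some smaller finite level.
-/
import Mathlib
import Fermat.Agent.CFT2.D.Infl_helper15

set_option autoImplicit false
set_option linter.style.haveILetI false
set_option linter.unusedSectionVars false

noncomputable section

namespace H15D

open groupCohomology H15F CategoryTheory

variable {k : Type} [CommRing k] {G : Type} [Group G] (𝓤 : Levels G) (A : Rep.{0} k G)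

theorem lcH1_eq_zero_of_cofinal
    (h : ∀ L0 : 𝓤.Lv, ∃ L : 𝓤.Lv, L.U ≤ L0.U ∧ ∀ y : H1 (finLv 𝓤 A L), y = 0)
    (x : lcH1 𝓤 A) : x = 0 := by
  obtain ⟨L0, hL0⟩ := exists_infl₁_eq 𝓤 A x
  obtain ⟨L, hL, hy⟩ := h L0
  obtain ⟨y, rfl⟩ := hL0 L hL
  rw [hy y, map_zero]

theorem lcH2_eq_zero_of_cofinal
    (h : ∀ L0 : 𝓤.Lv, ∃ L : 𝓤.Lv, L.U ≤ L0.U ∧ ∀ y : H2 (finLv 𝓤 A L), y = 0)
    (x : lcH2 𝓤 A) : x = 0 := by
  obtain ⟨L0, hL0⟩ := exists_infl₂_eq 𝓤 A x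
  obtain ⟨L, hL, hy⟩ := h L0
  obtain ⟨y, rfl⟩ := hL0 L hL
  rw [hy y, map_zero]

/-- two classes of `lcH1` come from all small common finite levels -/
theorem exists_infl₁_eq₂ (x x' : lcH1 𝓤 A) :
    ∃ L0 : 𝓤.Lv, ∀ L : 𝓤.Lv, L.U ≤ L0.U →
      ∃ y y' : H1 (finLv 𝓤 A L), infl₁ 𝓤 A L y = x ∧ infl₁ 𝓤 A L y' = x' := by
  obtain ⟨L1, h1⟩ := exists_infl₁_eq 𝓤 A x
  obtain ⟨L2, h2⟩ := exists_infl₁_eq 𝓤 A x'
  obtain ⟨L0, h01, h02⟩ := 𝓤.exists_lv_le L1 L2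
  refine ⟨L0, fun L hL => ?_⟩
  obtain ⟨y, hy⟩ := h1 L (hL.trans h01)
  obtain ⟨y', hy'⟩ := h2 L (hL.trans h02)
  exact ⟨y, y', hy, hy'⟩

/-- two classes of `lcH2` come from all small common finite levels -/
theorem exists_infl₂_eq₂ (x x' : lcH2 𝓤 A) :
    ∃ L0 : 𝓤.Lv, ∀ L : 𝓤.Lv, L.U ≤ L0.U →
      ∃ y y' : H2 (finLv 𝓤 A L), infl₂ 𝓤 A L y = x ∧ infl₂ 𝓤 A L y' = x' := by
  obtain ⟨L1, h1⟩ := exists_infl₂_eq 𝓤 A x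
  obtain ⟨L2, h2⟩ := exists_infl₂_eq 𝓤 A x'
  obtain ⟨L0, h01, h02⟩ := 𝓤.exists_lv_le L1 L2
  refine ⟨L0, fun L hL => ?_⟩
  obtain ⟨y, hy⟩ := h1 L (hL.trans h01)
  obtain ⟨y', hy'⟩ := h2 L (hL.trans h02)
  exact ⟨y, y', hy, hy'⟩

theorem infl₂_eq_zero_iff (L : 𝓤.Lv) (y : H2 (finLv 𝓤 A L)) :
    infl₂ 𝓤 A L y = 0 ↔ ∃ (L' : 𝓤.Lv) (h : L'.U ≤ L.U), trans₂ 𝓤 A L L' h y = 0 := by
  constructor
  · intro hy
    obtain ⟨L0, hL0, h0⟩ := exists_trans₂_eq_zero 𝓤 A L y hy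
    exact ⟨L0, hL0, h0 L0 hL0 le_rfl⟩
  · rintro ⟨L', h, hy⟩
    rw [← infl₂_trans₂ 𝓤 A L L' h, hy, map_zero]

/-- a relation `infl₂ L y = infl₂ L y'` holds at all small finite levels -/
theorem exists_trans₂_eq (L : 𝓤.Lv) (y y' : H2 (finLv 𝓤 A L))
    (hy : infl₂ 𝓤 A L y = infl₂ 𝓤 A L y') :
    ∃ L0 : 𝓤.Lv, L0.U ≤ L.U ∧ ∀ (L' : 𝓤.Lv) (h : L'.U ≤ L.U), L'.U ≤ L0.U →
      trans₂ 𝓤 A L L' h y = trans₂ 𝓤 A L L' h y' := by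
  have h0 : infl₂ 𝓤 A L (y - y') = 0 := by rw [map_sub, hy, sub_self]
  obtain ⟨L0, hL0, h⟩ := exists_trans₂_eq_zero 𝓤 A L (y - y') h0
  refine ⟨L0, hL0, fun L' hL' hL'0 => ?_⟩
  have := h L' hL' hL'0
  rw [map_sub] at this
  exact sub_eq_zero.1 this

/-- a class of `lcH2` killed by `a` comes from classes killed by `a` at all small levels -/
theorem exists_infl₂_eq_of_smul (a : k) (x : lcH2 𝓤 A) (hx : a • x = 0) :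
    ∃ L0 : 𝓤.Lv, ∀ L : 𝓤.Lv, L.U ≤ L0.U →
      ∃ y : H2 (finLv 𝓤 A L), infl₂ 𝓤 A L y = x ∧ a • y = 0 := by
  obtain ⟨L1, h1⟩ := exists_infl₂_eq 𝓤 A x
  obtain ⟨y1, hy1⟩ := h1 L1 le_rfl
  have h2 : infl₂ 𝓤 A L1 (a • y1) = 0 := by rw [map_smul, hy1, hx]
  obtain ⟨L0, hL0, h0⟩ := exists_trans₂_eq_zero 𝓤 A L1 (a • y1) h2
  refine ⟨L0, fun L hL => ⟨trans₂ 𝓤 A L1 L (hL.trans hL0) y1, ?_, ?_⟩⟩
  · rw [infl₂_trans₂, hy1]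
  · rw [← map_smul]
    exact h0 L (hL.trans hL0) hL

/-- a class of `lcH1` killed by `a` comes from classes killed by `a` at all small levels -/
theorem exists_infl₁_eq_of_smul (a : k) (x : lcH1 𝓤 A) (hx : a • x = 0) :
    ∃ L0 : 𝓤.Lv, ∀ L : 𝓤.Lv, L.U ≤ L0.U →
      ∃ y : H1 (finLv 𝓤 A L), infl₁ 𝓤 A L y = x ∧ a • y = 0 := by
  obtain ⟨L0, h0⟩ := exists_infl₁_eq 𝓤 A x
  refine ⟨L0, fun L hL => ?_⟩
  obtain ⟨y, hy⟩ := h0 L hL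
  refine ⟨y, hy, infl₁_injective 𝓤 A L ?_⟩
  rw [map_smul, hy, hx, map_zero]

/-- `ℕ`-multiples (for `k = ℤ` and the statements of block E) -/
theorem exists_infl₂_eq_of_nsmul (n : ℕ) (x : lcH2 𝓤 A) (hx : n • x = 0) :
    ∃ L0 : 𝓤.Lv, ∀ L : 𝓤.Lv, L.U ≤ L0.U →
      ∃ y : H2 (finLv 𝓤 A L), infl₂ 𝓤 A L y = x ∧ n • y = 0 := by
  have hx' : (n : k) • x = 0 := by rw [Nat.cast_smul_eq_nsmul]; exact hx
  obtain ⟨L0, h0⟩ := exists_infl₂_eq_of_smul 𝓤 A (n : k) x hx'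
  refine ⟨L0, fun L hL => ?_⟩
  obtain ⟨y, hy, hay⟩ := h0 L hL
  refine ⟨y, hy, ?_⟩
  rw [← Nat.cast_smul_eq_nsmul k]
  exact hay

theorem exists_infl₁_eq_of_nsmul (n : ℕ) (x : lcH1 𝓤 A) (hx : n • x = 0) :
    ∃ L0 : 𝓤.Lv, ∀ L : 𝓤.Lv, L.U ≤ L0.U →
      ∃ y : H1 (finLv 𝓤 A L), infl₁ 𝓤 A L y = x ∧ n • y = 0 := by
  have hx' : (n : k) • x = 0 := by rw [Nat.cast_smul_eq_nsmul]; exact hx
  obtain ⟨L0, h0⟩ := exists_infl₁_eq_of_smul 𝓤 A (n : k) x hx'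
  refine ⟨L0, fun L hL => ?_⟩
  obtain ⟨y, hy, hay⟩ := h0 L hL
  refine ⟨y, hy, ?_⟩
  rw [← Nat.cast_smul_eq_nsmul k]
  exact hay

end H15D

end
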