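/-
W2-C (S55) block D2 (helper15): comparison of the finite-level maps with Mathlib's
`groupCohomology.map`, and naturality of inflation (T1d).

* `PP.toHom P : Rep.res P.r A ⟶ B`; `botH1_PP`, `botH2_PP` : for finite groups the maps `P.H1`, `P.H2`
  are `groupCohomology.map P.r P.toHom 1/2` under `botH1`, `botH2`;
* `trans₁_eq_map`, `trans₂_eq_map`;
* `finPP P L L' h` : the finite-level datum of a pull-push datum; `infl₁_finPP`, `infl₂_finPP` :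
  `P.H_i (infl_L y) = infl_{L'} (map y)`.
-/
import Mathlib
import Fermat.Agent.CFT2.D.Infl_helper15

set_option autoImplicit false
set_option linter.style.haveILetI false
set_option linter.unusedSectionVars false

noncomputable section

namespace H15D

open groupCohomology H15F CategoryTheory

variable {k : Type} [CommRing k] {G H : Type} [Group G] [Group H]

/-- the morphism of representations underlying a pull-push datum -/
def PP.toHom {𝓤 : Levels G} {𝓥 : Levels H} {A : Rep.{0} k G} {B : Rep.{0} k H}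
    (P : PP 𝓤 𝓥 A B) : Rep.res P.r A ⟶ B :=
  Rep.ofHom ⟨P.φ, fun h => by ext a; exact P.compat h a⟩

theorem PP.toHom_apply {𝓤 : Levels G} {𝓥 : Levels H} {A : Rep.{0} k G} {B : Rep.{0} k H}
    (P : PP 𝓤 𝓥 A B) (a : A) : P.toHom.hom a = P.φ a := rfl

section finite

variable {Γ Γ' : Type} [Group Γ] [Finite Γ] [Group Γ'] [Finite Γ']
  {A : Rep.{0} k Γ} {B : Rep.{0} k Γ'}

theorem botH1_PP (P : PP (Levels.bot Γ) (Levels.bot Γ') A B) (x : lcH1 (Levels.bot Γ) A) :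
    botH1 B (P.H1 x) = (groupCohomology.map P.r P.toHom 1).hom (botH1 A x) := by
  obtain ⟨c, rfl⟩ := lcH1π_surjective x
  rw [PP.H1_π, botH1_π, botH1_π]
  have := H1π_comp_map_apply P.r P.toHom (toCoc₁ c)
  erw [this]
  rfl

theorem botH2_PP (P : PP (Levels.bot Γ) (Levels.bot Γ') A B) (x : lcH2 (Levels.bot Γ) A) :
    botH2 B (P.H2 x) = (groupCohomology.map P.r P.toHom 2).hom (botH2 A x) := by
  obtain ⟨c, rfl⟩ := lcH2π_surjective x
  rw [PP.H2_π, botH2_π, botH2_π]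
  have := H2π_comp_map_apply P.r P.toHom (toCoc₂ c)
  erw [this]
  rfl

end finite

/-! ### inflation between finite levels is `groupCohomology.map` -/

section trans

variable (𝓤 : Levels G) (A : Rep.{0} k G)

theorem trans₁_eq_map (L L' : 𝓤.Lv) (h : L'.U ≤ L.U) (y : H1 (finLv 𝓤 A L)) :
    trans₁ 𝓤 A L L' h y
      = (groupCohomology.map (QuotientGroup.map L'.U L.U (MonoidHom.id G) h)
          (transPP 𝓤 A L L' h).toHom 1).hom y := by
  show botH1 _ ((transPP 𝓤 A L L' h).H1 ((botH1 _).symm y)) = _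
  rw [botH1_PP, LinearEquiv.apply_symm_apply]
  rfl

theorem trans₂_eq_map (L L' : 𝓤.Lv) (h : L'.U ≤ L.U) (y : H2 (finLv 𝓤 A L)) :
    trans₂ 𝓤 A L L' h y
      = (groupCohomology.map (QuotientGroup.map L'.U L.U (MonoidHom.id G) h)
          (transPP 𝓤 A L L' h).toHom 2).hom y := by
  show botH2 _ ((transPP 𝓤 A L L' h).H2 ((botH2 _).symm y)) = _
  rw [botH2_PP, LinearEquiv.apply_symm_apply]
  rfl

/-- flexible form: any model `(r', f)` of the inflation between two finite levels -/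
theorem trans₁_eq_map' (L L' : 𝓤.Lv) (h : L'.U ≤ L.U)
    (r' : G ⧸ L'.U →* G ⧸ L.U) (hr' : ∀ g : G, r' (g : G ⧸ L'.U) = (g : G ⧸ L.U))
    (f : Rep.res r' (finLv 𝓤 A L) ⟶ finLv 𝓤 A L')
    (hf : ∀ a : finLv 𝓤 A L, ((f.hom a : finLv 𝓤 A L') : A) = (a : A))
    (y : H1 (finLv 𝓤 A L)) :
    trans₁ 𝓤 A L L' h y = (groupCohomology.map r' f 1).hom y := by
  induction y using H1_induction_on with | @h c =>
  rw [trans₁_π]
  have := H1π_comp_map_apply r' f c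
  erw [this]
  congr 1
  apply Subtype.ext
  funext γ
  obtain ⟨g, rfl⟩ := QuotientGroup.mk_surjective γ
  apply Subtype.ext
  refine (transZ1_apply 𝓤 A L L' h c g).trans ?_
  show _ = ((f.hom (c (r' (g : G ⧸ L'.U))) : finLv 𝓤 A L') : A)
  rw [hf, hr']

theorem trans₂_eq_map' (L L' : 𝓤.Lv) (h : L'.U ≤ L.U)
    (r' : G ⧸ L'.U →* G ⧸ L.U) (hr' : ∀ g : G, r' (g : G ⧸ L'.U) = (g : G ⧸ L.U))
    (f : Rep.res r' (finLv 𝓤 A L) ⟶ finLv 𝓤 A L')
    (hf : ∀ a : finLv 𝓤 A L, ((f.hom a : finLv 𝓤 A L') : A) = (a : A))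
    (y : H2 (finLv 𝓤 A L)) :
    trans₂ 𝓤 A L L' h y = (groupCohomology.map r' f 2).hom y := by
  induction y using H2_induction_on with | @h c =>
  rw [trans₂_π]
  have := H2π_comp_map_apply r' f c
  erw [this]
  congr 1
  apply Subtype.ext
  funext ⟨γ, γ'⟩
  obtain ⟨g, rfl⟩ := QuotientGroup.mk_surjective γ
  obtain ⟨g', rfl⟩ := QuotientGroup.mk_surjective γ'
  apply Subtype.ext
  refine (transZ2_apply 𝓤 A L L' h c g g').trans ?_
  show _ = ((f.hom (c (r' (g : G ⧸ L'.U), r' (g' : G ⧸ L'.U))) : finLv 𝓤 A L') : A)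
  rw [hf, hr', hr']

end trans

/-! ### T1d: naturality of inflation -/

section natural

variable {𝓤 : Levels G} {𝓥 : Levels H} {A : Rep.{0} k G} {B : Rep.{0} k H}

/-- naturality of inflation in degree 1: for a pull-push datum `P` and any model `(r', f)` of
`P` at the finite levels `L`, `L'` -/
theorem infl₁_map (P : PP 𝓤 𝓥 A B) (L : 𝓤.Lv) (L' : 𝓥.Lv)
    (r' : H ⧸ L'.U →* G ⧸ L.U) (hr' : ∀ h : H, r' (h : H ⧸ L'.U) = (P.r h : G ⧸ L.U))
    (f : Rep.res r' (finLv 𝓤 A L) ⟶ finLv 𝓥 B L')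
    (hf : ∀ a : finLv 𝓤 A L, ((f.hom a : finLv 𝓥 B L') : B) = P.φ (a : A))
    (y : H1 (finLv 𝓤 A L)) :
    P.H1 (infl₁ 𝓤 A L y) = infl₁ 𝓥 B L' ((groupCohomology.map r' f 1).hom y) := by
  induction y using H1_induction_on with | @h c =>
  have := H1π_comp_map_apply r' f c
  erw [this]
  rw [infl₁_π, infl₁_π, PP.H1_π]
  congr 1
  apply Subtype.ext
  funext g
  rw [inflZ1_apply]
  show P.φ ((c ((P.r g : G) : G ⧸ L.U) : finLv 𝓤 A L) : A)
    = ((f.hom (c (r' (g : H ⧸ L'.U))) : finLv 𝓥 B L') : B)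
  rw [hf, hr']

/-- naturality of inflation in degree 2 -/
theorem infl₂_map (P : PP 𝓤 𝓥 A B) (L : 𝓤.Lv) (L' : 𝓥.Lv)
    (r' : H ⧸ L'.U →* G ⧸ L.U) (hr' : ∀ h : H, r' (h : H ⧸ L'.U) = (P.r h : G ⧸ L.U))
    (f : Rep.res r' (finLv 𝓤 A L) ⟶ finLv 𝓥 B L')
    (hf : ∀ a : finLv 𝓤 A L, ((f.hom a : finLv 𝓥 B L') : B) = P.φ (a : A))
    (y : H2 (finLv 𝓤 A L)) :
    P.H2 (infl₂ 𝓤 A L y) = infl₂ 𝓥 B L' ((groupCohomology.map r' f 2).hom y) := by
  induction y using H2_induction_on with | @h c =>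
  have := H2π_comp_map_apply r' f c
  erw [this]
  rw [infl₂_π, infl₂_π, PP.H2_π]
  congr 1
  apply Subtype.ext
  funext ⟨g, g'⟩
  rw [inflZ2_apply]
  show P.φ ((c (((P.r g : G) : G ⧸ L.U), ((P.r g' : G) : G ⧸ L.U)) : finLv 𝓤 A L) : A)
    = ((f.hom (c (r' (g : H ⧸ L'.U), r' (g' : H ⧸ L'.U))) : finLv 𝓥 B L') : B)
  rw [hf, hr', hr']

/-- the canonical finite-level model of a pull-push datum -/
def finPP (P : PP 𝓤 𝓥 A B) (L : 𝓤.Lv) (L' : 𝓥.Lv) (h : L'.U ≤ L.U.comap P.r) :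
    PP (Levels.bot (G ⧸ L.U)) (Levels.bot (H ⧸ L'.U)) (finLv 𝓤 A L) (finLv 𝓥 B L') where
  r := QuotientGroup.map L'.U L.U P.r h
  φ := (P.φ ∘ₗ (Representation.invariants (A.ρ.comp L.U.subtype)).subtype).codRestrict _
    (fun a s => by
      show B.ρ s (P.φ a) = P.φ a
      rw [← P.compat]
      exact congrArg P.φ (a.2 ⟨P.r s, h s.2⟩))
  compat γ a := by
    obtain ⟨g, rfl⟩ := QuotientGroup.mk_surjective γ
    apply Subtype.ext
    exact P.compat g a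
  levels V hV := ⟨⊥, rfl, bot_le⟩

theorem finPP_r_mk (P : PP 𝓤 𝓥 A B) (L : 𝓤.Lv) (L' : 𝓥.Lv) (h : L'.U ≤ L.U.comap P.r)
    (x : H) : (finPP P L L' h).r (x : H ⧸ L'.U) = (P.r x : G ⧸ L.U) := rfl

theorem finPP_φ_coe (P : PP 𝓤 𝓥 A B) (L : 𝓤.Lv) (L' : 𝓥.Lv) (h : L'.U ≤ L.U.comap P.r)
    (a : finLv 𝓤 A L) : (((finPP P L L' h).φ a : finLv 𝓥 B L') : B) = P.φ (a : A) := rfl

theorem infl₁_finPP (P : PP 𝓤 𝓥 A B) (L : 𝓤.Lv) (L' : 𝓥.Lv) (h : L'.U ≤ L.U.comap P.r)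
    (y : H1 (finLv 𝓤 A L)) :
    P.H1 (infl₁ 𝓤 A L y)
      = infl₁ 𝓥 B L' ((groupCohomology.map (finPP P L L' h).r (finPP P L L' h).toHom 1).hom y) :=
  infl₁_map P L L' _ (finPP_r_mk P L L' h) _ (finPP_φ_coe P L L' h) y

theorem infl₂_finPP (P : PP 𝓤 𝓥 A B) (L : 𝓤.Lv) (L' : 𝓥.Lv) (h : L'.U ≤ L.U.comap P.r)
    (y : H2 (finLv 𝓤 A L)) :
    P.H2 (infl₂ 𝓤 A L y)
      = infl₂ 𝓥 B L' ((groupCohomology.map (finPP P L L' h).r (finPP P L L' h).toHom 2).hom y) :=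
  infl₂_map P L L' _ (finPP_r_mk P L L' h) _ (finPP_φ_coe P L L' h) y

end natural

/-! ### change of coefficients (block A's format `functor.map`) -/

section coeff

variable (𝓤 : Levels G) {A B : Rep.{0} k G}

theorem infl₁_ofLinear (φ : A →ₗ[k] B) (hφ : ∀ g a, φ (A.ρ g a) = B.ρ g (φ a)) (L : 𝓤.Lv)
    (f : finLv 𝓤 A L ⟶ finLv 𝓤 B L)
    (hf : ∀ a : finLv 𝓤 A L, ((f.hom a : finLv 𝓤 B L) : B) = φ (a : A))
    (y : H1 (finLv 𝓤 A L)) :
    (PP.ofLinear 𝓤 φ hφ).H1 (infl₁ 𝓤 A L y)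
      = infl₁ 𝓤 B L (((groupCohomology.functor k (G ⧸ L.U) 1).map f).hom y) :=
  infl₁_map (PP.ofLinear 𝓤 φ hφ) L L (MonoidHom.id _) (fun _ => rfl) f hf y

theorem infl₂_ofLinear (φ : A →ₗ[k] B) (hφ : ∀ g a, φ (A.ρ g a) = B.ρ g (φ a)) (L : 𝓤.Lv)
    (f : finLv 𝓤 A L ⟶ finLv 𝓤 B L)
    (hf : ∀ a : finLv 𝓤 A L, ((f.hom a : finLv 𝓤 B L) : B) = φ (a : A))
    (y : H2 (finLv 𝓤 A L)) :
    (PP.ofLinear 𝓤 φ hφ).H2 (infl₂ 𝓤 A L y)
      = infl₂ 𝓤 B L (((groupCohomology.functor k (G ⧸ L.U) 2).map f).hom y) :=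
  infl₂_map (PP.ofLinear 𝓤 φ hφ) L L (MonoidHom.id _) (fun _ => rfl) f hf y

end coeff

end H15D

end
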