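/-
W2-C (S55) block D2 (helper15): `cor ∘ res = index` on `H¹`, in cocycle form.

`cores_h1` : `Q ≤ U` subgroups of `G` with `[U : Q] = m` finite, `f : G → A` a cocycle on `U` whose
restriction to `Q` is the coboundary of `b`.  Then `m • f` is a coboundary on `U`:
`∃ a, ∀ u ∈ U, m • f u = u a - a`  (`a = m b - ∑_{U/Q} (f - d b)`), and `a` is invariant under every
normal subgroup `V` fixing `b` and the values of `f`.
-/
import Mathlib
import Fermat.Agent.CFT2.D.Basic_helper15

set_option autoImplicit false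
set_option linter.style.haveILetI false
set_option linter.unusedSectionVars false

noncomputable section

namespace H15D

open groupCohomology H15F

variable {k : Type} [CommRing k] {G : Type} [Group G] {A : Rep.{0} k G}

theorem cores_h1 (U Q : Subgroup G) (hQU : Q ≤ U) [hfin : (Q.subgroupOf U).FiniteIndex]
    (V : Subgroup G) [hV : V.Normal]
    (f : G → A) (hc : ∀ u u', u ∈ U → u' ∈ U → f (u * u') = A.ρ u (f u') + f u)
    (hfV : ∀ g v, v ∈ V → A.ρ v (f g) = f g)
    (b : A) (hb : ∀ q ∈ Q, f q = A.ρ q b - b) (hbV : ∀ v ∈ V, A.ρ v b = b) :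
    ∃ a : A, (∀ v ∈ V, A.ρ v a = a) ∧
      ∀ u ∈ U, (Q.relIndex U) • f u = A.ρ u a - a := by
  classical
  haveI : Finite (↥U ⧸ Q.subgroupOf U) := Subgroup.finite_quotient_of_finiteIndex
  letI : Fintype (↥U ⧸ Q.subgroupOf U) := Fintype.ofFinite _
  -- the normalised cocycle
  have hf'def : ∃ f' : G → A, ∀ g, f' g = f g - (A.ρ g b - b) :=
    ⟨fun g => f g - (A.ρ g b - b), fun _ => rfl⟩
  obtain ⟨f', hf'⟩ := hf'def
  have hc' : ∀ u u', u ∈ U → u' ∈ U → f' (u * u') = A.ρ u (f' u') + f' u := by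
    intro u u' hu hu'
    rw [hf', hf', hf', hc u u' hu hu', map_sub, map_sub, map_mul, Module.End.mul_apply]
    abel
  have hq' : ∀ q ∈ Q, f' q = 0 := by
    intro q hq
    rw [hf', hb q hq, sub_self]
  have hr' : ∀ u q, u ∈ U → q ∈ Q → f' (u * q) = f' u := by
    intro u q hu hq
    rw [hc' u q hu (hQU hq), hq' q hq, map_zero, zero_add]
  have hf'V : ∀ g v, v ∈ V → A.ρ v (f' g) = f' g := by
    intro g v hv
    rw [hf', map_sub, map_sub, hfV g v hv, hbV v hv]
    congr 2
    have h1 : g⁻¹ * v * g ∈ V := by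
      have := hV.conj_mem v hv g⁻¹
      rwa [inv_inv] at this
    have h2 := hbV _ h1
    have h3 : A.ρ v (A.ρ g b) = A.ρ g (A.ρ (g⁻¹ * v * g) b) := by
      rw [← Module.End.mul_apply, ← Module.End.mul_apply, ← map_mul, ← map_mul]
      congr 2
      group
    rw [h3, h2]
  -- the function on cosets
  let φ : ↥U ⧸ Q.subgroupOf U → A := Quotient.lift (fun u : ↥U => f' (u : G)) (by
    intro x y hxy
    have h1 : x⁻¹ * y ∈ Q.subgroupOf U := QuotientGroup.leftRel_apply.1 hxy
    rw [Subgroup.mem_subgroupOf] at h1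
    have h2 := hr' (x : G) ((x⁻¹ * y : ↥U) : G) x.2 h1
    show f' (x : G) = f' (y : G)
    rw [← h2]
    congr 1
    show (x : G) * ((x : G)⁻¹ * (y : G)) = (y : G)
    group)
  have hφ : ∀ u : ↥U, φ (u : ↥U ⧸ Q.subgroupOf U) = f' (u : G) := fun _ => rfl
  have hφV : ∀ γ, ∀ v ∈ V, A.ρ v (φ γ) = φ γ := by
    intro γ v hv
    obtain ⟨u, rfl⟩ := QuotientGroup.mk_surjective γ
    rw [hφ]
    exact hf'V _ v hv
  have hcard : Fintype.card (↥U ⧸ Q.subgroupOf U) = Q.relIndex U := by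
    rw [Subgroup.relIndex, Subgroup.index, Nat.card_eq_fintype_card]
  have key : ∀ g : ↥U, (Q.relIndex U) • f' (g : G)
      = A.ρ (g : G) (-(∑ γ, φ γ)) - (-(∑ γ, φ γ)) := by
    intro g
    have h1 : ∑ γ, φ (g • γ) = ∑ γ, φ γ :=
      Equiv.sum_comp (MulAction.toPerm g) φ
    have h2 : ∀ γ, φ (g • γ) = A.ρ (g : G) (φ γ) + f' (g : G) := by
      intro γ
      obtain ⟨u, rfl⟩ := QuotientGroup.mk_surjective γ
      show φ ((g * u : ↥U) : ↥U ⧸ Q.subgroupOf U) = _
      rw [hφ, hφ]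
      exact hc' g u g.2 u.2
    rw [Finset.sum_congr rfl (fun γ _ => h2 γ), Finset.sum_add_distrib, Finset.sum_const,
      Finset.card_univ, hcard, ← map_sum] at h1
    have h3 := eq_sub_of_add_eq' h1
    rw [map_neg, h3]
    abel
  refine ⟨(Q.relIndex U) • b - ∑ γ, φ γ, fun v hv => ?_, fun u hu => ?_⟩
  · rw [map_sub, map_nsmul, hbV v hv, map_sum]
    congr 1
    exact Finset.sum_congr rfl (fun γ _ => hφV γ v hv)
  · have h1 := key ⟨u, hu⟩
    have h2 : f u = f' u + (A.ρ u b - b) := by rw [hf']; abel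
    rw [h2, nsmul_add, h1, map_sub, map_neg, map_nsmul, nsmul_sub]
    abel

end H15D

end
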