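/-
W2-C (S55) block D2 (helper15): the kernel of inflation between two finite levels (INF-INJ).

`trans₂_ker_smul` : for levels `L' ≤ L`, if `m` kills `H¹(L.U / L'.U, A^{L'.U})` (in cocycle form)
then `m` kills the kernel of `trans₂ : H²(G ⧸ L.U, A^{L.U}) → H²(G ⧸ L'.U, A^{L'.U})`.
(exactness of the 5-term sequence at `H²(G/N, A^N)`, elementary cocycle computation.)
`infl₂_ker_smul` : the same for the kernel of `infl₂ L`, if this holds for all small levels.
-/
import Mathlib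
import Fermat.Agent.CFT2.D.InflCor_helper15

set_option autoImplicit false
set_option linter.style.haveILetI false
set_option linter.unusedSectionVars false

noncomputable section

namespace H15D

open groupCohomology H15F CategoryTheory

variable {k : Type} [CommRing k] {G : Type} [Group G] (𝓤 : Levels G) (A : Rep.{0} k G)

/-- `m` kills the classes of the 1-cocycles of `L.U` with values in `A^{L'.U}`, right-invariant
under `L'.U` -/
def KillsH1 (L L' : 𝓤.Lv) (m : k) : Prop :=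
  ∀ f : G → A, IsRConst₁ L'.U f → (∀ g s, s ∈ L'.U → A.ρ s (f g) = f g) →
    (∀ u u', u ∈ L.U → u' ∈ L.U → f (u * u') = A.ρ u (f u') + f u) →
    ∃ a : A, (∀ s ∈ L'.U, A.ρ s a = a) ∧ ∀ u ∈ L.U, m • f u = A.ρ u a - a

variable {𝓤 A}

theorem mk_eq_one_of_mem {U : Subgroup G} [U.Normal] {u : G} (hu : u ∈ U) :
    ((u : G) : G ⧸ U) = 1 := (QuotientGroup.eq_one_iff u).2 hu

theorem mk_mul_of_mem {U : Subgroup G} [U.Normal] (g : G) {u : G} (hu : u ∈ U) :
    ((g * u : G) : G ⧸ U) = (g : G ⧸ U) := by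
  rw [QuotientGroup.mk_mul, mk_eq_one_of_mem hu, mul_one]

theorem mul_mk_of_mem {U : Subgroup G} [U.Normal] (g : G) {u : G} (hu : u ∈ U) :
    ((u * g : G) : G ⧸ U) = (g : G ⧸ U) := by
  rw [QuotientGroup.mk_mul, mk_eq_one_of_mem hu, one_mul]

theorem trans₂_ker_smul (L L' : 𝓤.Lv) (h : L'.U ≤ L.U) (m : k) (hm : KillsH1 𝓤 A L L' m)
    (y : H2 (finLv 𝓤 A L)) (hy : trans₂ 𝓤 A L L' h y = 0) : m • y = 0 := by
  induction y using H2_induction_on with | @h c =>
  rw [trans₂_π, H2π_eq_zero_iff] at hy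
  obtain ⟨fb, hfb⟩ := hy
  -- the cochains as functions on `G`
  have hFdef : ∃ F : G → A, ∀ g, F g = ((fb (g : G ⧸ L'.U) : finLv 𝓤 A L') : A) :=
    ⟨fun g => ((fb (g : G ⧸ L'.U) : finLv 𝓤 A L') : A), fun _ => rfl⟩
  obtain ⟨F, hF⟩ := hFdef
  have hCdef : ∃ C : G × G → A, ∀ g g',
      C (g, g') = ((c ((g : G ⧸ L.U), (g' : G ⧸ L.U)) : finLv 𝓤 A L) : A) :=
    ⟨fun x => ((c ((x.1 : G ⧸ L.U), (x.2 : G ⧸ L.U)) : finLv 𝓤 A L) : A), fun _ _ => rfl⟩
  obtain ⟨C, hC⟩ := hCdef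
  have hdF : ∀ g g', A.ρ g (F g') - F (g * g') + F g = C (g, g') := by
    intro g g'
    have h1 := congrFun hfb ((g : G ⧸ L'.U), (g' : G ⧸ L'.U))
    have h2 := congrArg (fun z : finLv 𝓤 A L' => (z : A)) h1
    rw [hF, hF, hF, hC]
    exact h2
  have hFinv : IsRConst₁ L'.U F := by
    intro g s hs
    rw [hF, hF, mk_mul_of_mem g hs]
  have hFfix : ∀ g s, s ∈ L'.U → A.ρ s (F g) = F g := by
    intro g s hs
    rw [hF]
    exact (fb (g : G ⧸ L'.U)).2 ⟨s, hs⟩
  -- the constant `c₀`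
  have hC1 : ∀ g', C (1, g') = C (1, 1) := by
    intro g'
    rw [hC, hC, QuotientGroup.mk_one]
    exact congrArg (fun z : finLv 𝓤 A L => (z : A)) (cocycles₂_map_one_fst c _)
  have hCg1 : ∀ g, C (g, 1) = A.ρ g (C (1, 1)) := by
    intro g
    rw [hC, hC, QuotientGroup.mk_one]
    exact congrArg (fun z : finLv 𝓤 A L => (z : A)) (cocycles₂_map_one_snd c _)
  have hCu : ∀ u g', u ∈ L.U → C (u, g') = C (1, 1) := by
    intro u g' hu
    rw [← hC1 g', hC, hC, mk_eq_one_of_mem hu, QuotientGroup.mk_one]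
  have hCgu : ∀ g u, u ∈ L.U → C (g, u) = A.ρ g (C (1, 1)) := by
    intro g u hu
    rw [← hCg1 g, hC, hC, mk_eq_one_of_mem hu, QuotientGroup.mk_one]
  have hc0fix : ∀ s, s ∈ L.U → A.ρ s (C (1, 1)) = C (1, 1) := by
    intro s hs
    rw [hC]
    exact (c (((1 : G) : G ⧸ L.U), ((1 : G) : G ⧸ L.U))).2 ⟨s, hs⟩
  -- the cocycle `F' = F - c₀` on `L.U`
  obtain ⟨a, hafix, ha⟩ := hm (fun g => F g - C (1, 1))
    (fun g s hs => by show F (g * s) - C (1, 1) = F g - C (1, 1); rw [hFinv g s hs])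
    (fun g s hs => by
      show A.ρ s (F g - C (1, 1)) = F g - C (1, 1)
      rw [map_sub, hFfix g s hs, hc0fix s (h hs)])
    (fun u u' hu hu' => by
      show F (u * u') - C (1, 1) = A.ρ u (F u' - C (1, 1)) + (F u - C (1, 1))
      have h1 := hdF u u'
      rw [hCu u u' hu] at h1
      rw [map_sub, hc0fix u hu]
      have h2 : F (u * u') = A.ρ u (F u') + F u - C (1, 1) := by
        rw [← h1]; abel
      rw [h2]; abel)
  -- `F₃ = m F - d a`
  have hF3def : ∃ F3 : G → A, ∀ g, F3 g = m • F g - (A.ρ g a - a) :=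
    ⟨fun g => m • F g - (A.ρ g a - a), fun _ => rfl⟩
  obtain ⟨F3, hF3⟩ := hF3def
  have hF3u : ∀ u, u ∈ L.U → F3 u = m • C (1, 1) := by
    intro u hu
    have h1 := ha u hu
    simp only [smul_sub] at h1
    rw [hF3, ← h1]
    abel
  have hdF3 : ∀ g g', A.ρ g (F3 g') - F3 (g * g') + F3 g = m • C (g, g') := by
    intro g g'
    rw [hF3, hF3, hF3, ← hdF g g', map_sub, map_sub, map_smul, map_mul]
    simp only [smul_add, smul_sub, Module.End.mul_apply]
    abel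
  have hF3r : ∀ g u, u ∈ L.U → F3 (g * u) = F3 g := by
    intro g u hu
    have h1 := hdF3 g u
    rw [hCgu g u hu, hF3u u hu, map_smul] at h1
    rw [sub_add_eq_add_sub, sub_eq_iff_eq_add] at h1
    exact (add_left_cancel h1).symm
  have hF3l : ∀ u g, u ∈ L.U → F3 (u * g) = A.ρ u (F3 g) := by
    intro u g hu
    have h1 := hdF3 u g
    rw [hCu u g hu, hF3u u hu] at h1
    have h2 : A.ρ u (F3 g) - F3 (u * g) = 0 := add_right_cancel (h1.trans (zero_add _).symm)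
    exact (sub_eq_zero.1 h2).symm
  have hF3fix : ∀ g s, s ∈ L.U → A.ρ s (F3 g) = F3 g := by
    intro g s hs
    rw [← hF3l s g hs]
    have := hF3r g (g⁻¹ * s * g) (conj_mem_of_normal hs g)
    rwa [show g * (g⁻¹ * s * g) = s * g by group] at this
  have hF3c : IsRConst₁ L.U F3 := fun g s hs => hF3r g s hs
  -- conclusion
  rw [← map_smul, H2π_eq_zero_iff]
  refine ⟨dscFun₁ L F3 hF3fix, ?_⟩
  funext ⟨γ, γ'⟩
  obtain ⟨g, rfl⟩ := QuotientGroup.mk_surjective γ
  obtain ⟨g', rfl⟩ := QuotientGroup.mk_surjective γ'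
  apply Subtype.ext
  rw [d₁₂_apply', ← QuotientGroup.mk_mul, Submodule.coe_add, Submodule.coe_sub, finLv_ρ_mk,
    dscFun₁_mk _ _ _ hF3c, dscFun₁_mk _ _ _ hF3c, dscFun₁_mk _ _ _ hF3c, hdF3, hC]
  rfl

end H15D

end
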