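/-
W2-C (S55) block D2 (helper15): inflation is injective on `p`-primary classes (INF-INJ-p).

If `H¹(H, A^{L'.U}) = 0` for the `p`-subgroups `H` of the finite levels `G ⧸ L'.U` (`L' ≤ L`), then
`trans₂ L L'` and `infl₂ L` are injective on the classes killed by a power of `p`.
-/
import Mathlib
import Fermat.Agent.CFT2.D.InflInj_helper15
import Fermat.Agent.CFT2.D.CorRes_helper15

set_option autoImplicit false
set_option linter.style.haveILetI false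
set_option linter.unusedSectionVars false

noncomputable section

namespace H15D

open groupCohomology H15F CategoryTheory

variable {k : Type} [CommRing k] {G : Type} [Group G] (𝓤 : Levels G) (A : Rep.{0} k G)

/-- `H¹` of the `p`-subgroups of the finite level `L'` vanishes -/
def PVanishH1 (p : ℕ) (L' : 𝓤.Lv) : Prop :=
  ∀ H : Subgroup (G ⧸ L'.U), IsPGroup p H → ∀ z : H1 (Rep.res H.subtype (finLv 𝓤 A L')), z = 0

variable {𝓤 A}

/-- a cocycle on the preimage of a subgroup `Hb` of `G ⧸ L'.U` with `H¹(Hb, A^{L'.U}) = 0` is a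
coboundary -/
theorem exists_cob_of_vanish (L' : 𝓤.Lv) (Hb : Subgroup (G ⧸ L'.U))
    (hz : ∀ z : H1 (Rep.res Hb.subtype (finLv 𝓤 A L')), z = 0)
    (f : G → A) (hfr : IsRConst₁ L'.U f) (hfix : ∀ g s, s ∈ L'.U → A.ρ s (f g) = f g)
    (hc : ∀ u u' : G, ((u : G) : G ⧸ L'.U) ∈ Hb → ((u' : G) : G ⧸ L'.U) ∈ Hb →
      f (u * u') = A.ρ u (f u') + f u) :
    ∃ b : A, (∀ s ∈ L'.U, A.ρ s b = b) ∧
      ∀ u : G, ((u : G) : G ⧸ L'.U) ∈ Hb → f u = A.ρ u b - b := by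
  have hφdef : ∃ φ : ↥Hb → finLv 𝓤 A L', ∀ η : ↥Hb, φ η = dscFun₁ L' f hfix (η : G ⧸ L'.U) :=
    ⟨fun η => dscFun₁ L' f hfix (η : G ⧸ L'.U), fun _ => rfl⟩
  obtain ⟨φ, hφ⟩ := hφdef
  have hφc : φ ∈ cocycles₁ (Rep.res Hb.subtype (finLv 𝓤 A L')) := by
    rw [mem_cocycles₁_iff]
    rintro ⟨η, hη⟩ ⟨η', hη'⟩
    obtain ⟨u, rfl⟩ := QuotientGroup.mk_surjective η
    obtain ⟨u', rfl⟩ := QuotientGroup.mk_surjective η'
    rw [hφ, hφ, hφ]
    apply Subtype.ext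
    show ((dscFun₁ L' f hfix ((u : G ⧸ L'.U) * (u' : G ⧸ L'.U)) : finLv 𝓤 A L') : A)
      = (((finLv 𝓤 A L').ρ (u : G ⧸ L'.U) (dscFun₁ L' f hfix (u' : G ⧸ L'.U))
          + dscFun₁ L' f hfix (u : G ⧸ L'.U) : finLv 𝓤 A L') : A)
    rw [← QuotientGroup.mk_mul, Submodule.coe_add, finLv_ρ_mk, dscFun₁_mk _ _ _ hfr,
      dscFun₁_mk _ _ _ hfr, dscFun₁_mk _ _ _ hfr]
    exact hc u u' hη hη'
  have h0 := hz ((H1π (Rep.res Hb.subtype (finLv 𝓤 A L'))).hom ⟨φ, hφc⟩)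
  rw [H1π_eq_zero_iff, mem_coboundaries₁_iff'] at h0
  obtain ⟨bb, hbb⟩ := h0
  refine ⟨((bb : finLv 𝓤 A L') : A), fun s hs => (bb : finLv 𝓤 A L').2 ⟨s, hs⟩, fun u hu => ?_⟩
  have h1 := congrFun hbb ⟨(u : G ⧸ L'.U), hu⟩
  have h2 := congrArg (fun z : finLv 𝓤 A L' => (z : A)) h1
  have h3 : ((φ ⟨(u : G ⧸ L'.U), hu⟩ : finLv 𝓤 A L') : A) = f u := by
    rw [hφ]
    exact dscFun₁_mk _ _ _ hfr u
  rw [← h3]
  exact h2.symm

/-- a subgroup between `L'.U` and `L.U` of `p`-power index over `L'.U` and index prime to `p` in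
`L.U` -/
theorem exists_sylow_between (p : ℕ) [Fact p.Prime] (L L' : 𝓤.Lv) (h : L'.U ≤ L.U) :
    ∃ Qb : Subgroup (G ⧸ L'.U), IsPGroup p Qb ∧
      (Qb.comap (QuotientGroup.mk' L'.U)) ≤ L.U ∧
      ((Qb.comap (QuotientGroup.mk' L'.U)).subgroupOf L.U).FiniteIndex ∧
      ¬ p ∣ (Qb.comap (QuotientGroup.mk' L'.U)).relIndex L.U := by
  classical
  obtain ⟨P⟩ : Nonempty (Sylow p ↥(L.U.map (QuotientGroup.mk' L'.U))) := inferInstance
  refine ⟨(P : Subgroup ↥(L.U.map (QuotientGroup.mk' L'.U))).map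
    (L.U.map (QuotientGroup.mk' L'.U)).subtype, P.isPGroup'.map _, ?_, ?_⟩
  · intro g hg
    rw [Subgroup.mem_comap] at hg
    obtain ⟨η, -, hη⟩ := hg
    have h1 : (QuotientGroup.mk' L'.U) g ∈ L.U.map (QuotientGroup.mk' L'.U) := by
      rw [← hη]; exact η.2
    obtain ⟨u, hu, hug⟩ := h1
    have h2 : u⁻¹ * g ∈ L'.U := by
      rw [← QuotientGroup.eq]
      exact hug
    have : g = u * (u⁻¹ * g) := by group
    rw [this]
    exact L.U.mul_mem hu (h h2)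
  · have hsurj := MonoidHom.subgroupMap_surjective (QuotientGroup.mk' L'.U) L.U
    have hidx := Subgroup.index_comap_of_surjective
      (P : Subgroup ↥(L.U.map (QuotientGroup.mk' L'.U))) hsurj
    have heq : (P : Subgroup ↥(L.U.map (QuotientGroup.mk' L'.U))).comap
        ((QuotientGroup.mk' L'.U).subgroupMap L.U)
        = (((P : Subgroup ↥(L.U.map (QuotientGroup.mk' L'.U))).map
            (L.U.map (QuotientGroup.mk' L'.U)).subtype).comap
              (QuotientGroup.mk' L'.U)).subgroupOf L.U := by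
      ext u
      rw [Subgroup.mem_comap, Subgroup.mem_subgroupOf, Subgroup.mem_comap]
      constructor
      · intro hu
        exact ⟨_, hu, rfl⟩
      · rintro ⟨η, hη, hηu⟩
        have : η = (QuotientGroup.mk' L'.U).subgroupMap L.U u := Subtype.ext hηu
        rw [← this]
        exact hη
    have hnd : ¬ p ∣ (P : Subgroup ↥(L.U.map (QuotientGroup.mk' L'.U))).index :=
      Sylow.not_dvd_index P
    rw [← hidx, heq] at hnd
    refine ⟨⟨?_⟩, hnd⟩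
    intro h0
    apply hnd
    rw [h0]
    exact dvd_zero p

/-- `H¹(L.U / L'.U, A^{L'.U})` is killed by an integer prime to `p` -/
theorem killsH1_of_pVanish (p : ℕ) [Fact p.Prime] (L L' : 𝓤.Lv) (h : L'.U ≤ L.U)
    (h1 : PVanishH1 𝓤 A p L') :
    ∃ m : ℕ, ¬ p ∣ m ∧ KillsH1 𝓤 A L L' (m : k) := by
  obtain ⟨Qb, hQp, hQL, hQfin, hQnd⟩ := exists_sylow_between p L L' h
  refine ⟨(Qb.comap (QuotientGroup.mk' L'.U)).relIndex L.U, hQnd, ?_⟩
  intro f hfr hfix hc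
  obtain ⟨b, hbfix, hb⟩ := exists_cob_of_vanish L' Qb (h1 Qb hQp) f hfr hfix
    (fun u u' hu hu' => hc u u' (hQL hu) (hQL hu'))
  haveI := hQfin
  obtain ⟨a, hafix, ha⟩ := cores_h1 L.U (Qb.comap (QuotientGroup.mk' L'.U)) hQL L'.U f hc
    (fun g v hv => hfix g v hv) b (fun q hq => hb q hq) hbfix
  refine ⟨a, hafix, fun u hu => ?_⟩
  rw [Nat.cast_smul_eq_nsmul]
  exact ha u hu

theorem eq_zero_of_coprime_nsmul {M : Type*} [AddCommGroup M] {p m j : ℕ} (hp : p.Prime)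
    (hm : ¬ p ∣ m) (x : M) (h1 : m • x = 0) (h2 : (p ^ j) • x = 0) : x = 0 := by
  have hcop : Nat.Coprime (p ^ j) m := Nat.Coprime.pow_left j ((Nat.Prime.coprime_iff_not_dvd hp).2 hm)
  have hb := Nat.gcd_eq_gcd_ab (p ^ j) m
  rw [hcop] at hb
  have h3 : ((1 : ℕ) : ℤ) • x = 0 := by
    rw [hb, add_smul, mul_comm, mul_smul, mul_comm, mul_smul, natCast_zsmul, natCast_zsmul,
      h1, h2, smul_zero, smul_zero, add_zero]
  rwa [Nat.cast_one, one_smul] at h3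

/-- **INF-INJ-p** between two finite levels -/
theorem trans₂_inj_pPart (p : ℕ) [Fact p.Prime] (L L' : 𝓤.Lv) (h : L'.U ≤ L.U)
    (h1 : PVanishH1 𝓤 A p L') (y : H2 (finLv 𝓤 A L)) (hpy : ∃ j : ℕ, (p ^ j) • y = 0)
    (hy : trans₂ 𝓤 A L L' h y = 0) : y = 0 := by
  obtain ⟨m, hm, hK⟩ := killsH1_of_pVanish (k := k) p L L' h h1
  obtain ⟨j, hj⟩ := hpy
  have h2 := trans₂_ker_smul L L' h (m : k) hK y hy
  rw [Nat.cast_smul_eq_nsmul] at h2
  exact eq_zero_of_coprime_nsmul Fact.out hm y h2 hj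

/-- **INF-INJ-p**: `infl₂ L` is injective on `p`-primary classes if `H¹` of the `p`-subgroups of
all smaller finite levels vanishes -/
theorem infl₂_inj_pPart (p : ℕ) [Fact p.Prime] (L : 𝓤.Lv)
    (h1 : ∀ L' : 𝓤.Lv, L'.U ≤ L.U → PVanishH1 𝓤 A p L')
    (y : H2 (finLv 𝓤 A L)) (hpy : ∃ j : ℕ, (p ^ j) • y = 0)
    (hy : infl₂ 𝓤 A L y = 0) : y = 0 := by
  obtain ⟨L0, hL0, h0⟩ := exists_trans₂_eq_zero 𝓤 A L y hy
  exact trans₂_inj_pPart p L L0 hL0 (h1 L0 hL0) y hpy (h0 L0 hL0 le_rfl)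

end H15D

end
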